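import Mathlib
import Fermat.Agent.BadQ.CoeffGauss

/-!
# Residue fields of the Gauss valuation

For a field `E` of Laurent series over `K` whose nonzero elements are scalable, `ResIn A π E κ`
says that the reductions of its integral elements lie in `κ`. `ResIn.adjoin_root`: adjoining a
root `s` of a monic integral polynomial over `E` whose reduction is a simple root can enlarge
the residue field only by the reduction of `s`. The proof writes `w P'(s)` as a combination of
powers of `s` with integral coefficients by Euler's trace formula (`exists_trace_expansion`) and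
reduces arbitrary elements to integral ones by a primitive relation (`exists_integral_pairs`).
-/

set_option autoImplicit false
set_option linter.unusedSectionVars false

noncomputable section

open Polynomial IntermediateField

namespace FLTAgent.Lower.Levels.Gauss

open FLTAgent.BadQ

variable {K k : Type} [Field K] [Field k] (A : ValuationSubring K) (π : A →+* k)

/-- The reduction on `gV`, as a ring homomorphism. -/
def gHom : gV A π →+* LaurentSeries k where
  toFun x := gval A π (x : LaurentSeries K)
  map_one' := gval_one A π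
  map_mul' x y := gval_mul A π x.2 y.2
  map_zero' := gval_zero A π
  map_add' x y := gval_add A π x.2 y.2

theorem gHom_apply (x : gV A π) : gHom A π x = gval A π (x : LaurentSeries K) := rfl

/-- The reductions of the integral elements of `E` lie in `κ`. -/
def ResIn (E : IntermediateField K (LaurentSeries K)) (κ : IntermediateField k (LaurentSeries k)) :
    Prop :=
  ∀ x ∈ E, x ∈ gV A π → gval A π x ∈ κ

variable {A π}

theorem ResIn.mono {E E' : IntermediateField K (LaurentSeries K)}
    {κ κ' : IntermediateField k (LaurentSeries k)} (h : ResIn A π E κ) (hE : E' ≤ E)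
    (hκ : κ ≤ κ') : ResIn A π E' κ' :=
  fun x hx hxV => hκ (h x (hE hx) hxV)

/-- A scalable element satisfying a monic relation over `gV` lies in `gV`. -/
theorem mem_gV_of_root (hπ : Function.Surjective π) {x : LaurentSeries K}
    (hx : x ≠ 0 → Scalable A π x) {p : (gV A π)[X]} (hp : p.Monic)
    (h : eval₂ (gV A π).subtype x p = 0) : x ∈ gV A π := by
  rcases eq_or_ne x 0 with rfl | hx0
  · exact zero_mem _
  rcases (hx hx0).mem_or_inv_mem A π hπ with hV | ⟨hV, hr⟩
  · exact hV
  exfalso
  set y : gV A π := ⟨x⁻¹, hV⟩ with hy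
  have hgy : gHom A π y = 0 := hr
  set n := p.natDegree with hn
  have e : eval₂ (gV A π).subtype x p * (y : LaurentSeries K) ^ n =
      ((∑ i ∈ Finset.range (n + 1), p.coeff i * y ^ (n - i) : gV A π) : LaurentSeries K) := by
    rw [eval₂_eq_sum_range, Finset.sum_mul, AddSubmonoidClass.coe_finsetSum]
    refine Finset.sum_congr rfl fun i hi => ?_
    rw [MulMemClass.coe_mul, SubmonoidClass.coe_pow, Subring.subtype_apply, mul_assoc]
    congr 1
    rw [hy, ← Nat.add_sub_cancel' (Nat.lt_succ_iff.mp (Finset.mem_range.mp hi)), pow_add,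
      ← mul_assoc, Nat.add_sub_cancel_left]
    rw [← mul_pow, mul_inv_cancel₀ hx0, one_pow, one_mul]
  rw [h, zero_mul] at e
  have e' : (∑ i ∈ Finset.range (n + 1), p.coeff i * y ^ (n - i)) = 0 := Subtype.ext e.symm
  have e'' := congrArg (gHom A π) e'
  rw [map_sum, map_zero, Finset.sum_range_succ, hn, hp.coeff_natDegree, Nat.sub_self, pow_zero,
    mul_one, map_one, Finset.sum_eq_zero, zero_add] at e''
  · exact one_ne_zero e''
  · intro i hi
    rw [map_mul, map_pow, hgy, zero_pow, mul_zero]
    have := Finset.mem_range.mp hi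
    omega

/-- In a finite set of scalable elements one divides all the others. -/
theorem exists_dominant {ι : Type*} (hπ : Function.Surjective π)
    {E : IntermediateField K (LaurentSeries K)} (hE : ∀ x ∈ E, x ≠ 0 → Scalable A π x)
    (a : ι → LaurentSeries K) (haE : ∀ i, a i ∈ E) (s : Finset ι) (h : ∃ i ∈ s, a i ≠ 0) :
    ∃ m ∈ s, a m ≠ 0 ∧ ∀ i ∈ s, a i / a m ∈ gV A π := by
  classical
  induction s using Finset.induction with
  | empty => simp at h
  | insert j s hj ih =>
    rcases eq_or_ne (a j) 0 with hj0 | hj0
    · obtain ⟨i, hi, hi0⟩ := h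
      have his : i ∈ s := by
        rcases Finset.mem_insert.mp hi with rfl | h'
        · exact absurd hj0 hi0
        · exact h'
      obtain ⟨m, hm, hm0, hall⟩ := ih ⟨i, his, hi0⟩
      refine ⟨m, Finset.mem_insert_of_mem hm, hm0, fun l hl => ?_⟩
      rcases Finset.mem_insert.mp hl with rfl | h'
      · rw [hj0, zero_div]; exact zero_mem _
      · exact hall l h'
    by_cases hs : ∃ i ∈ s, a i ≠ 0
    · obtain ⟨m, hm, hm0, hall⟩ := ih hs
      rcases (hE _ (div_mem (haE j) (haE m)) (div_ne_zero hj0 hm0)).mem_or_inv_mem A π hπ with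
        hV | ⟨hV, -⟩
      · refine ⟨m, Finset.mem_insert_of_mem hm, hm0, fun l hl => ?_⟩
        rcases Finset.mem_insert.mp hl with rfl | h'
        · exact hV
        · exact hall l h'
      · refine ⟨j, Finset.mem_insert_self _ _, hj0, fun l hl => ?_⟩
        rcases Finset.mem_insert.mp hl with rfl | h'
        · rw [div_self hj0]; exact one_mem _
        · rw [inv_div] at hV
          rw [← div_mul_div_cancel₀ hm0]
          exact mul_mem (hall l h') hV
    · push Not at hs
      refine ⟨j, Finset.mem_insert_self _ _, hj0, fun l hl => ?_⟩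
      rcases Finset.mem_insert.mp hl with rfl | h'
      · rw [div_self hj0]; exact one_mem _
      · rw [hs l h', zero_div]; exact zero_mem _

section Adjoin

variable [CharZero K]

instance charZero_series : CharZero (LaurentSeries K) :=
  charZero_of_injective_algebraMap (algebraMap K (LaurentSeries K)).injective

variable (E : IntermediateField K (LaurentSeries K))

/-- The integral elements of `E`. -/
def intRing (A : ValuationSubring K) (π : A →+* k) : Subring E :=
  (gV A π).comap (algebraMap E (LaurentSeries K))

theorem mem_intRing {x : E} : x ∈ intRing E A π ↔ (x : LaurentSeries K) ∈ gV A π := Iff.rfl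

/-- `intRing → gV`. -/
def intRingHom : intRing E A π →+* gV A π :=
  ((algebraMap E (LaurentSeries K)).comp (intRing E A π).subtype).codRestrict (gV A π) fun x => x.2

theorem eval₂_map_intRingHom (p : (intRing E A π)[X]) (x : LaurentSeries K) :
    eval₂ (gV A π).subtype x (p.map (intRingHom E)) =
      eval₂ ((algebraMap E (LaurentSeries K)).comp (intRing E A π).subtype) x p := by
  rw [eval₂_map]
  rfl

variable {E}

theorem mem_gV_of_isIntegral (hπ : Function.Surjective π) {x : E}
    (hx : (x : LaurentSeries K) ≠ 0 → Scalable A π (x : LaurentSeries K))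
    (h : IsIntegral (intRing E A π) x) : (x : LaurentSeries K) ∈ gV A π := by
  obtain ⟨p, hp, hpx⟩ := h
  refine mem_gV_of_root hπ hx (hp.map (intRingHom E)) ?_
  rw [eval₂_map_intRingHom, ← Subfield.coe_zero E.toSubfield]
  have := congrArg (algebraMap E (LaurentSeries K)) hpx
  rw [hom_eval₂, map_zero] at this
  exact this.trans rfl

theorem exists_integral_relation (hπ : Function.Surjective π)
    (hE : ∀ x ∈ E, x ≠ 0 → Scalable A π x) {z : LaurentSeries K} (hz : IsIntegral E z) :
    ∃ (n : ℕ) (a : ℕ → intRing E A π), (∑ i ∈ Finset.range (n + 1),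
        ((a i : E) : LaurentSeries K) * z ^ i) = 0 ∧
      ∃ m ≤ n, gval A π ((a m : E) : LaurentSeries K) ≠ 0 := by
  classical
  obtain ⟨p, hp, hpz⟩ := hz
  set n := p.natDegree
  have hsum : ∑ i ∈ Finset.range (n + 1), ((p.coeff i : E) : LaurentSeries K) * z ^ i = 0 := by
    rw [eval₂_eq_sum_range] at hpz
    exact hpz
  obtain ⟨m, hm, hm0, hall⟩ := exists_dominant hπ hE (fun i => ((p.coeff i : E) : LaurentSeries K))
    (fun i => (p.coeff i).2) (Finset.range (n + 1)) ⟨n, Finset.self_mem_range_succ n, by
      rw [hp.coeff_natDegree, OneMemClass.coe_one]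
      exact one_ne_zero⟩
  let a : ℕ → intRing E A π := fun i =>
    if hi : i ∈ Finset.range (n + 1) then ⟨p.coeff i / p.coeff m, hall i hi⟩ else 0
  refine ⟨n, a, ?_, m, Nat.lt_succ_iff.mp (Finset.mem_range.mp hm), ?_⟩
  · calc ∑ i ∈ Finset.range (n + 1), ((a i : E) : LaurentSeries K) * z ^ i
        = ∑ i ∈ Finset.range (n + 1),
            ((p.coeff i : E) : LaurentSeries K) * z ^ i / ((p.coeff m : E) : LaurentSeries K) := by
          refine Finset.sum_congr rfl fun i hi => ?_
          simp only [a, dif_pos hi]
          exact (mul_div_right_comm _ _ _).symm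
      _ = 0 := by rw [← Finset.sum_div, hsum, zero_div]
  · have : ((a m : E) : LaurentSeries K) = 1 := by
      simp only [a, dif_pos hm]
      exact div_self hm0
    rw [this, gval_one]
    exact one_ne_zero

end Adjoin

section Generic

variable {R E F : Type} [CommRing R] [Field E] [Field F] [Algebra R E] [Algebra R F] [Algebra E F]
  [IsScalarTower R E F]

/-- Euler: `w P'(s)` is a combination of powers of `s` with integral coefficients. -/
theorem exists_trace_expansion [Algebra.IsSeparable E F] (pb : PowerBasis E F) {P : R[X]}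
    (hP : P.Monic) (hroot : aeval pb.gen P = 0) {w : F} (hw : IsIntegral R w) :
    ∃ (d : ℕ) (t : ℕ → E), (∀ i, IsIntegral R (t i)) ∧
      w * aeval pb.gen (derivative P) =
        ∑ i ∈ Finset.range d, algebraMap E F (t i) * pb.gen ^ i := by
  classical
  have : FiniteDimensional E F := pb.finite
  set s := pb.gen with hs
  let C := integralClosure R F
  let sC : C := ⟨s, P, hP, hroot⟩
  set PC : C[X] := P.map (algebraMap R C) with hPC
  have hPCroot : PC.IsRoot sC := by
    apply Subtype.ext
    rw [hPC, eval_map]
    show C.val (eval₂ _ sC P) = 0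
    rw [← AlgHom.coe_toRingHom, hom_eval₂]
    exact hroot
  set G : C[X] := PC /ₘ (X - Polynomial.C sC) with hG
  have hspec : (X - Polynomial.C sC) * G = PC := mul_divByMonic_eq_iff_isRoot.mpr hPCroot
  set GF : F[X] := G.map C.val.toRingHom with hGF
  set PF : F[X] := P.map (algebraMap R F) with hPF
  have hspecF : (X - Polynomial.C s) * GF = PF := by
    have := congrArg (Polynomial.map C.val.toRingHom) hspec
    rw [Polynomial.map_mul, Polynomial.map_sub, map_X, map_C, hPC, Polynomial.map_map] at this
    exact this
  have hderiv : GF.eval s = aeval s (derivative P) := by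
    rw [aeval_def, ← eval_map, ← derivative_map, ← hPF, ← hspecF, derivative_mul, derivative_sub,
      derivative_X, derivative_C]
    simp
  set d := GF.natDegree + 1
  refine ⟨d, fun i => Algebra.trace E F (w * GF.coeff i), fun i => Algebra.isIntegral_trace
    (hw.mul ?_), ?_⟩
  · rw [hGF, coeff_map]
    exact (G.coeff i).2
  rw [← hderiv]
  let σ₀ : F →ₐ[E] AlgebraicClosure E := IsAlgClosed.lift
  apply σ₀.toRingHom.injective
  show σ₀ _ = σ₀ _
  have e : ∀ τ : F →ₐ[E] AlgebraicClosure E,
      (PF.map (τ : F →+* AlgebraicClosure E)) =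
        (P.map (algebraMap R E)).map (algebraMap E (AlgebraicClosure E)) := fun τ => by
    rw [hPF, Polynomial.map_map, Polynomial.map_map, IsScalarTower.algebraMap_eq R E F,
      ← RingHom.comp_assoc]
    congr 1
    exact congrArg (fun g => RingHom.comp g (algebraMap R E)) τ.comp_algebraMap
  have hzero : ∀ σ : F →ₐ[E] AlgebraicClosure E, σ ≠ σ₀ →
      ∑ i ∈ Finset.range d, σ (GF.coeff i) * σ₀ s ^ i = 0 := by
    intro σ hσ
    have hne : σ₀ s - σ s ≠ 0 := fun h => hσ (pb.algHom_ext (sub_eq_zero.mp h).symm)
    have h1 := congrArg (fun q => (Polynomial.map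
      (σ : F →+* AlgebraicClosure E) q).eval (σ₀ s)) hspecF
    simp only [Polynomial.map_mul, Polynomial.map_sub, map_X, map_C, eval_mul, eval_sub, eval_X,
      eval_C, RingHom.coe_coe] at h1
    have h2 : (PF.map (σ : F →+* AlgebraicClosure E)).eval (σ₀ s) = 0 := by
      rw [e σ, ← e σ₀, eval_map, ← RingHom.coe_coe σ₀, eval₂_hom, hPF, eval_map, ← aeval_def,
        hroot, map_zero]
    rw [h2, mul_eq_zero] at h1
    have h3 := h1.resolve_left hne
    rwa [eval_eq_sum_range' (n := d) (lt_of_le_of_lt natDegree_map_le (Nat.lt_succ_self _)),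
      Finset.sum_congr rfl fun i _ => by rw [coeff_map]] at h3
  have hdiag : ∑ i ∈ Finset.range d, σ₀ (GF.coeff i) * σ₀ s ^ i = σ₀ (GF.eval s) := by
    rw [eval_eq_sum_range, map_sum]
    simp [d]
  rw [map_sum, map_mul]
  simp only [map_mul, AlgHom.commutes, map_pow, trace_eq_sum_embeddings (AlgebraicClosure E),
    Finset.sum_mul]
  rw [Finset.sum_comm, Finset.sum_eq_single σ₀]
  · rw [← hdiag, Finset.mul_sum]
    simp [mul_assoc]
  · intro σ _ hσ
    rw [Finset.sum_congr rfl fun i _ => mul_assoc (σ w) _ _, ← Finset.mul_sum, hzero σ hσ, mul_zero]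
  · intro h; exact absurd (Finset.mem_univ σ₀) h

/-- The partial sums of a relation of `z` are integral, also after multiplication by `z`. -/
theorem exists_integral_pairs {R F : Type} [CommRing R] [Field F] [Algebra R F] (n : ℕ)
    (a : ℕ → R) (z : F) (hrel : ∑ i ∈ Finset.range (n + 1), algebraMap R F (a i) * z ^ i = 0) :
    ∃ b : ℕ → F, b 0 = 0 ∧ (∀ i ≤ n, b i = algebraMap R F (a i) + b (i + 1) * z) ∧
      (∀ i ≤ n + 1, IsIntegral R (b i) ∧ IsIntegral R (b i * z)) ∧
      ∀ S : Subring F, (∀ i, algebraMap R F (a i) ∈ S) → z ∈ S → ∀ i, b i ∈ S := by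
  classical
  let b : ℕ → F := fun i => ∑ j ∈ Finset.range (n + 1 - i), algebraMap R F (a (i + j)) * z ^ j
  have hstep : ∀ i ≤ n, b i = algebraMap R F (a i) + b (i + 1) * z := by
    intro i hi
    simp only [b]
    rw [show n + 1 - i = (n + 1 - (i + 1)) + 1 by omega, Finset.sum_range_succ', add_comm,
      Finset.sum_mul]
    congr 1
    · simp
    · refine Finset.sum_congr rfl fun j _ => ?_
      rw [show i + (j + 1) = i + 1 + j by omega, pow_succ, mul_assoc]
  have hb0 : b 0 = 0 := by simpa [b] using hrel
  have hident : ∀ i ≤ n + 1,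
      ∑ j ∈ Finset.range i, algebraMap R F (a j) * z ^ j + b i * z ^ i = 0 := by
    intro i
    induction i with
    | zero => intro _; simp [hb0]
    | succ i ih =>
      intro hi
      rw [Finset.sum_range_succ, ← ih (by omega), hstep i (by omega)]
      ring
  have hbz : ∀ i ≤ n + 1, IsIntegral R (b i) → IsIntegral R (b i * z) := by
    intro i hin hbi
    rcases Nat.eq_zero_or_pos i with rfl | hi
    · rw [hb0, zero_mul]; exact isIntegral_zero
    rcases eq_or_ne (b i) 0 with h0 | h0
    · rw [h0, zero_mul]; exact isIntegral_zero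
    let C := integralClosure R F
    let bC : C := ⟨b i, hbi⟩
    let q : C[X] := Polynomial.C bC * X ^ i +
      ∑ j ∈ Finset.range i, Polynomial.C (algebraMap R C (a j)) * X ^ j
    have hq : aeval z q = 0 := by
      simp only [q, map_add, map_mul, aeval_C, aeval_X, map_pow, map_sum]
      rw [add_comm]
      exact hident i hin
    have hdeg : (∑ j ∈ Finset.range i, Polynomial.C (algebraMap R C (a j)) * X ^ j).degree <
        (Polynomial.C bC * X ^ i).degree := by
      rw [degree_C_mul_X_pow i (fun h => h0 (congrArg Subtype.val h))]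
      refine lt_of_le_of_lt (degree_sum_le _ _) ((Finset.sup_lt_iff (WithBot.bot_lt_coe i)).mpr ?_)
      intro j hj
      exact lt_of_le_of_lt (degree_C_mul_X_pow_le j _)
        (WithBot.coe_lt_coe.mpr (Finset.mem_range.mp hj))
    have hlc : q.leadingCoeff = bC := by
      rw [show q.leadingCoeff = (Polynomial.C bC * X ^ i).leadingCoeff from
        leadingCoeff_add_of_degree_lt' hdeg]
      exact leadingCoeff_C_mul_X_pow bC i
    have := isIntegral_leadingCoeff_smul q z hq
    rw [hlc] at this
    exact isIntegral_trans _ this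
  have hbint : ∀ k, IsIntegral R (b (n + 1 - k)) := by
    intro k
    induction k with
    | zero => simp [b, isIntegral_zero]
    | succ k ih =>
      rcases Nat.lt_or_ge n k with hk | hk
      · rwa [show n + 1 - (k + 1) = n + 1 - k by omega]
      · rw [show n + 1 - (k + 1) = n - k by omega, hstep _ (by omega),
          show n - k + 1 = n + 1 - k by omega]
        exact isIntegral_algebraMap.add (hbz _ (by omega) ih)
  refine ⟨b, hb0, hstep, fun i hi => ?_, fun S haS hzS i => ?_⟩
  · have := hbint (n + 1 - i)
    rw [show n + 1 - (n + 1 - i) = i by omega] at this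
    exact ⟨this, hbz i hi this⟩
  · exact sum_mem fun j _ => mul_mem (haS _) (pow_mem hzS j)

end Generic

section AdjoinRoot

variable [CharZero K] {E : IntermediateField K (LaurentSeries K)}

set_option synthInstance.maxHeartbeats 200000 in
set_option maxHeartbeats 1000000 in
/-- Adjoining a root with simple reduction adjoins its reduction to the residue field. -/
theorem ResIn.adjoin_root (hπ : Function.Surjective π)
    {κ κ' : IntermediateField k (LaurentSeries k)} {s : gV A π}
    (hF : ∀ x ∈ E⟮(s : LaurentSeries K)⟯, x ≠ 0 → Scalable A π x)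
    (hres : ResIn A π E κ) (hκ : κ ≤ κ') {P : (gV A π)[X]} (hP : P.Monic)
    (hPE : ∀ i, (P.coeff i : LaurentSeries K) ∈ E) (hs : P.eval s = 0)
    (hsimple : eval (gHom A π s) (P.map (gHom A π)).derivative ≠ 0) (hsκ : gHom A π s ∈ κ') :
    ResIn A π ((E⟮(s : LaurentSeries K)⟯).restrictScalars K) κ' := by
  classical
  intro z hz hzV
  rw [IntermediateField.mem_restrictScalars] at hz
  set F := E⟮(s : LaurentSeries K)⟯ with hFdef
  let R := intRing E A π
  letI algRF : Algebra R F := ((algebraMap E F).comp R.subtype).toAlgebra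
  have : IsScalarTower R E F := IsScalarTower.of_algebraMap_eq' rfl
  let φ : R →+* LaurentSeries K := (algebraMap E (LaurentSeries K)).comp R.subtype
  let ιF : F →+* LaurentSeries K := F.val.toRingHom
  have hφ : ιF.comp (algebraMap R F) = φ := rfl
  have hφg : (gV A π).subtype.comp (intRingHom E) = φ := rfl
  have hE : ∀ x ∈ E, x ≠ 0 → Scalable A π x := fun x hx =>
    hF x (IntermediateField.algebraMap_mem F (⟨x, hx⟩ : E))
  -- descend the polynomial
  have hlift : P ∈ Polynomial.lifts (intRingHom (A := A) (π := π) E) :=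
    (Polynomial.lifts_iff_coeff_lifts P).mpr fun i => ⟨⟨⟨_, hPE i⟩, (P.coeff i).2⟩, rfl⟩
  obtain ⟨P₀, hP₀, -, hP₀m⟩ := Polynomial.lifts_and_degree_eq_and_monic hlift hP
  have hs₀ : eval₂ φ (s : LaurentSeries K) P₀ = 0 := by
    have h := congrArg (gV A π).subtype hs
    rw [map_zero, ← eval₂_at_apply, ← hP₀, eval₂_map, hφg] at h
    exact h
  have hsE : IsIntegral E (s : LaurentSeries K) := ⟨P₀.map R.subtype, hP₀m.map _, by
    rw [eval₂_map]; exact hs₀⟩
  have : FiniteDimensional E F := IntermediateField.adjoin.finiteDimensional hsE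
  have : CharZero E := charZero_of_injective_algebraMap (algebraMap K E).injective
  let pb : PowerBasis E F := IntermediateField.adjoin.powerBasis hsE
  have hgen : ιF pb.gen = (s : LaurentSeries K) := rfl
  have hroot : aeval pb.gen P₀ = 0 := by
    apply ιF.injective
    rw [map_zero, aeval_def, hom_eval₂, hφ, hgen]
    exact hs₀
  have hint : ∀ x : E, IsIntegral R x → ((x : E) : LaurentSeries K) ∈ gV A π := fun x hx =>
    mem_gV_of_isIntegral hπ (fun h => hE _ x.2 h) hx
  -- integral elements reduce into `κ'`
  have hwmem : ∀ w : F, (w : LaurentSeries K) ∈ gV A π → IsIntegral R w →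
      gval A π (w : LaurentSeries K) ∈ κ' := by
    intro w hwV hw
    obtain ⟨d, t, ht, hexp⟩ := exists_trace_expansion pb hP₀m hroot hw
    let wV : gV A π := ⟨(w : LaurentSeries K), hwV⟩
    have hd : ιF (aeval pb.gen (derivative P₀)) = ((derivative P).eval s : gV A π) := by
      rw [aeval_def, hom_eval₂, hφ, hgen, ← hP₀, derivative_map, eval_map]
      show _ = (gV A π).subtype _
      rw [hom_eval₂, hφg]
      rfl
    have hval : (wV * (derivative P).eval s : gV A π) =
        ∑ i ∈ Finset.range d, ⟨_, hint _ (ht i)⟩ * s ^ i := by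
      refine Subtype.ext ?_
      rw [MulMemClass.coe_mul, ← hd, AddSubmonoidClass.coe_finsetSum]
      have := congrArg ιF hexp
      rw [map_mul, map_sum] at this
      refine this.trans (Finset.sum_congr rfl fun i _ => ?_)
      rw [map_mul, map_pow, hgen]
      rfl
    have hval' := congrArg (gHom A π) hval
    rw [map_mul, map_sum, ← eval_map_apply, ← derivative_map] at hval'
    have hmem : (∑ i ∈ Finset.range d, gHom A π (⟨_, hint _ (ht i)⟩ * s ^ i)) ∈ κ' := by
      refine sum_mem fun i _ => ?_
      rw [map_mul, map_pow]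
      exact mul_mem (hκ (hres _ (t i).2 (hint _ (ht i)))) (pow_mem hsκ i)
    rw [← hval'] at hmem
    have hdk : eval (gHom A π s) (derivative (P.map (gHom A π))) ∈ κ' := by
      rw [eval_eq_sum_range]
      refine sum_mem fun i _ => ?_
      rw [coeff_derivative, coeff_map]
      exact mul_mem (mul_mem (hκ (hres _ (hPE (i + 1)) (P.coeff (i + 1)).2))
        (add_mem (IntermediateField.natCast_mem _ _) (one_mem _))) (pow_mem hsκ i)
    have := div_mem hmem hdk
    rwa [mul_div_cancel_right₀ _ hsimple] at this
  -- a primitive relation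
  let zF : F := ⟨z, hz⟩
  obtain ⟨n, a, hrel, m, hmn, hm⟩ := exists_integral_relation hπ hE
    (z := z) ((IsIntegral.of_finite E zF).map F.val)
  obtain ⟨b, hb0, hstep, hbint, hbS⟩ := exists_integral_pairs n a zF (by
    apply ιF.injective
    rw [map_zero, map_sum]
    simp only [map_mul, map_pow]
    exact hrel)
  have hbV : ∀ i, (b i : LaurentSeries K) ∈ gV A π :=
    hbS ((gV A π).comap ιF) (fun i => (a i).2) hzV
  obtain ⟨i, hin, hib⟩ : ∃ i ≤ n + 1, gval A π (b i : LaurentSeries K) ≠ 0 := by
    by_contra h
    push Not at h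
    apply hm
    have e : gHom A π ⟨_, hbV m⟩ = gHom A π ⟨_, (a m).2⟩ +
        gHom A π ⟨_, hbV (m + 1)⟩ * gHom A π ⟨z, hzV⟩ := by
      rw [← map_mul, ← map_add]
      refine congrArg _ (Subtype.ext ?_)
      have h' := congrArg ιF (hstep m hmn)
      rw [map_add, map_mul] at h'
      exact h'
    simp only [gHom_apply] at e
    rw [h m (by omega), h (m + 1) (by omega), zero_mul, add_zero] at e
    exact e.symm
  have h1 := hwmem _ (hbV i) (hbint i hin).1
  have hbzV : ((b i * zF : F) : LaurentSeries K) ∈ gV A π := mul_mem (hbV i) hzV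
  have h2 := hwmem _ hbzV (hbint i hin).2
  rw [MulMemClass.coe_mul, gval_mul A π (hbV i) hzV] at h2
  have h3 := div_mem h2 h1
  rwa [mul_div_cancel_left₀ _ hib] at h3

end AdjoinRoot

end FLTAgent.Lower.Levels.Gauss
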