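import Mathlib
import Fermat.Agent.Lower.Levels.Inertia.Residue
import Fermat.Agent.ModularCosets.Series

/-!
# Classes of series modulo constants, and their reduction

`Cls k` is `k((q))ˣ / kˣ`, with classes `qcls`; it is torsion free over an algebraically closed
field (`eq_zero_of_nsmul_eq_zero`). `clsOf` and `powOf` are the classes and the classes of
`n`-th powers of a subfield. `Sc K` is the field generated by the series with integer
coefficients (stable under twists by roots of unity and `q ↦ q^n`), its elements are scalable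
(`scalable_Sc`), and `cl` is the class of the reduction of a scalable series (`cl_mul`,
`cl_eq`).
-/

set_option autoImplicit false
set_option linter.unusedSectionVars false

noncomputable section

open ModularCurve IntermediateField

namespace FLTAgent.Lower.Levels.Gauss

open FLTAgent.BadQ
open FLTAgent.ModularCosets (twist twist_coeff twist_C)

/-! ### Classes of nonzero series modulo constants -/

section Cls

variable (k : Type) [Field k]

/-- The nonzero constants among the units of `k((q))`. -/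
def constU : Subgroup (LaurentSeries k)ˣ :=
  (Units.map (HahnSeries.C : k →+* LaurentSeries k).toMonoidHom).range

/-- Nonzero series modulo constants, written additively. -/
def Cls : Type := Additive ((LaurentSeries k)ˣ ⧸ constU k)

instance addCommGroupCls : AddCommGroup (Cls k) :=
  inferInstanceAs (AddCommGroup (Additive ((LaurentSeries k)ˣ ⧸ constU k)))

variable {k}

/-- The class of a unit. -/
def mkCls (u : (LaurentSeries k)ˣ) : Cls k := Additive.ofMul (QuotientGroup.mk u)

theorem mkCls_mul (u w : (LaurentSeries k)ˣ) : mkCls (u * w) = mkCls u + mkCls w := rfl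

theorem mkCls_surjective : Function.Surjective (mkCls (k := k)) := fun g => by
  obtain ⟨u, hu⟩ := QuotientGroup.mk_surjective (Additive.toMul g)
  exact ⟨u, congrArg Additive.ofMul hu⟩

theorem mkCls_eq_zero_iff {u : (LaurentSeries k)ˣ} : mkCls u = 0 ↔ u ∈ constU k :=
  (QuotientGroup.eq_one_iff (N := constU k) u)

open Classical in
/-- The class of a series. -/
def qcls (x : LaurentSeries k) : Cls k :=
  if h : x ≠ 0 then mkCls (Units.mk0 x h) else 0

theorem qcls_eq {x : LaurentSeries k} (h : x ≠ 0) : qcls x = mkCls (Units.mk0 x h) := dif_pos h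

theorem qcls_unit (u : (LaurentSeries k)ˣ) : qcls (u : LaurentSeries k) = mkCls u := by
  rw [qcls_eq u.ne_zero]
  exact congrArg mkCls (Units.ext rfl)

theorem qcls_mul {x y : LaurentSeries k} (hx : x ≠ 0) (hy : y ≠ 0) :
    qcls (x * y) = qcls x + qcls y := by
  rw [qcls_eq hx, qcls_eq hy, qcls_eq (mul_ne_zero hx hy), ← mkCls_mul]
  exact congrArg mkCls (Units.ext rfl)

theorem qcls_C (c : k) : qcls (HahnSeries.C c : LaurentSeries k) = 0 := by
  rcases eq_or_ne c 0 with rfl | hc
  · rw [map_zero, qcls, dif_neg (by simp)]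
  have h : (HahnSeries.C c : LaurentSeries k) ≠ 0 := (map_ne_zero _).mpr hc
  rw [qcls_eq h]
  exact mkCls_eq_zero_iff.mpr ⟨Units.mk0 c hc, Units.ext rfl⟩

theorem qcls_one : qcls (1 : LaurentSeries k) = 0 := by
  rw [← map_one (HahnSeries.C : k →+* LaurentSeries k), qcls_C]

theorem qcls_C_mul {c : k} (hc : c ≠ 0) {x : LaurentSeries k} (hx : x ≠ 0) :
    qcls (HahnSeries.C c * x) = qcls x := by
  rw [qcls_mul ((map_ne_zero _).mpr hc) hx, qcls_C, zero_add]

theorem qcls_inv {x : LaurentSeries k} (hx : x ≠ 0) : qcls x⁻¹ = -qcls x := by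
  refine eq_neg_of_add_eq_zero_left ?_
  rw [← qcls_mul (inv_ne_zero hx) hx, inv_mul_cancel₀ hx, qcls_one]

theorem qcls_pow {x : LaurentSeries k} (hx : x ≠ 0) (n : ℕ) : qcls (x ^ n) = n • qcls x := by
  induction n with
  | zero => rw [pow_zero, zero_smul, qcls_one]
  | succ n ih => rw [pow_succ, qcls_mul (pow_ne_zero n hx) hx, ih, add_smul, one_smul]

theorem qcls_prod {ι : Type*} (s : Finset ι) {x : ι → LaurentSeries k} (hx : ∀ i ∈ s, x i ≠ 0) :
    qcls (∏ i ∈ s, x i) = ∑ i ∈ s, qcls (x i) := by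
  classical
  induction s using Finset.induction with
  | empty => simp [qcls_one]
  | insert a s ha ih =>
    have hs : ∀ i ∈ s, x i ≠ 0 := fun i hi => hx i (Finset.mem_insert_of_mem hi)
    rw [Finset.prod_insert ha, Finset.sum_insert ha,
      qcls_mul (hx a (Finset.mem_insert_self a s)) (Finset.prod_ne_zero_iff.mpr hs), ih hs]

/-- Two series with the same class differ by a constant. -/
theorem exists_C_of_qcls_eq {x y : LaurentSeries k} (hx : x ≠ 0) (hy : y ≠ 0)
    (h : qcls x = qcls y) : ∃ c : k, c ≠ 0 ∧ x = HahnSeries.C c * y := by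
  have h0 : qcls (x / y) = 0 := by
    rw [div_eq_mul_inv, qcls_mul hx (inv_ne_zero hy), qcls_inv hy, h, add_neg_cancel]
  rw [qcls_eq (div_ne_zero hx hy), mkCls_eq_zero_iff] at h0
  obtain ⟨u, hu⟩ := h0
  refine ⟨u, u.ne_zero, ?_⟩
  rw [show (HahnSeries.C (u : k) : LaurentSeries k) = x / y from congrArg Units.val hu,
    div_mul_cancel₀ _ hy]

/-- Over an algebraically closed field the classes are torsion free. -/
theorem eq_zero_of_nsmul_eq_zero [IsAlgClosed k] {g : Cls k} {n : ℕ} (hn : n ≠ 0)
    (h : n • g = 0) : g = 0 := by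
  obtain ⟨u, hu⟩ := mkCls_surjective g
  have hg : g = qcls (u : LaurentSeries k) := hu.symm.trans (qcls_unit u).symm
  rw [hg, ← qcls_pow u.ne_zero, ← qcls_one] at h
  obtain ⟨c, hc, hpow⟩ := exists_C_of_qcls_eq (pow_ne_zero n u.ne_zero) one_ne_zero h
  rw [mul_one] at hpow
  obtain ⟨d, hd⟩ := IsAlgClosed.exists_pow_nat_eq c (Nat.pos_of_ne_zero hn)
  have hd0 : d ≠ 0 := fun h0 => hc (by rw [← hd, h0, zero_pow hn])
  have h1 : ((u : LaurentSeries k) / HahnSeries.C d) ^ n = 1 := by
    rw [div_pow, hpow, ← map_pow, hd, div_self ((map_ne_zero _).mpr hc)]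
  set P : Polynomial k := Polynomial.X ^ n - Polynomial.C 1 with hP
  have hmap : (P.map (HahnSeries.C : k →+* LaurentSeries k)).eval
      ((u : LaurentSeries k) / HahnSeries.C d) = 0 := by
    rw [hP, Polynomial.map_sub, Polynomial.map_pow, Polynomial.map_X, Polynomial.map_C, map_one,
      Polynomial.eval_sub, Polynomial.eval_pow, Polynomial.eval_X, Polynomial.eval_C, h1, sub_self]
  have hP0 : P.Monic := Polynomial.monic_X_pow_sub_C 1 hn
  have hroots := Polynomial.Splits.roots_map (f := P) (IsAlgClosed.splits P)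
    (HahnSeries.C : k →+* LaurentSeries k)
  have hmem : ((u : LaurentSeries k) / HahnSeries.C d) ∈
      (P.map (HahnSeries.C : k →+* LaurentSeries k)).roots :=
    Polynomial.mem_roots'.mpr ⟨(hP0.map _).ne_zero, hmap⟩
  rw [hroots] at hmem
  obtain ⟨e, -, he⟩ := Multiset.mem_map.mp hmem
  rw [hg, show (u : LaurentSeries k) = HahnSeries.C (e * d) by
    rw [map_mul, he, div_mul_cancel₀ _ ((map_ne_zero _).mpr hd0)], qcls_C]

variable (k) in
/-- The classes of the nonzero elements of a field of series. -/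
def clsOf (κ : IntermediateField k (LaurentSeries k)) : AddSubgroup (Cls k) where
  carrier := {g | ∃ x ∈ κ, x ≠ 0 ∧ qcls x = g}
  zero_mem' := ⟨1, one_mem κ, one_ne_zero, qcls_one⟩
  add_mem' := by
    rintro _ _ ⟨x, hx, hx0, rfl⟩ ⟨y, hy, hy0, rfl⟩
    exact ⟨x * y, mul_mem hx hy, mul_ne_zero hx0 hy0, qcls_mul hx0 hy0⟩
  neg_mem' := by
    rintro _ ⟨x, hx, hx0, rfl⟩
    exact ⟨x⁻¹, inv_mem hx, inv_ne_zero hx0, qcls_inv hx0⟩

theorem qcls_mem_clsOf {κ : IntermediateField k (LaurentSeries k)} {x : LaurentSeries k}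
    (hx : x ∈ κ) (hx0 : x ≠ 0) : qcls x ∈ clsOf k κ := ⟨x, hx, hx0, rfl⟩

theorem clsOf_mono {κ κ' : IntermediateField k (LaurentSeries k)} (h : κ ≤ κ') :
    clsOf k κ ≤ clsOf k κ' := fun _ ⟨x, hx, hx0, e⟩ => ⟨x, h hx, hx0, e⟩

variable (k) in
/-- The `n`-th powers of the classes of a field of series. -/
def powOf (κ : IntermediateField k (LaurentSeries k)) (n : ℕ) : AddSubgroup (Cls k) :=
  (clsOf k κ).map (nsmulAddMonoidHom n)

theorem mem_powOf {κ : IntermediateField k (LaurentSeries k)} {n : ℕ} {g : Cls k} :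
    g ∈ powOf k κ n ↔ ∃ h ∈ clsOf k κ, n • h = g := AddSubgroup.mem_map

theorem powOf_mono {κ κ' : IntermediateField k (LaurentSeries k)} (h : κ ≤ κ') (n : ℕ) :
    powOf k κ n ≤ powOf k κ' n := AddSubgroup.map_mono (clsOf_mono h)

/-- The map on classes induced by an endomorphism fixing the constants as a set. -/
def clsMap (g : LaurentSeries k →+* LaurentSeries k)
    (hg : ∀ a : k, ∃ b : k, g (HahnSeries.C a) = HahnSeries.C b) : Cls k →+ Cls k :=
  MonoidHom.toAdditive (QuotientGroup.map (constU k) (constU k) (Units.map g.toMonoidHom)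
    (by
      rintro _ ⟨a, rfl⟩
      obtain ⟨b, hb⟩ := hg a
      have hb0 : b ≠ 0 := fun h0 => by
        rw [h0, map_zero] at hb
        exact a.ne_zero (by simpa using hb)
      exact ⟨Units.mk0 b hb0, Units.ext hb.symm⟩))

theorem clsMap_qcls (g : LaurentSeries k →+* LaurentSeries k)
    (hg : ∀ a : k, ∃ b : k, g (HahnSeries.C a) = HahnSeries.C b) {x : LaurentSeries k}
    (hx : x ≠ 0) : clsMap g hg (qcls x) = qcls (g x) := by
  rw [qcls_eq hx, qcls_eq ((map_ne_zero g).mpr hx)]
  show mkCls (Units.map g.toMonoidHom (Units.mk0 x hx)) = _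
  exact congrArg mkCls (Units.ext rfl)

end Cls

/-! ### Series generated by integer series -/

section Scal

variable (K : Type) [Field K]

/-- The field generated by the series with integer coefficients. -/
def Sc : IntermediateField K (LaurentSeries K) :=
  IntermediateField.adjoin K (Set.range (intSer K))

variable {K}

theorem intSer_mem_Sc (f : LaurentSeries ℤ) : intSer K f ∈ Sc K :=
  subset_adjoin K _ ⟨f, rfl⟩

theorem algebraMap_eq_C' (c : K) :
    algebraMap K (LaurentSeries K) c = HahnSeries.C c :=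
  algebraMap_laurentSeries_eq_single K c

theorem C_mem_Sc (c : K) : HahnSeries.C c ∈ Sc K := by
  rw [← algebraMap_eq_C']
  exact IntermediateField.algebraMap_mem _ _

/-- A ring endomorphism of series preserving constants and integer series preserves `Sc`. -/
theorem map_mem_Sc (g : LaurentSeries K →+* LaurentSeries K)
    (hC : ∀ c : K, g (HahnSeries.C c) ∈ Sc K) (hint : ∀ f, g (intSer K f) ∈ Sc K)
    {x : LaurentSeries K} (hx : x ∈ Sc K) : g x ∈ Sc K := by
  unfold Sc at hx
  induction hx using IntermediateField.adjoin_induction with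
  | mem y hy => obtain ⟨f, rfl⟩ := hy; exact hint f
  | algebraMap c => rw [algebraMap_eq_C']; exact hC c
  | add y z _ _ hy hz => rw [map_add]; exact add_mem hy hz
  | inv y _ hy => rw [map_inv₀]; exact inv_mem hy
  | mul y z _ _ hy hz => rw [map_mul]; exact mul_mem hy hz

theorem coeffMap_mem_Sc (τ : K →+* K) {x : LaurentSeries K} (hx : x ∈ Sc K) :
    coeffMap τ x ∈ Sc K := by
  refine map_mem_Sc (coeffMap τ) (fun c => ?_) (fun f => ?_) hx
  · rw [HahnSeries.C_apply, coeffMap_single]
    exact C_mem_Sc (τ c)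
  · convert intSer_mem_Sc f using 1
    ext i
    simp

theorem qExpand_mem_Sc (n : ℕ) [NeZero n] {x : LaurentSeries K} (hx : x ∈ Sc K) :
    qExpand K n x ∈ Sc K := by
  refine map_mem_Sc (qExpand K n) (fun c => ?_) (fun f => ?_) hx
  · rw [qExpand_C]
    exact C_mem_Sc c
  · rw [intSer, ← coeffMap_qExpand]
    exact intSer_mem_Sc _

/-- The part of a series supported on a residue class. -/
def residuePart (n : ℕ) (i : ℕ) (f : LaurentSeries ℤ) : LaurentSeries ℤ where
  coeff j := if (j % (n : ℤ)).toNat = i then f.coeff j else 0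
  isPWO_support' := f.isPWO_support'.mono fun j hj h => hj (by simp [h])

theorem twist_intSer_mem_Sc {u : Kˣ} {n : ℕ} (hn : n ≠ 0) (hu : u ^ n = 1)
    (f : LaurentSeries ℤ) : twist u (intSer K f) ∈ Sc K := by
  have e : twist u (intSer K f) =
      ∑ i ∈ Finset.range n, HahnSeries.C ((u : K) ^ i) * intSer K (residuePart n i f) := by
    ext j
    rw [HahnSeries.coeff_sum, twist_coeff]
    have hj0 : 0 ≤ j % (n : ℤ) := Int.emod_nonneg _ (by exact_mod_cast hn)
    have hjlt : (j % (n : ℤ)).toNat < n := by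
      have := Int.emod_lt_of_pos j (show (0 : ℤ) < n by omega)
      omega
    rw [Finset.sum_eq_single (j % (n : ℤ)).toNat]
    · rw [HahnSeries.C_apply, HahnSeries.coeff_single_zero_mul]
      simp only [intSer, coeffMap_coeff, residuePart, if_pos]
      congr 1
      have h1 : u ^ j = u ^ (j % (n : ℤ)) := by
        conv_lhs => rw [← Int.emod_add_mul_ediv j n]
        rw [zpow_add, zpow_mul, zpow_natCast u n, hu, one_zpow, mul_one]
      rw [h1]
      conv_lhs => rw [show j % (n : ℤ) = ((j % (n : ℤ)).toNat : ℤ) by omega]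
      rw [zpow_natCast, Units.val_pow_eq_pow_val]
    · intro i _ hi
      rw [HahnSeries.C_apply, HahnSeries.coeff_single_zero_mul]
      simp [intSer, residuePart, Ne.symm hi]
    · intro h
      exact absurd (Finset.mem_range.mpr hjlt) h
  rw [e]
  exact sum_mem fun i _ => mul_mem (C_mem_Sc _) (intSer_mem_Sc _)

theorem twist_mem_Sc {u : Kˣ} {n : ℕ} (hn : n ≠ 0) (hu : u ^ n = 1) {x : LaurentSeries K}
    (hx : x ∈ Sc K) : twist u x ∈ Sc K :=
  map_mem_Sc (twist u) (fun c => by rw [twist_C]; exact C_mem_Sc c)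
    (fun f => twist_intSer_mem_Sc hn hu f) hx

theorem jqModC_eq_intSer : jqModC K = intSer K (jqModC ℤ) :=
  (coeffMap_jqModC (Int.castRingHom K)).symm

theorem jqModC_mem_Sc : jqModC K ∈ Sc K := by
  rw [jqModC_eq_intSer]
  exact intSer_mem_Sc _

variable {k : Type} [Field k] (A : ValuationSubring K) (π : A →+* k)

/-- The nonzero elements of `Sc` are scalable. -/
theorem scalable_Sc [CharZero K] {q : ℕ} [CharP k q] (hq : 2 ≤ q) {x : LaurentSeries K}
    (hx : x ∈ Sc K) (h0 : x ≠ 0) : Scalable A π x :=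
  scalable_of_mem_adjoin A π hq subset_rfl hx h0

open Classical in
/-- The class of the reduction of a scalable series. -/
def cl (x : LaurentSeries K) : Cls k :=
  if h : Scalable A π x then
    qcls (gval A π (HahnSeries.C (Scalable.exists_smul A π h).choose * x))
  else 0

variable {A π}

theorem scalable_mul {x y : LaurentSeries K} (hx : Scalable A π x) (hy : Scalable A π y) :
    Scalable A π (x * y) := by
  obtain ⟨d, hd, u, hu, hu0, rfl⟩ := hx
  obtain ⟨e, he, w, hw, hw0, rfl⟩ := hy
  exact ⟨d * e, mul_ne_zero hd he, u * w, mul_mem hu hw,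
    by rw [gval_mul A π hu hw]; exact mul_ne_zero hu0 hw0, by rw [map_mul]; ring⟩

theorem scalable_ne_zero {x : LaurentSeries K} (hx : Scalable A π x) : x ≠ 0 := by
  obtain ⟨d, hd, y, hy, hy0, rfl⟩ := hx
  refine mul_ne_zero ((map_ne_zero _).mpr hd) fun h => hy0 ?_
  rw [h, gval_zero]

/-- An element scaling a unit to a unit reduces to a nonzero constant. -/
theorem exists_res_of_scale (hπ : Function.Surjective π) {e : K} {y : LaurentSeries K}
    (hy : y ∈ gV A π) (hy0 : gval A π y ≠ 0) (hey : HahnSeries.C e * y ∈ gV A π)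
    (hey0 : gval A π (HahnSeries.C e * y) ≠ 0) :
    ∃ c : k, c ≠ 0 ∧ gval A π (HahnSeries.C e * y) = HahnSeries.C c * gval A π y := by
  obtain ⟨hyi, -⟩ := inv_mem_gV A π hy hy0
  have hyne : y ≠ 0 := fun h => hy0 (by rw [h, gval_zero])
  have he : e ∈ A := mem_of_C_mem_gV A π hπ (by
    have := mul_mem hey hyi
    rwa [mul_assoc, mul_inv_cancel₀ hyne, mul_one] at this)
  have h1 := gval_C A π ⟨e, he⟩
  have h2 : gval A π (HahnSeries.C e * y) = HahnSeries.C (π ⟨e, he⟩) * gval A π y := by
    rw [gval_mul A π h1.1 hy, h1.2]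
  exact ⟨π ⟨e, he⟩, fun h => hey0 (by rw [h2, h, map_zero, zero_mul]), h2⟩

theorem cl_eq (hπ : Function.Surjective π) {x : LaurentSeries K} {c : K} (hc : c ≠ 0)
    (hV : HahnSeries.C c * x ∈ gV A π) (h0 : gval A π (HahnSeries.C c * x) ≠ 0) :
    cl A π x = qcls (gval A π (HahnSeries.C c * x)) := by
  have hx : Scalable A π x := ⟨c⁻¹, inv_ne_zero hc, _, hV, h0, by
    rw [← mul_assoc, ← map_mul, inv_mul_cancel₀ hc, map_one, one_mul]⟩
  rw [cl, dif_pos hx]
  obtain ⟨hd, hdV, hd0⟩ := (Scalable.exists_smul A π hx).choose_spec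
  set d := (Scalable.exists_smul A π hx).choose
  have e : HahnSeries.C d * x = HahnSeries.C (d / c) * (HahnSeries.C c * x) := by
    rw [← mul_assoc, ← map_mul, div_mul_cancel₀ _ hc]
  rw [e] at hdV hd0 ⊢
  obtain ⟨r, hr, hre⟩ := exists_res_of_scale hπ hV h0 hdV hd0
  rw [hre, qcls_C_mul hr h0]

theorem cl_of_mem (hπ : Function.Surjective π) {x : LaurentSeries K} (hV : x ∈ gV A π)
    (h0 : gval A π x ≠ 0) : cl A π x = qcls (gval A π x) := by
  rw [cl_eq hπ one_ne_zero] <;> simp [hV, h0]

/-- The class of the reduction is multiplicative. -/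
theorem cl_mul (hπ : Function.Surjective π) {x y : LaurentSeries K} (hx : Scalable A π x)
    (hy : Scalable A π y) : cl A π (x * y) = cl A π x + cl A π y := by
  obtain ⟨c, hc, hcV, hc0⟩ := Scalable.exists_smul A π hx
  obtain ⟨d, hd, hdV, hd0⟩ := Scalable.exists_smul A π hy
  have e : HahnSeries.C (c * d) * (x * y) = HahnSeries.C c * x * (HahnSeries.C d * y) := by
    rw [map_mul]; ring
  rw [cl_eq hπ hc hcV hc0, cl_eq hπ hd hdV hd0,
    cl_eq hπ (mul_ne_zero hc hd) (e ▸ mul_mem hcV hdV)
      (by rw [e, gval_mul A π hcV hdV]; exact mul_ne_zero hc0 hd0), e, gval_mul A π hcV hdV,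
    qcls_mul hc0 hd0]

theorem scalable_C {c : K} (hc : c ≠ 0) : Scalable A π (HahnSeries.C c) :=
  ⟨c, hc, 1, one_mem _, by rw [gval_one]; exact one_ne_zero, by rw [mul_one]⟩

theorem cl_C (hπ : Function.Surjective π) {c : K} (hc : c ≠ 0) :
    cl A π (HahnSeries.C c) = 0 := by
  have e : HahnSeries.C c⁻¹ * HahnSeries.C c = (1 : LaurentSeries K) := by
    rw [← map_mul, inv_mul_cancel₀ hc, map_one]
  rw [cl_eq hπ (inv_ne_zero hc) (by rw [e]; exact one_mem _)
    (by rw [e, gval_one]; exact one_ne_zero), e, gval_one, qcls_one]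

theorem cl_C_mul (hπ : Function.Surjective π) {c : K} (hc : c ≠ 0) {x : LaurentSeries K}
    (hx : Scalable A π x) : cl A π (HahnSeries.C c * x) = cl A π x := by
  rw [cl_mul hπ (scalable_C hc) hx, cl_C hπ hc, zero_add]

theorem cl_one (hπ : Function.Surjective π) : cl A π (1 : LaurentSeries K) = 0 := by
  rw [← map_one (HahnSeries.C : K →+* LaurentSeries K), cl_C hπ one_ne_zero]

theorem cl_mem_clsOf (hπ : Function.Surjective π) {E : IntermediateField K (LaurentSeries K)}
    {κ : IntermediateField k (LaurentSeries k)} (hres : ResIn A π E κ) {x : LaurentSeries K}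
    (hx : x ∈ E) (hsc : Scalable A π x) : cl A π x ∈ clsOf k κ := by
  obtain ⟨c, hc, hcV, hc0⟩ := Scalable.exists_smul A π hsc
  rw [cl_eq hπ hc hcV hc0]
  refine qcls_mem_clsOf (hres _ (mul_mem ?_ hx) hcV) hc0
  rw [← algebraMap_eq_C']
  exact IntermediateField.algebraMap_mem _ _

theorem gval_twist {u : Kˣ} {uA : Aˣ} (hu : ((uA : A) : K) = (u : K)) (hres : π (uA : A) = 1)
    {x : LaurentSeries K} (hx : x ∈ gV A π) :
    twist u x ∈ gV A π ∧ gval A π (twist u x) = gval A π x := by
  obtain ⟨a, b, hb, h⟩ := hx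
  have hmap : Units.map (A.subtype : A →+* K).toMonoidHom uA = u := Units.ext hu
  have hone : Units.map π.toMonoidHom uA = 1 := Units.ext hres
  have hi : ∀ w, incl A (twist uA w) = twist u (incl A w) := fun w => by
    rw [incl, ModularCosets.coeffMap_twist]
    erw [hmap]
  have hr : ∀ w, redSer A π (twist uA w) = redSer A π w := fun w => by
    rw [redSer, ModularCosets.coeffMap_twist]
    erw [hone]
    rw [ModularCosets.twist_one]
  have h' : twist u x * incl A (twist uA b) = incl A (twist uA a) := by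
    rw [hi, hi, ← map_mul, h]
  have hb' : redSer A π (twist uA b) ≠ 0 := by rwa [hr]
  exact ⟨⟨_, _, hb', h'⟩, by rw [gval_eq A π hb' h', gval_eq A π hb h, hr, hr]⟩

end Scal

end FLTAgent.Lower.Levels.Gauss
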