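import Mathlib
import Fermat.Agent.Lower.Levels.Inertia.Classes
import Fermat.Agent.Reduction.GaussField
import Fermat.Agent.GalCommon.Basic

/-!
# The modular equation at a prime `v`, integrally

`exists_modPoly`: over the Laurent series with coefficients in a valuation ring `A` of `ℚ̄`
there are a monic polynomial `Φ` with coefficients in `ℚ̄(j)` killing `j(v z)` and a primitive
`v`-th root of unity `ζ` such that the transform of `Φ` under `q ↦ q^v` is the product of the
`X - j(v² z)` and `X - j(z + b/v)`. It is obtained from the coset family of `j` by descending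
the symmetric functions along `q ↦ q^v`.
-/

set_option autoImplicit false
set_option linter.unusedSectionVars false

noncomputable section

open ModularCurve Polynomial IntermediateField

namespace FLTAgent.Lower.Levels.Gauss

open FLTAgent.ModularCosets (twist twist_coeff qScale qScale_eq jConj CosetIdx mem_cosetReps)
open FLTAgent.Reduction

local notation "ℚ̄" => AlgebraicClosure ℚ

variable {v : ℕ}

theorem cosetIdx_prime (hv : v.Prime) [NeZero v] (c : CosetIdx v) (hc : c ≠ cosetInf v) :
    c.a = 1 ∧ c.b < v := by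
  have ha : c.a = 1 := by
    rcases (Nat.dvd_prime hv).mp c.a_dvd with h | h
    · exact h
    · exact absurd (eq_cosetInf_of_a_eq h) hc
  refine ⟨ha, ?_⟩
  have := c.b_lt
  rwa [ModularCosets.CosetIdx.D_def, ha, Nat.div_one] at this

/-- A root of unity in a valuation ring, as a unit. -/
theorem exists_unit_of_pow_eq_one {K : Type} [Field K] (A : ValuationSubring K) {n : ℕ}
    (hn : n ≠ 0) {u : Kˣ} (hu : u ^ n = 1) :
    ∃ uA : Aˣ, ((uA : A) : K) = (u : K) ∧ uA ^ n = 1 := by
  have hval : (u : K) ^ n = 1 := by rw [← Units.val_pow_eq_pow_val, hu, Units.val_one]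
  have hmem : (u : K) ∈ A := by
    rcases A.mem_or_inv_mem (u : K) with h | h
    · exact h
    · have : (u : K) = ((u : K)⁻¹) ^ (n - 1) := by
        rw [inv_pow]
        refine eq_inv_of_mul_eq_one_left ?_
        rw [← pow_succ', Nat.sub_add_cancel (Nat.pos_of_ne_zero hn), hval]
      rw [this]
      exact pow_mem h _
  have h1 : (⟨(u : K), hmem⟩ : A) ^ n = 1 := Subtype.ext hval
  refine ⟨Units.ofPowEqOne _ n h1 hn, ?_, Units.ext ?_⟩
  · rfl
  · exact h1

/-- **The modular equation at `v`.** A monic polynomial over the integral series, with coefficients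
in `ℚ̄(j)`, killing `j(v z)`, whose transform under `q ↦ q^v` has the roots `j(v² z)`, `j(z + b/v)`. -/
theorem exists_modPoly (hv : v.Prime) [NeZero v] (A : ValuationSubring ℚ̄) :
    ∃ (ζ : Aˣ) (Φ : (LaurentSeries A)[X]), IsPrimitiveRoot ((ζ : A) : ℚ̄) v ∧ Φ.Monic ∧
      (∀ i, coeffMap A.subtype (Φ.coeff i) ∈ ℚ̄⟮jqModC ℚ̄⟯) ∧
      Φ.eval (qExpand A v (jqModC A)) = 0 ∧
      Φ.map (qExpand A v) = (X - Polynomial.C (qExpand A (v * v) (jqModC A))) *
        ∏ b ∈ Finset.range v, (X - Polynomial.C (twist (ζ ^ b) (jqModC A))) := by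
  classical
  let φ : zetaRing v →+* ℚ̄ :=
    (⊤ : ValuationSubring ℚ̄).subtype.comp (zetaToValuation v ⊤ (by
      refine IsUnit.of_mul_eq_one ⟨((v : ℚ̄))⁻¹, ValuationSubring.mem_top _⟩ (Subtype.ext ?_)
      show ((v : (⊤ : ValuationSubring ℚ̄)) : ℚ̄) * (v : ℚ̄)⁻¹ = 1
      rw [show ((v : (⊤ : ValuationSubring ℚ̄)) : ℚ̄) = (v : ℚ̄) from
        map_natCast (⊤ : ValuationSubring ℚ̄).subtype v]
      exact mul_inv_cancel₀ (by exact_mod_cast NeZero.ne v)))
  set u : ℚ̄ˣ := zetaOf φ with hu
  have hprim : IsPrimitiveRoot u v := zetaOf_primitive φ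
  obtain ⟨ζ, hζ, hζv⟩ := exists_unit_of_pow_eq_one A (NeZero.ne v) hprim.pow_eq_one
  have hmap : Units.map (A.subtype : A →+* ℚ̄).toMonoidHom ζ = u := Units.ext hζ
  have hjc : ∀ a b : ℕ, coeffMap A.subtype (jConj A ζ a b) = jConj ℚ̄ u a b := fun a b => by
    rw [ModularCosets.coeffMap_jConj]
    erw [hmap]
  set W : (LaurentSeries A)[X] :=
    famPoly (fun c : CosetIdx v => jConj A ζ c.a c.b) with hW
  have hWmap : W.map (coeffMap A.subtype) = famPoly (rootsOf φ) := by
    rw [hW, famPoly_map]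
    exact congrArg famPoly (funext fun c => hjc c.a c.b)
  have hWeq : W = (X - Polynomial.C (qExpand A (v * v) (jqModC A))) *
      ∏ b ∈ Finset.range v, (X - Polynomial.C (twist (ζ ^ b) (jqModC A))) := by
    rw [hW, famPoly, ← Finset.mul_prod_erase Finset.univ _ (Finset.mem_univ (cosetInf v))]
    congr 1
    · show X - Polynomial.C (jConj A ζ v 0) = _
      rw [jConj, Nat.mul_zero, Nat.cast_zero, zpow_zero, ModularCosets.twist_one, qScale_eq]
    · have hmem : ∀ b ∈ Finset.range v, ((1 : ℕ), b) ∈ ModularCosets.cosetReps v := fun b hb =>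
        mem_cosetReps.mpr ⟨one_dvd v, by simpa using Finset.mem_range.mp hb, by simp⟩
      refine Finset.prod_bij' (fun c _ => c.b) (fun b hb => ⟨(1, b), hmem b hb⟩)
        (fun c hc => Finset.mem_range.mpr (cosetIdx_prime hv c (Finset.ne_of_mem_erase hc)).2)
        (fun b hb => Finset.mem_erase.mpr ⟨fun h => hv.ne_one ?_, Finset.mem_univ _⟩)
        (fun c hc => ?_) (fun b hb => rfl) (fun c hc => ?_)
      · exact ((congrArg (fun c : CosetIdx v => c.a) h).symm : v = 1)
      · exact ModularCosets.CosetIdx.ext'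
          (cosetIdx_prime hv c (Finset.ne_of_mem_erase hc)).1.symm rfl
      · obtain ⟨ha, -⟩ := cosetIdx_prime hv c (Finset.ne_of_mem_erase hc)
        show X - Polynomial.C (jConj A ζ c.a c.b) = X - Polynomial.C (twist (ζ ^ c.b) (jqModC A))
        rw [jConj, ha, one_mul, one_mul, zpow_natCast, ModularCosets.qScale_one]
  -- descend the coefficients along `q ↦ q^v`
  have hcoef : ∀ i, ∃ c : LaurentSeries A, qExpand A v c = W.coeff i ∧
      coeffMap A.subtype c ∈ ℚ̄⟮jqModC ℚ̄⟯ := by
    intro i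
    have h1 : coeffMap A.subtype (W.coeff i) ∈ polyJ (jUp v ℚ̄) := by
      rw [← Polynomial.coeff_map, hWmap]
      exact (isSymFamily_map φ (jTopFamily v)).1 i
    obtain ⟨y, hy, hyi⟩ := polyJ_jUp_eq_image h1
    rw [upHom_apply, qScale_eq] at hyi
    have hsupp : ∀ k : ℤ, ¬ (v : ℤ) ∣ k → (W.coeff i).coeff k = 0 := fun k hk => by
      have h2 := congrArg (fun s : LaurentSeries ℚ̄ => s.coeff k) hyi
      simp only [qExpand_coeff_of_not_dvd v y hk, coeffMap_coeff] at h2
      exact Subtype.ext h2.symm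
    obtain ⟨c, hc⟩ := ModularCosets.exists_qScale_eq (NeZero.ne v) hsupp
    rw [qScale_eq] at hc
    refine ⟨c, hc, ?_⟩
    have hcy : coeffMap A.subtype c = y := qExpand_injective v (by
      rw [hyi, ← hc, coeffMap_qExpand])
    rw [hcy]
    exact polyJ_le_adjoin (jqModC ℚ̄) hy
  choose c hc hcj using hcoef
  have hmonicW : W.Monic := famPoly_monic _
  obtain ⟨Φ, hΦ, -, hΦm⟩ := Polynomial.lifts_and_degree_eq_and_monic
    ((Polynomial.lifts_iff_coeff_lifts (f := qExpand A v) W).mpr fun i => ⟨c i, hc i⟩) hmonicW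
  refine ⟨ζ, Φ, ?_, hΦm, fun i => ?_, qExpand_injective v ?_, hΦ.trans hWeq⟩
  · rw [hζ]
    exact IsPrimitiveRoot.coe_units_iff.mpr hprim
  · have : Φ.coeff i = c i := qExpand_injective v (by rw [hc, ← hΦ, Polynomial.coeff_map])
    rw [this]
    exact hcj i
  · rw [map_zero, ← eval_map_apply, hΦ, hWeq, qExpand_qExpand]
    simp

end FLTAgent.Lower.Levels.Gauss
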