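import Mathlib
import Fermat.Agent.Lower.Levels.Inertia.ModPoly
import Fermat.Agent.Reduction.InputsLevel
import Fermat.Agent.Kronecker.CoeffGalois

/-!
# The residue field of the function field of level `N₁ v²`

For a place `A` of `ℚ̄` over a prime `v ∤ N₁`, with residue field `k`: the reductions of the
integral elements of level `N₁` lie in `KN A N₁` (`resIn_bar`), and adjoining `j (d v z)` to
such a field adds nothing, as `j (v d z)` reduces to `j̄ (d z) ^ v` and is a simple root of the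
reduced modular equation (`resIn_step`); hence the same holds at level `N₁ v²`
(`resIn_bar_top`). Also defined here: `thetaJ = q d/dq j̄`, the top field `lvlField` (level
`N₁ v²` with `j (z + 1/v)` adjoined) and its residue field `Lam = KN(thetaJ)`.
-/

set_option autoImplicit false
set_option linter.unusedSectionVars false
set_option linter.style.haveILetI false

noncomputable section

open ModularCurve Polynomial IntermediateField

namespace FLTAgent.Lower.Levels.Gauss

open FLTAgent.BadQ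
open FLTAgent.ModularCosets (twist twist_coeff qScale qScale_eq qScale_qScale coeffMap_qScale)

local notation "ℚ̄" => AlgebraicClosure ℚ

variable (A : ValuationSubring ℚ̄)

local notation "k" => IsLocalRing.ResidueField A
local notation "π" => IsLocalRing.residue A

/-- An integral series, as an element of `gV`. -/
def inclV : LaurentSeries A →+* gV A π :=
  (incl A).codRestrict (gV A π) fun u => (gval_incl A π u).1

theorem coe_inclV (u : LaurentSeries A) : (inclV A u : LaurentSeries ℚ̄) = incl A u := rfl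

theorem gHom_inclV (u : LaurentSeries A) : gHom A π (inclV A u) = redSer A π u :=
  (gval_incl A π u).2

theorem gHom_comp_inclV : (gHom A π).comp (inclV A) = redSer A π :=
  RingHom.ext (gHom_inclV A)

/-- `q d/dq j` over the residue field. -/
def thetaJ : LaurentSeries k where
  coeff i := (i : k) * (jqModC k).coeff i
  isPWO_support' := (jqModC k).isPWO_support'.mono fun i hi h => hi (by simp [h])

theorem coeff_thetaJ (i : ℤ) : (thetaJ A).coeff i = (i : k) * (jqModC k).coeff i := rfl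

theorem thetaJ_ne_zero : thetaJ A ≠ 0 := by
  intro h
  have := congrArg (fun x : LaurentSeries k => x.coeff (-1)) h
  simp [coeff_thetaJ, coeff_jqModC_neg_one] at this

variable (N₁ v : ℕ) [NeZero N₁] [NeZero v]

/-- The residue field at level `N₁`. -/
abbrev KN : IntermediateField k (LaurentSeries k) := modularFunctionFieldFullC k N₁

/-- The residue field of `lvlField`. -/
def Lam : IntermediateField k (LaurentSeries k) := KN A N₁ ⊔ k⟮thetaJ A⟯

theorem KN_le_Lam : KN A N₁ ≤ Lam A N₁ := le_sup_left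

theorem thetaJ_mem_Lam : thetaJ A ∈ Lam A N₁ :=
  (le_sup_right : k⟮thetaJ A⟯ ≤ Lam A N₁) (mem_adjoin_simple_self _ _)

/-- The function field of level `N₁ v²` with `j(z + 1/v)` adjoined, `ζ = exp (2πi / v)`. -/
def lvlField (ζ : ℚ̄ˣ) : IntermediateField ℚ̄ (LaurentSeries ℚ̄) :=
  modularFunctionFieldBar (N₁ * v * v) ⊔ ℚ̄⟮twist ζ (jqModC ℚ̄)⟯

theorem bar_eq_adjoin (M : ℕ) [NeZero M] :
    modularFunctionFieldBar M =
      IntermediateField.adjoin ℚ̄ (Set.range (ModularCosets.jGens M ℚ̄)) :=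
  (ModularCosets.laurentBaseChange_full M ℚ̄).trans (ModularCosets.fullC_eq_adjoin M ℚ̄)

theorem qScale_jq_mem_bar {M : ℕ} [NeZero M] {d : ℕ} (hd : d ∣ M) :
    qScale ℚ̄ d (jqModC ℚ̄) ∈ modularFunctionFieldBar M := by
  rw [bar_eq_adjoin]
  exact subset_adjoin ℚ̄ _ ⟨⟨d, Nat.mem_divisors.mpr ⟨hd, NeZero.ne M⟩⟩, rfl⟩

theorem bar_le_Sc (M : ℕ) [NeZero M] : modularFunctionFieldBar M ≤ Sc ℚ̄ := by
  rw [bar_eq_adjoin, adjoin_le_iff]
  rintro _ ⟨d, rfl⟩
  show qScale ℚ̄ (d : ℕ) (jqModC ℚ̄) ∈ Sc ℚ̄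
  haveI : NeZero (d : ℕ) := ⟨fun h => NeZero.ne M (Nat.eq_zero_of_zero_dvd (h ▸ d.dvd))⟩
  rw [qScale_eq]
  exact qExpand_mem_Sc _ jqModC_mem_Sc

section Main

variable {A N₁ v} (hv : v.Prime) (hA : A.LiesOverPrime v)

include hv hA

theorem scalable_of_mem_Sc {x : LaurentSeries ℚ̄} (hx : x ∈ Sc ℚ̄) (h0 : x ≠ 0) :
    Scalable A π x :=
  haveI := GalCommon.charP_residueField hv hA
  scalable_Sc A π hv.two_le hx h0

/-- The integral elements of level `N₁` reduce into `KN A N₁`. -/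
theorem resIn_bar (hvN : ¬ v ∣ N₁) : ResIn A π (modularFunctionFieldBar N₁) (KN A N₁) := by
  haveI := Fact.mk hv
  intro x hx hxV
  by_cases h0 : gval A π x = 0
  · rw [h0]; exact zero_mem _
  have hx0 : x ≠ 0 := fun h => h0 (by rw [h, gval_zero])
  obtain ⟨c, hc, hcV, hcr⟩ := Reduction.modularGauss_scale A N₁ hA hvN
    ⟨x, hx⟩ (fun h => hx0 (congrArg Subtype.val h))
  obtain ⟨a, b, hb, hab⟩ := Reduction.modularGauss_mem.mp hcV
  rw [Reduction.modularGauss_red hb hab] at hcr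
  have hab' : HahnSeries.C c * x * incl A (b : LaurentSeries A) = incl A (a : LaurentSeries A) := by
    have := congrArg Subtype.val hab
    rw [MulMemClass.coe_mul, Algebra.smul_def, MulMemClass.coe_mul] at this
    rw [← algebraMap_eq_C' c]
    exact this
  have hb' : redSer A π (b : LaurentSeries A) ≠ 0 := fun h => hb (Subtype.ext h)
  have hy := gval_eq A π hb' hab'
  have hval : gval A π (HahnSeries.C c * x) ∈ KN A N₁ := by
    rw [hy]
    exact div_mem (Reduction.expToRes A N₁ a).2 (Reduction.expToRes A N₁ b).2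
  have hy0 : gval A π (HahnSeries.C c * x) ≠ 0 := by
    rw [hy]
    exact fun h => hcr (Subtype.ext h)
  obtain ⟨r, hr, hre⟩ := exists_res_of_scale IsLocalRing.residue_surjective hxV h0
    ⟨_, _, hb', hab'⟩ hy0
  rw [hre] at hval
  have hC : (HahnSeries.C r : LaurentSeries k) ∈ KN A N₁ := by
    rw [← algebraMap_eq_C' r]
    exact IntermediateField.algebraMap_mem _ _
  have := div_mem hval hC
  rwa [mul_div_cancel_left₀ _ ((_root_.map_ne_zero _).mpr hr)] at this

theorem residue_zeta {ζ : Aˣ} (hζ : IsPrimitiveRoot ((ζ : A) : ℚ̄) v) : π (ζ : A) = 1 := by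
  haveI := Fact.mk hv
  haveI := GalCommon.charP_residueField hv hA
  have h : (ζ : A) ^ v = 1 := Subtype.ext hζ.pow_eq_one
  apply (frobenius_inj k v)
  rw [frobenius_def, ← map_pow, h, map_one, map_one]

theorem pow_v_jbar (d : ℕ) (hd : d ≠ 0) :
    qScale k (v * d) (jqModC k) = qScale k d (jqModC k) ^ v := by
  haveI := Fact.mk hv
  haveI := GalCommon.charP_residueField hv hA
  haveI : NeZero d := ⟨hd⟩
  rw [qScale_eq d, Kronecker.pow_char_eq_qExpand v, coeffMap_qExpand, coeffMap_jqModC,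
    qExpand_qExpand, ← qScale_eq]

/-- Adjoining `j(d v z)` to a field containing `j(d z)`. -/
theorem resIn_step {E : IntermediateField ℚ̄ (LaurentSeries ℚ̄)} (hE : E ≤ Sc ℚ̄)
    (hres : ResIn A π E (KN A N₁)) {d : ℕ} [NeZero d]
    (hj : qScale ℚ̄ d (jqModC ℚ̄) ∈ E) (hjk : qScale k d (jqModC k) ∈ KN A N₁) :
    ResIn A π (E ⊔ ℚ̄⟮qScale ℚ̄ (v * d) (jqModC ℚ̄)⟯) (KN A N₁) := by
  haveI := Fact.mk hv
  obtain ⟨ζ, Φ, hζ, hΦm, hΦj, hΦroot, hΦmap⟩ := exists_modPoly hv A
  have hζ1 := residue_zeta hv hA hζ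
  set s : gV A π := inclV A (qExpand A (d * v) (jqModC A)) with hs
  have hscoe : (s : LaurentSeries ℚ̄) = qScale ℚ̄ (v * d) (jqModC ℚ̄) := by
    rw [hs, coe_inclV, incl, coeffMap_qExpand, coeffMap_jqModC, qScale_eq,
      qExpand_congr (Nat.mul_comm d v)]
  have hsk : gHom A π s = qScale k (v * d) (jqModC k) := by
    rw [hs, gHom_inclV, redSer, coeffMap_qExpand, coeffMap_jqModC, qScale_eq,
      qExpand_congr (Nat.mul_comm d v)]
  have hmem : (E⟮(s : LaurentSeries ℚ̄)⟯).restrictScalars ℚ̄ =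
      E ⊔ ℚ̄⟮qScale ℚ̄ (v * d) (jqModC ℚ̄)⟯ := by
    rw [IntermediateField.restrictScalars_adjoin_eq_sup, hscoe]
  rw [← hmem]
  refine ResIn.adjoin_root IsLocalRing.residue_surjective (fun x hx h0 => ?_) hres le_rfl
    (P := Φ.map ((inclV A).comp (qExpand A d))) (hΦm.map _) (fun i => ?_) ?_ ?_ ?_
  · have hx' : x ∈ (E⟮(s : LaurentSeries ℚ̄)⟯).restrictScalars ℚ̄ := hx
    rw [hmem] at hx'
    refine scalable_of_mem_Sc hv hA ((sup_le hE ?_) hx') h0
    rw [adjoin_simple_le_iff, qScale_eq]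
    exact qExpand_mem_Sc _ jqModC_mem_Sc
  · rw [coeff_map, RingHom.comp_apply, coe_inclV, incl, coeffMap_qExpand]
    obtain ⟨y, hy⟩ : ∃ y, y = coeffMap A.subtype (Φ.coeff i) := ⟨_, rfl⟩
    have hy' : y ∈ ℚ̄⟮jqModC ℚ̄⟯ := hy ▸ hΦj i
    rw [← hy]
    have hmap : (ℚ̄⟮jqModC ℚ̄⟯).map (qExpandAlgHomC ℚ̄ d) ≤ E := by
      rw [adjoin_map, Set.image_singleton, adjoin_simple_le_iff]
      rw [qScale_eq] at hj
      exact hj
    exact hmap ⟨y, hy', rfl⟩
  · show eval s (Φ.map ((inclV A).comp (qExpand A d))) = 0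
    rw [hs, ← Polynomial.map_map, eval_map_apply, ← qExpand_qExpand, eval_map_apply, hΦroot,
      map_zero, map_zero]
  · -- simple reduced root
    rw [Polynomial.map_map, ← RingHom.comp_assoc, gHom_comp_inclV, hsk, derivative_map]
    have e1 : (redSer A π).comp (qExpand A d) = (qExpand k d).comp (redSer A π) :=
      RingHom.ext fun x => coeffMap_qExpand π d x
    rw [e1, ← Polynomial.map_map, Nat.mul_comm v d, qScale_eq, ← qExpand_qExpand, eval_map_apply,
      (map_ne_zero_iff _ (qExpand_injective d))]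
    intro h
    have h1 := congrArg (qExpand k v) h
    rw [map_zero, ← eval_map_apply, ← derivative_map, ← derivative_map, qExpand_qExpand] at h1
    rw [Polynomial.map_map] at h1
    have e2 : (qExpand k v).comp (redSer A π) = (redSer A π).comp (qExpand A v) :=
      RingHom.ext fun x => (coeffMap_qExpand π v x).symm
    rw [e2, ← Polynomial.map_map, hΦmap, Polynomial.map_mul,
      Polynomial.map_prod] at h1
    simp only [Polynomial.map_sub, map_X, map_C] at h1
    have etw : ∀ b : ℕ, redSer A π (twist (ζ ^ b) (jqModC A)) = jqModC k := by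
      intro b
      rw [redSer, ModularCosets.coeffMap_twist, coeffMap_jqModC]
      have : Units.map (π).toMonoidHom (ζ ^ b) = 1 := by
        rw [map_pow]
        have : Units.map (π).toMonoidHom ζ = 1 := Units.ext hζ1
        rw [this, one_pow]
      erw [this]
      rw [ModularCosets.twist_one]
    have ejj : redSer A π (qExpand A (v * v) (jqModC A)) = qExpand k (v * v) (jqModC k) := by
      rw [redSer, coeffMap_qExpand, coeffMap_jqModC]
    simp only [etw, ejj] at h1
    rw [Finset.prod_const, Finset.card_range, derivative_mul, derivative_sub, derivative_X,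
      derivative_C, sub_zero, one_mul, eval_add, eval_mul, eval_sub, eval_X, eval_C, sub_self,
      zero_mul, add_zero, eval_pow, eval_sub, eval_X, eval_C] at h1
    have h2 := sub_eq_zero.mp (pow_eq_zero_iff hv.ne_zero |>.mp h1)
    have h3 := congrArg (fun x : LaurentSeries k => x.coeff (-1)) h2
    rw [qExpand_coeff_of_not_dvd (v * v) _ (by
      intro hdvd
      have hle := Int.le_of_dvd one_pos (dvd_neg.mp hdvd)
      have h4 := Nat.mul_le_mul hv.two_le hv.two_le
      omega), coeff_jqModC_neg_one] at h3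
    exact zero_ne_one h3
  · rw [hsk, pow_v_jbar hv hA d (NeZero.ne d)]
    exact pow_mem hjk v

/-- Adjoining all `j(d v z)`, `d` in a set. -/
theorem resIn_steps {E : IntermediateField ℚ̄ (LaurentSeries ℚ̄)} (hE : E ≤ Sc ℚ̄)
    (hres : ResIn A π E (KN A N₁)) (S : Finset ℕ) (hS : ∀ d ∈ S, d ≠ 0 ∧
      qScale ℚ̄ d (jqModC ℚ̄) ∈ E ∧ qScale k d (jqModC k) ∈ KN A N₁) :
    ∃ E' : IntermediateField ℚ̄ (LaurentSeries ℚ̄), E ≤ E' ∧ E' ≤ Sc ℚ̄ ∧
      ResIn A π E' (KN A N₁) ∧ ∀ d ∈ S, qScale ℚ̄ (v * d) (jqModC ℚ̄) ∈ E' := by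
  classical
  induction S using Finset.induction with
  | empty => exact ⟨E, le_rfl, hE, hres, by simp⟩
  | insert d S hd ih =>
    obtain ⟨E', hle, hE', hres', hmem⟩ := ih fun x hx => hS x (Finset.mem_insert_of_mem hx)
    obtain ⟨hd0, hdE, hdk⟩ := hS d (Finset.mem_insert_self d S)
    haveI : NeZero d := ⟨hd0⟩
    refine ⟨E' ⊔ ℚ̄⟮qScale ℚ̄ (v * d) (jqModC ℚ̄)⟯, hle.trans le_sup_left, sup_le hE' ?_,
      resIn_step hv hA hE' hres' (hle hdE) hdk, fun x hx => ?_⟩
    · haveI : NeZero (v * d) := ⟨Nat.mul_ne_zero hv.ne_zero hd0⟩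
      rw [adjoin_simple_le_iff, qScale_eq]
      exact qExpand_mem_Sc _ jqModC_mem_Sc
    · rcases Finset.mem_insert.mp hx with rfl | hx'
      · exact (le_sup_right : ℚ̄⟮qScale ℚ̄ (v * x) (jqModC ℚ̄)⟯ ≤ _) (mem_adjoin_simple_self _ _)
      · exact (le_sup_left : E' ≤ _) (hmem x hx')

/-- The integral elements of level `N₁ v²` reduce into `KN A N₁`. -/
theorem resIn_bar_top (hvN : ¬ v ∣ N₁) :
    ResIn A π (modularFunctionFieldBar (N₁ * v * v)) (KN A N₁) := by
  have hK : ∀ d, d ∣ N₁ → qScale k d (jqModC k) ∈ KN A N₁ := fun d hd => by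
    rw [KN, ModularCosets.fullC_eq_adjoin]
    exact subset_adjoin k _ ⟨⟨d, Nat.mem_divisors.mpr ⟨hd, NeZero.ne N₁⟩⟩, rfl⟩
  have hne : ∀ d, d ∣ N₁ → d ≠ 0 := fun d hd h => NeZero.ne N₁ (Nat.eq_zero_of_zero_dvd (h ▸ hd))
  obtain ⟨E₁, hle₁, hE₁, hres₁, hmem₁⟩ := resIn_steps hv hA (bar_le_Sc N₁)
    (resIn_bar hv hA hvN) N₁.divisors fun d hd =>
      ⟨hne d (Nat.dvd_of_mem_divisors hd), qScale_jq_mem_bar (Nat.dvd_of_mem_divisors hd),
        hK d (Nat.dvd_of_mem_divisors hd)⟩
  obtain ⟨E₂, hle₂, -, hres₂, hmem₂⟩ := resIn_steps hv hA hE₁ hres₁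
    (N₁.divisors.image (v * ·)) fun d hd => by
      obtain ⟨d', hd', rfl⟩ := Finset.mem_image.mp hd
      have hdv := Nat.dvd_of_mem_divisors hd'
      exact ⟨Nat.mul_ne_zero hv.ne_zero (hne d' hdv), hmem₁ d' hd', by
        rw [pow_v_jbar hv hA d' (hne d' hdv)]
        exact pow_mem (hK d' hdv) v⟩
  refine hres₂.mono ?_ le_rfl
  rw [bar_eq_adjoin, adjoin_le_iff]
  rintro _ ⟨d, rfl⟩
  show qScale ℚ̄ (d : ℕ) (jqModC ℚ̄) ∈ E₂
  obtain ⟨a, b, ha, hb, hab⟩ := Nat.dvd_mul.mp
    (show (d : ℕ) ∣ N₁ * (v * v) by rw [← Nat.mul_assoc]; exact d.dvd)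
  obtain ⟨e, he, rfl⟩ := (Nat.dvd_prime_pow hv).mp (show b ∣ v ^ 2 by rwa [pow_two])
  have hamem : a ∈ N₁.divisors := Nat.mem_divisors.mpr ⟨ha, NeZero.ne N₁⟩
  rw [← hab]
  interval_cases e
  · rw [pow_zero, Nat.mul_one]
    exact hle₂ (hle₁ (qScale_jq_mem_bar ha))
  · rw [pow_one, Nat.mul_comm]
    exact hle₂ (hmem₁ a hamem)
  · rw [pow_two, Nat.mul_comm, Nat.mul_assoc]
    exact hmem₂ _ (Finset.mem_image_of_mem _ hamem)

end Main

end FLTAgent.Lower.Levels.Gauss
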