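import Mathlib
import Fermat.Agent.Lower.Levels.Inertia.Tower

/-!
# The residue field with `j (z + 1/v)` adjoined

`resIn_lvlField`: the residue field of `lvlField` lies in `Lam = KN(θ j̄)`, the top field
consists of series in `Sc`, and `(θ j̄) ^ (v - 1) ∈ KN`, so that the residual extension is a
Kummer extension of degree dividing `v - 1`. The series `(j(z + b/v) - j(z)) / (ζ - 1)` are
integral (`diffSer`) and reduce to `b θ j̄`, distinct for the different `b`, so their inverses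
are roots with simple reduction of a monic integral polynomial over level `N₁ v²`.
-/

set_option autoImplicit false
set_option linter.unusedSectionVars false
set_option linter.style.haveILetI false

noncomputable section

open ModularCurve Polynomial IntermediateField

namespace FLTAgent.Lower.Levels.Gauss

open FLTAgent.BadQ
open FLTAgent.ModularCosets (twist twist_coeff qScale qScale_eq)

local notation "ℚ̄" => AlgebraicClosure ℚ

theorem reverse_X_sub_C {F : Type*} [Field F] {w : F} (hw : w ≠ 0) :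
    (X - Polynomial.C w).reverse = Polynomial.C (-w) * (X - Polynomial.C w⁻¹) := by
  rw [Polynomial.reverse, natDegree_X_sub_C]
  ext i
  rw [coeff_reflect]
  rcases i with _ | _ | i
  · simp [Polynomial.revAt_le (show 0 ≤ 1 by omega), hw]
  · simp [Polynomial.revAt_le (show 1 ≤ 1 by omega)]
  · rw [Polynomial.revAt_eq_self_of_lt (by omega)]
    simp [coeff_X]

theorem prod_reverse_X_sub_C {F : Type*} [Field F] {ι : Type*} (s : Finset ι) (w : ι → F)
    (hw : ∀ i ∈ s, w i ≠ 0) :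
    (∏ i ∈ s, (X - Polynomial.C (w i))).reverse =
      Polynomial.C (∏ i ∈ s, -w i) * ∏ i ∈ s, (X - Polynomial.C (w i)⁻¹) := by
  classical
  induction s using Finset.induction with
  | empty => simp [Polynomial.reverse]
  | insert a s ha ih =>
    rw [Finset.prod_insert ha, Finset.prod_insert ha, Finset.prod_insert ha,
      reverse_mul_of_domain, reverse_X_sub_C (hw a (Finset.mem_insert_self a s)),
      ih fun i hi => hw i (Finset.mem_insert_of_mem hi), Polynomial.C_mul]
    ring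

/-- Roots `w i` with coefficients in a subfield: so are the inverses. -/
theorem coeff_prod_inv_mem {F : Type*} [Field F] (E : Subfield F) {ι : Type*} (s : Finset ι)
    (w : ι → F) (hw : ∀ i ∈ s, w i ≠ 0)
    (h : ∀ n, (∏ i ∈ s, (X - Polynomial.C (w i))).coeff n ∈ E) (n : ℕ) :
    (∏ i ∈ s, (X - Polynomial.C (w i)⁻¹)).coeff n ∈ E := by
  set W := ∏ i ∈ s, (X - Polynomial.C (w i)) with hW
  have hrev : ∀ m, W.reverse.coeff m ∈ E := fun m => by rw [coeff_reverse]; exact h _
  have h0 : W.coeff 0 = ∏ i ∈ s, -w i := by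
    rw [coeff_zero_eq_eval_zero, hW, eval_prod]
    simp
  have hne : W.coeff 0 ≠ 0 := by
    rw [h0]; exact Finset.prod_ne_zero_iff.mpr fun i hi => neg_ne_zero.mpr (hw i hi)
  have e := congrArg (fun p : F[X] => p.coeff n) (prod_reverse_X_sub_C s w hw)
  simp only [coeff_C_mul, ← h0, ← hW] at e
  have : (∏ i ∈ s, (X - Polynomial.C (w i)⁻¹)).coeff n = W.reverse.coeff n / W.coeff 0 := by
    rw [e, mul_div_cancel_left₀ _ hne]
  rw [this]
  exact div_mem (hrev n) (h 0)

variable (A : ValuationSubring ℚ̄)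

local notation "k" => IsLocalRing.ResidueField A
local notation "π" => IsLocalRing.residue A

variable {A} {N₁ v : ℕ} [NeZero N₁] [NeZero v] (hv : v.Prime) (hA : A.LiesOverPrime v)
  (ζ : Aˣ) (hζ : IsPrimitiveRoot ((ζ : A) : ℚ̄) v)

/-- `(ζ^m - 1) / (ζ - 1)` in `A`. -/
def geomZ (v : ℕ) (ζ : Aˣ) (m : ℤ) : A := ∑ i ∈ Finset.range (m % (v : ℤ)).toNat, (ζ : A) ^ i

/-- `(j(q) twisted by ζ^b - j(q)) / (ζ - 1)`, an integral series. -/
def diffSer (v : ℕ) (ζ : Aˣ) (b : ℕ) : LaurentSeries A where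
  coeff i := geomZ v ζ ((b : ℤ) * i) * (jqModC A).coeff i
  isPWO_support' := (jqModC A).isPWO_support'.mono fun i hi h => hi (by simp [h])

theorem toNat_emod (v : ℕ) [NeZero v] (m : ℤ) :
    (((m % (v : ℤ)).toNat : ℕ) : ℤ) = m % (v : ℤ) :=
  Int.toNat_of_nonneg (Int.emod_nonneg _ (by exact_mod_cast NeZero.ne v))

include hζ in
theorem sub_one_mul_geomZ (m : ℤ) :
    (((ζ : A) : ℚ̄) - 1) * (geomZ v ζ m : ℚ̄) = ((ζ : A) : ℚ̄) ^ m - 1 := by
  rw [geomZ, AddSubmonoidClass.coe_finsetSum]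
  simp only [SubmonoidClass.coe_pow]
  rw [mul_geom_sum, ← zpow_natCast, toNat_emod]
  congr 1
  conv_rhs => rw [← Int.emod_add_mul_ediv m v]
  rw [zpow_add₀ (hζ.ne_zero (NeZero.ne v)), zpow_mul, zpow_natCast, hζ.pow_eq_one, one_zpow, mul_one]

include hζ in
theorem C_mul_incl_diffSer (b : ℕ) {u : ℚ̄ˣ} (hu : (u : ℚ̄) = ((ζ : A) : ℚ̄) ^ b) :
    HahnSeries.C (((ζ : A) : ℚ̄) - 1) * incl A (diffSer v ζ b) =
      twist u (jqModC ℚ̄) - jqModC ℚ̄ := by
  ext i
  rw [HahnSeries.C_apply, HahnSeries.coeff_single_zero_mul, HahnSeries.coeff_sub, twist_coeff,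
    incl, coeffMap_coeff]
  show (((ζ : A) : ℚ̄) - 1) *
    ((geomZ v ζ ((b : ℤ) * i) * (jqModC A).coeff i : A) : ℚ̄) = _
  rw [MulMemClass.coe_mul, ← mul_assoc, sub_one_mul_geomZ ζ hζ, Units.val_zpow_eq_zpow_val, hu,
    ← zpow_natCast, ← zpow_mul, ← coeffMap_jqModC (A.subtype), coeffMap_coeff]
  rw [ValuationSubring.coe_subtype]
  ring

section Reduced

include hv hA

theorem res_geomZ (hζ1 : π (ζ : A) = 1) (m : ℤ) : π (geomZ v ζ m) = (m : k) := by
  haveI := GalCommon.charP_residueField hv hA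
  rw [geomZ, map_sum]
  simp only [map_pow, hζ1, one_pow, Finset.sum_const, Finset.card_range, nsmul_eq_mul, mul_one]
  rw [← Int.cast_natCast (R := k), toNat_emod]
  exact ((CharP.intCast_eq_intCast k v).mpr (Int.mod_modEq m v))

theorem redSer_diffSer (hζ1 : π (ζ : A) = 1) (b : ℕ) :
    redSer A π (diffSer v ζ b) = HahnSeries.C (b : k) * thetaJ A := by
  ext i
  rw [redSer, coeffMap_coeff, HahnSeries.C_apply, HahnSeries.coeff_single_zero_mul, coeff_thetaJ]
  show π (geomZ v ζ ((b : ℤ) * i) * (jqModC A).coeff i) = _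
  rw [map_mul, res_geomZ hv hA ζ hζ1, ← coeffMap_jqModC (π), coeffMap_coeff]
  push_cast
  ring

theorem natCast_res_ne_zero {b : ℕ} (hb0 : b ≠ 0) (hb : b < v) : (b : k) ≠ 0 := fun h =>
  hb0 (Nat.eq_zero_of_dvd_of_lt
    ((GalCommon.natCast_residue_eq_zero_iff hv hA b).mp h) hb)

end Reduced

include hv hA

/-- The residue field of the top field lies in `Lam`, and `θ j ^ (v - 1)` lies in `K`. -/
theorem resIn_lvlField (hvN : ¬ v ∣ N₁) {ζ₀ : ℚ̄ˣ} (hζ₀ : IsPrimitiveRoot ζ₀ v) :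
    ResIn A π (lvlField N₁ v ζ₀) (Lam A N₁) ∧ lvlField N₁ v ζ₀ ≤ Sc ℚ̄ ∧
      thetaJ A ^ (v - 1) ∈ KN A N₁ := by
  classical
  haveI := Fact.mk hv
  obtain ⟨ζ, Φ, hζ, hΦm, hΦj, -, hΦmap⟩ := exists_modPoly hv A
  have hζ1 := residue_zeta hv hA hζ
  set E := modularFunctionFieldBar (N₁ * v * v) with hE
  have hres : ResIn A π E (KN A N₁) := resIn_bar_top hv hA hvN
  have hEsc : E ≤ Sc ℚ̄ := bar_le_Sc _
  set J : LaurentSeries ℚ̄ := jqModC ℚ̄
  have hJE : J ∈ E := by
    have := qScale_jq_mem_bar (M := N₁ * v * v) (one_dvd _)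
    rwa [ModularCosets.qScale_one] at this
  let ζu : ℚ̄ˣ := Units.map (A.subtype : A →+* ℚ̄).toMonoidHom ζ
  have hζu : ∀ b : ℕ, ((ζu ^ b : ℚ̄ˣ) : ℚ̄) = ((ζ : A) : ℚ̄) ^ b := fun b => by
    rw [Units.val_pow_eq_pow_val]; rfl
  set ε : ℚ̄ := ((ζ : A) : ℚ̄) - 1
  have hε : ε ≠ 0 := sub_ne_zero.mpr (hζ.ne_one hv.one_lt)
  set I : Finset ℕ := (Finset.range v).erase 0
  have hI : ∀ b ∈ I, b ≠ 0 ∧ b < v := fun b hb =>
    ⟨Finset.ne_of_mem_erase hb, Finset.mem_range.mp (Finset.mem_of_mem_erase hb)⟩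
  -- the reductions
  set d : ℕ → LaurentSeries ℚ̄ := fun b => incl A (diffSer v ζ b) with hd
  have hdV : ∀ b, d b ∈ gV A π := fun b => (gval_incl A π _).1
  have hdval : ∀ b, gval A π (d b) = HahnSeries.C (b : k) * thetaJ A := fun b => by
    rw [hd, (gval_incl A π _).2, redSer_diffSer hv hA ζ hζ1]
  have hd0 : ∀ b ∈ I, gval A π (d b) ≠ 0 := fun b hb => by
    rw [hdval]
    exact mul_ne_zero ((_root_.map_ne_zero _).mpr (natCast_res_ne_zero hv hA (hI b hb).1 (hI b hb).2))
      (thetaJ_ne_zero A)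
  have hdne : ∀ b ∈ I, d b ≠ 0 := fun b hb h => hd0 b hb (by rw [h, gval_zero])
  have hsV : ∀ b, b ∈ I → (d b)⁻¹ ∈ gV A π := fun b hb => (inv_mem_gV A π (hdV b) (hd0 b hb)).1
  have hJd : ∀ b, twist (ζu ^ b) J = J + HahnSeries.C ε * d b := fun b => by
    rw [hd, C_mul_incl_diffSer ζ hζ b (hζu b), add_sub_cancel]
  -- coefficients in `E`
  set W : (LaurentSeries ℚ̄)[X] := ∏ b ∈ I, (X - Polynomial.C (d b)) with hW
  have hWE : ∀ n, W.coeff n ∈ E := by
    set F : (LaurentSeries ℚ̄)[X] := ∏ b ∈ I, (X - Polynomial.C (twist (ζu ^ b) J)) with hF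
    have hFlift : F ∈ Polynomial.lifts (algebraMap E (LaurentSeries ℚ̄)) := by
      have hWhole : (Φ.map (qExpand A v)).map (incl A) ∈
          Polynomial.lifts (algebraMap E (LaurentSeries ℚ̄)) := by
        refine (Polynomial.lifts_iff_coeff_lifts _).mpr fun i => ?_
        rw [coeff_map, coeff_map, incl, coeffMap_qExpand]
        obtain ⟨y, hy⟩ : ∃ y, y = coeffMap A.subtype (Φ.coeff i) := ⟨_, rfl⟩
        have hy' : y ∈ ℚ̄⟮jqModC ℚ̄⟯ := hy ▸ hΦj i
        rw [← hy]
        have hmap : (ℚ̄⟮jqModC ℚ̄⟯).map (qExpandAlgHomC ℚ̄ v) ≤ E := by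
          rw [adjoin_map, Set.image_singleton, adjoin_simple_le_iff]
          have := qScale_jq_mem_bar (M := N₁ * v * v) (d := v) (dvd_mul_left v _)
          rw [qScale_eq] at this
          exact this
        exact ⟨⟨_, hmap ⟨y, hy', rfl⟩⟩, rfl⟩
      have etw : ∀ b : ℕ, incl A (twist (ζ ^ b) (jqModC A)) = twist (ζu ^ b) J := fun b => by
        rw [incl, ModularCosets.coeffMap_twist, coeffMap_jqModC, map_pow]
        rfl
      have eJJ : incl A (qExpand A (v * v) (jqModC A)) = qExpand ℚ̄ (v * v) J := by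
        rw [incl, coeffMap_qExpand, coeffMap_jqModC]
      rw [hΦmap, Polynomial.map_mul, Polynomial.map_prod] at hWhole
      simp only [Polynomial.map_sub, map_X, map_C, etw, eJJ] at hWhole
      obtain ⟨P₁, hP₁⟩ := (Polynomial.mem_lifts _).mp hWhole
      have hvv : qExpand ℚ̄ (v * v) J ∈ E := by
        have := qScale_jq_mem_bar (M := N₁ * v * v) (d := v * v)
          (by rw [Nat.mul_assoc]; exact dvd_mul_left _ _)
        rwa [qScale_eq] at this
      refine (Polynomial.mem_lifts _).mpr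
        ⟨(P₁ /ₘ (X - Polynomial.C (⟨_, hvv⟩ : E))) /ₘ (X - Polynomial.C (⟨J, hJE⟩ : E)), ?_⟩
      rw [Polynomial.map_divByMonic _ (monic_X_sub_C _), Polynomial.map_divByMonic _ (monic_X_sub_C _),
        Polynomial.map_sub, Polynomial.map_sub, map_X, map_C, map_C, hP₁]
      show (X - Polynomial.C (qExpand ℚ̄ (v * v) J)) * _ /ₘ (X - Polynomial.C (qExpand ℚ̄ (v * v) J)) /ₘ
          (X - Polynomial.C J) = F
      rw [mul_divByMonic_cancel_left _ (monic_X_sub_C _),
        ← Finset.mul_prod_erase (Finset.range v) _ (Finset.mem_range.mpr hv.pos), pow_zero,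
        ModularCosets.twist_one, mul_divByMonic_cancel_left _ (monic_X_sub_C _)]
    have hlin : (Polynomial.C (HahnSeries.C ε) * X + Polynomial.C J : (LaurentSeries ℚ̄)[X]) ∈
        Polynomial.lifts (algebraMap E (LaurentSeries ℚ̄)) := by
      refine (Polynomial.mem_lifts _).mpr
        ⟨Polynomial.C (algebraMap ℚ̄ E ε) * X + Polynomial.C (⟨J, hJE⟩ : E), ?_⟩
      rw [Polynomial.map_add, Polynomial.map_mul, map_X, map_C, map_C,
        ← IsScalarTower.algebraMap_apply ℚ̄ E (LaurentSeries ℚ̄), algebraMap_eq_C']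
      rfl
    have hcomp : F.comp (Polynomial.C (HahnSeries.C ε) * X + Polynomial.C J) =
        Polynomial.C (HahnSeries.C ε ^ I.card) * W := by
      rw [hF, hW, prod_comp, ← Finset.prod_const, map_prod, ← Finset.prod_mul_distrib]
      refine Finset.prod_congr rfl fun b _ => ?_
      rw [sub_comp, X_comp, C_comp, hJd, map_add, map_mul, mul_sub]
      ring
    intro n
    obtain ⟨F₀, hF₀⟩ := (Polynomial.mem_lifts _).mp hFlift
    obtain ⟨l₀, hl₀⟩ := (Polynomial.mem_lifts _).mp hlin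
    have h1 : (F.comp (Polynomial.C (HahnSeries.C ε) * X + Polynomial.C J)).coeff n ∈ E := by
      rw [← hF₀, ← hl₀, ← map_comp, coeff_map]
      exact Subtype.mem _
    rw [hcomp, coeff_C_mul] at h1
    have hεE : (HahnSeries.C ε : LaurentSeries ℚ̄) ^ I.card ∈ E := by
      rw [← algebraMap_eq_C']
      exact pow_mem (IntermediateField.algebraMap_mem _ _) _
    have := div_mem h1 hεE
    rwa [mul_div_cancel_left₀ _ (pow_ne_zero _ ((_root_.map_ne_zero _).mpr hε))] at this
  have hPE := coeff_prod_inv_mem E.toSubfield I d hdne hWE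
  -- the polynomial over `gV`
  set P : (gV A π)[X] := ∏ b ∈ I.attach, (X - Polynomial.C ⟨(d b)⁻¹, hsV b b.2⟩) with hP
  have hPmap : P.map (gV A π).subtype = ∏ b ∈ I, (X - Polynomial.C (d b)⁻¹) := by
    rw [hP, Polynomial.map_prod, ← Finset.prod_attach I fun b => X - Polynomial.C (d b)⁻¹]
    simp
  have hPcoeff : ∀ n, (P.coeff n : LaurentSeries ℚ̄) ∈ E := fun n => by
    have := hPE n
    rwa [← hPmap, coeff_map] at this
  have hred : P.map (gHom A π) =
      ∏ b ∈ I, (X - Polynomial.C (HahnSeries.C (b : k) * thetaJ A)⁻¹) := by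
    rw [hP, Polynomial.map_prod,
      ← Finset.prod_attach I fun b => X - Polynomial.C (HahnSeries.C (b : k) * thetaJ A)⁻¹]
    refine Finset.prod_congr rfl fun b _ => ?_
    rw [Polynomial.map_sub, map_X, map_C, gHom_apply, (inv_mem_gV A π (hdV b) (hd0 b b.2)).2, hdval]
  have hΘ : thetaJ A ^ (v - 1) ∈ KN A N₁ := by
    have h0 : gHom A π (P.coeff 0) ∈ KN A N₁ := hres _ (hPcoeff 0) (P.coeff 0).2
    rw [← coeff_map, hred, coeff_zero_eq_eval_zero, eval_prod] at h0
    simp only [eval_sub, eval_X, eval_C, zero_sub, mul_inv] at h0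
    simp only [← neg_mul] at h0
    rw [Finset.prod_mul_distrib, Finset.prod_const, inv_pow] at h0
    have hc : (∏ b ∈ I, -(HahnSeries.C (b : k) : LaurentSeries k)⁻¹) ∈ KN A N₁ :=
      prod_mem fun b _ => neg_mem (inv_mem (by
        rw [← algebraMap_eq_C']; exact IntermediateField.algebraMap_mem _ _))
    have hcne : (∏ b ∈ I, -(HahnSeries.C (b : k) : LaurentSeries k)⁻¹) ≠ 0 :=
      Finset.prod_ne_zero_iff.mpr fun b hb => neg_ne_zero.mpr (inv_ne_zero
        ((_root_.map_ne_zero _).mpr (natCast_res_ne_zero hv hA (hI b hb).1 (hI b hb).2)))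
    have h1 := div_mem h0 hc
    rw [mul_div_cancel_left₀ _ hcne] at h1
    have h2 := inv_mem h1
    rwa [inv_inv, Finset.card_erase_of_mem (Finset.mem_range.mpr hv.pos), Finset.card_range] at h2
  -- which root gives `ζ₀`
  obtain ⟨e, he, hζe⟩ := hζ.eq_pow_of_pow_eq_one
    (show (ζ₀ : ℚ̄) ^ v = 1 by rw [← Units.val_pow_eq_pow_val, hζ₀.pow_eq_one, Units.val_one])
  have heI : e ∈ I := Finset.mem_erase.mpr ⟨fun h => by
    rw [h, pow_zero] at hζe
    exact hζ₀.ne_one hv.one_lt (Units.ext hζe.symm), Finset.mem_range.mpr he⟩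
  set s : gV A π := ⟨(d e)⁻¹, hsV e heI⟩ with hs
  have hgs : gHom A π s = (HahnSeries.C (e : k) * thetaJ A)⁻¹ := by
    rw [hs, gHom_apply, (inv_mem_gV A π (hdV e) (hd0 e heI)).2, hdval]
  have hroot : P.eval s = 0 := by
    rw [hP, eval_prod]
    exact Finset.prod_eq_zero (Finset.mem_attach I ⟨e, heI⟩) (by simp [hs])
  have hEe : ∀ x ∈ E⟮(s : LaurentSeries ℚ̄)⟯, x ∈ Sc ℚ̄ := by
    intro x hx
    have hx' : x ∈ (E⟮(s : LaurentSeries ℚ̄)⟯).restrictScalars ℚ̄ := hx
    rw [IntermediateField.restrictScalars_adjoin_eq_sup] at hx'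
    refine (sup_le hEsc ?_) hx'
    rw [adjoin_simple_le_iff, hs]
    refine inv_mem ?_
    have h1 : HahnSeries.C ε * d e ∈ Sc ℚ̄ := by
      rw [show HahnSeries.C ε * d e = twist (ζu ^ e) J - J by rw [hJd, add_sub_cancel_left]]
      exact sub_mem (twist_mem_Sc (NeZero.ne v) (Units.ext (by
        rw [Units.val_pow_eq_pow_val, hζu, ← pow_mul, Nat.mul_comm, pow_mul, hζ.pow_eq_one,
          one_pow, Units.val_one])) jqModC_mem_Sc) jqModC_mem_Sc
    have h2 := div_mem h1 (C_mem_Sc ε)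
    rwa [mul_div_cancel_left₀ _ ((_root_.map_ne_zero _).mpr hε)] at h2
  have hmain := ResIn.adjoin_root IsLocalRing.residue_surjective (κ' := Lam A N₁) (s := s)
    (fun x hx h0 => scalable_of_mem_Sc hv hA (hEe x hx) h0) hres (KN_le_Lam A N₁)
    (P := P) (monic_prod_of_monic _ _ fun b _ => monic_X_sub_C _) hPcoeff hroot ?_ ?_
  · have hle : lvlField N₁ v ζ₀ ≤ (E⟮(s : LaurentSeries ℚ̄)⟯).restrictScalars ℚ̄ := by
      rw [lvlField, IntermediateField.restrictScalars_adjoin_eq_sup]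
      refine sup_le le_sup_left ?_
      rw [adjoin_simple_le_iff,
        show ζ₀ = ζu ^ e from Units.ext (by rw [hζu, hζe]), hJd]
      refine add_mem ((le_sup_left : E ≤ _) hJE) (mul_mem ?_ ?_)
      · rw [← algebraMap_eq_C']; exact IntermediateField.algebraMap_mem _ _
      · have := inv_mem ((le_sup_right : ℚ̄⟮(s : LaurentSeries ℚ̄)⟯ ≤ E ⊔ _)
          (mem_adjoin_simple_self ℚ̄ (s : LaurentSeries ℚ̄)))
        rwa [hs, inv_inv] at this
    exact ⟨hmain.mono hle le_rfl, fun x hx => hEe x (hle hx), hΘ⟩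
  · -- distinct reduced roots
    rw [hred, ← Finset.mul_prod_erase I _ heI, hgs, derivative_mul, eval_add, eval_mul, eval_mul,
      derivative_X_sub_C, eval_one, one_mul, eval_sub, eval_X, eval_C, sub_self, zero_mul, add_zero,
      eval_prod]
    refine Finset.prod_ne_zero_iff.mpr fun b hb => ?_
    rw [eval_sub, eval_X, eval_C, sub_ne_zero, Ne, inv_inj]
    intro h
    have h' := mul_right_cancel₀ (thetaJ_ne_zero A) h
    have h'' : (e : k) = (b : k) := HahnSeries.C_injective h'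
    haveI := GalCommon.charP_residueField hv hA
    refine Finset.ne_of_mem_erase hb ?_
    have := CharP.natCast_injOn_Iio k v (Set.mem_Iio.mpr he)
      (Set.mem_Iio.mpr (hI b (Finset.mem_of_mem_erase hb)).2) h''
    exact this.symm
  · rw [hgs]
    refine inv_mem (mul_mem ?_ (thetaJ_mem_Lam A N₁))
    rw [← algebraMap_eq_C']
    exact IntermediateField.algebraMap_mem _ _

end FLTAgent.Lower.Levels.Gauss
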