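import Mathlib
import Fermat.Agent.Lower.Levels.Inertia.TowerTop

/-!
# The kernel of `K → K(θ j̄)` on classes modulo `p`-th powers

`exists_monomial_of_pow_mem`: in a Kummer extension `κ(Θ)` an element with a power in `κ` is a
monomial in `Θ`. Hence (`frobCls_sub_mem`) a class of the residue field at level `N₁` which
becomes a `p`-th power in `Lam` is fixed by the coefficient Frobenius `frobCls` modulo `p`-th
powers, as Frobenius fixes `θ j̄`.
-/

set_option autoImplicit false
set_option linter.unusedSectionVars false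
set_option linter.style.haveILetI false

noncomputable section

open ModularCurve Polynomial IntermediateField

namespace FLTAgent.Lower.Levels.Gauss

/-- A series over an algebraically closed field with a positive power constant is a constant. -/
theorem exists_C_eq_of_pow_eq {k : Type} [Field k] [IsAlgClosed k] {n : ℕ} (hn : n ≠ 0)
    {x : LaurentSeries k} {c : k} (h : x ^ n = HahnSeries.C c) : ∃ e : k, x = HahnSeries.C e := by
  set P : k[X] := X ^ n - Polynomial.C c
  have hP : P.Monic := monic_X_pow_sub_C c hn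
  have hmem : x ∈ (P.map (HahnSeries.C : k →+* LaurentSeries k)).roots := by
    refine mem_roots'.mpr ⟨(hP.map _).ne_zero, ?_⟩
    rw [IsRoot, Polynomial.map_sub, Polynomial.map_pow, map_X, map_C, eval_sub, eval_pow, eval_X,
      eval_C, h, sub_self]
  rw [Polynomial.Splits.roots_map (IsAlgClosed.splits P)] at hmem
  obtain ⟨e, -, he⟩ := Multiset.mem_map.mp hmem
  exact ⟨e, he.symm⟩

section Kummer

variable {k : Type} [Field k] [IsAlgClosed k] (κ : IntermediateField k (LaurentSeries k))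

set_option synthInstance.maxHeartbeats 100000 in
set_option maxHeartbeats 800000 in
/-- An element of `κ(Θ)` with a power in `κ` is a monomial in `Θ`. -/
theorem exists_monomial_of_pow_mem {Θ : LaurentSeries k} {d : ℕ} (hd : d ≠ 0) (hΘ0 : Θ ≠ 0)
    (hΘ : Θ ^ d ∈ κ) (hchar : ∀ i, 0 < i → i ≤ d → (i : k) ≠ 0) {p : ℕ} (hp : p ≠ 0)
    {x : LaurentSeries k} (hx : x ∈ κ ⊔ k⟮Θ⟯) (hx0 : x ≠ 0) (hxp : x ^ p ∈ κ) :
    ∃ (a : LaurentSeries k) (i : ℕ), a ∈ κ ∧ x = a * Θ ^ i := by
  classical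
  have hint : IsIntegral κ Θ := ⟨X ^ d - Polynomial.C (⟨Θ ^ d, hΘ⟩ : κ), monic_X_pow_sub_C _ hd, by
    rw [eval₂_sub, eval₂_pow, eval₂_X, eval₂_C]
    exact sub_self _⟩
  set q := minpoly κ Θ with hq
  set m := q.natDegree with hm
  have hm0 : 0 < m := minpoly.natDegree_pos hint
  have hdvd : q ∣ X ^ d - Polynomial.C (⟨Θ ^ d, hΘ⟩ : κ) := minpoly.dvd κ Θ (by
    rw [map_sub, map_pow, aeval_X, aeval_C]
    exact sub_self _)
  have hmd : m ≤ d := (natDegree_le_of_dvd hdvd (monic_X_pow_sub_C _ hd).ne_zero).trans_eq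
    (natDegree_X_pow_sub_C)
  haveI : NeZero (d : k) := ⟨hchar d (Nat.pos_of_ne_zero hd) le_rfl⟩
  haveI : NeZero (m : k) := ⟨hchar m hm0 hmd⟩
  obtain ⟨ω, hω⟩ := HasEnoughRootsOfUnity.exists_primitiveRoot k d
  -- the roots of the minimal polynomial
  set b : LaurentSeries k := Θ ^ d with hb
  have hCω : IsPrimitiveRoot (HahnSeries.C ω : LaurentSeries k) d :=
    hω.map_of_injective HahnSeries.C_injective
  have hfac := X_pow_sub_C_eq_prod hCω (Nat.pos_of_ne_zero hd) (rfl : Θ ^ d = b)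
  have hbig : (X ^ d - Polynomial.C (⟨Θ ^ d, hΘ⟩ : κ)).map (algebraMap κ (LaurentSeries k)) =
      X ^ d - Polynomial.C b := by
    rw [Polynomial.map_sub, Polynomial.map_pow, map_X, map_C]
    rfl
  set Q := q.map (algebraMap κ (LaurentSeries k)) with hQ
  have hQdvd : Q ∣ ∏ i ∈ Finset.range d, (X - Polynomial.C ((HahnSeries.C ω) ^ i * Θ)) := by
    rw [← hfac, ← hbig]
    exact Polynomial.map_dvd _ hdvd
  have hQm : Q.Monic := (minpoly.monic hint).map _
  have hQsplit : Q.Splits :=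
    (Polynomial.Splits.prod (fun i _ => Polynomial.Splits.X_sub_C _)).of_dvd
      (monic_prod_of_monic _ _ fun i _ => monic_X_sub_C _).ne_zero hQdvd
  have hroots : ∀ r ∈ Q.roots, ∃ c : k, r = HahnSeries.C c * Θ := by
    intro r hr
    have h1 := Polynomial.eval_eq_zero_of_dvd_of_eval_eq_zero hQdvd (mem_roots'.mp hr).2
    rw [eval_prod, Finset.prod_eq_zero_iff] at h1
    obtain ⟨i, -, hi⟩ := h1
    rw [eval_sub, eval_X, eval_C, sub_eq_zero] at hi
    exact ⟨ω ^ i, by rw [hi, map_pow]⟩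
  have hprod : ∀ s : Multiset (LaurentSeries k), (∀ r ∈ s, ∃ c : k, r = HahnSeries.C c * Θ) →
      ∃ c : k, s.prod = HahnSeries.C c * Θ ^ s.card := by
    intro s
    induction s using Multiset.induction with
    | empty => exact fun _ => ⟨1, by simp⟩
    | cons r s ih =>
      intro h
      obtain ⟨c, hc⟩ := h r (Multiset.mem_cons_self r s)
      obtain ⟨e, he⟩ := ih fun r' hr' => h r' (Multiset.mem_cons_of_mem hr')
      exact ⟨c * e, by rw [Multiset.prod_cons, Multiset.card_cons, he, hc, map_mul]; ring⟩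
  obtain ⟨c, hc⟩ := hprod Q.roots hroots
  have hdeg : Q.natDegree = m := (minpoly.monic hint).natDegree_map _
  have hcard : Q.roots.card = m := hQsplit.natDegree_eq_card_roots.symm.trans hdeg
  have h0 : Q.coeff 0 = (-1) ^ m * (HahnSeries.C c * Θ ^ m) := by
    rw [hQsplit.coeff_zero_eq_prod_roots_of_monic hQm, hdeg, hc, hcard]
  have hc0 : c ≠ 0 := by
    intro h
    have hz : q.coeff 0 = 0 := by
      refine (algebraMap κ (LaurentSeries k)).injective ?_
      rw [← Polynomial.coeff_map, ← hQ, h0, h, map_zero, map_zero, zero_mul, mul_zero]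
    exact hΘ0 ((minpoly.coeff_zero_eq_zero hint).mp hz)
  have hΘm : Θ ^ m ∈ κ := by
    have h1 : Q.coeff 0 ∈ κ := by rw [hQ, Polynomial.coeff_map]; exact (q.coeff 0).2
    rw [h0, ← mul_assoc] at h1
    have hne : ((-1) ^ m * HahnSeries.C c : LaurentSeries k) ≠ 0 :=
      mul_ne_zero (pow_ne_zero _ (neg_ne_zero.mpr one_ne_zero)) ((_root_.map_ne_zero _).mpr hc0)
    have hk : ((-1) ^ m * HahnSeries.C c : LaurentSeries k) ∈ κ := by
      rw [← algebraMap_eq_C']
      exact mul_mem (pow_mem (neg_mem (one_mem _)) _) (IntermediateField.algebraMap_mem _ _)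
    have := div_mem h1 hk
    rwa [mul_div_cancel_left₀ _ hne] at this
  have hqeq : q = X ^ m - Polynomial.C (⟨Θ ^ m, hΘm⟩ : κ) := by
    refine (minpoly.unique κ Θ (monic_X_pow_sub_C _ hm0.ne') (by
      rw [map_sub, map_pow, aeval_X, aeval_C]; exact sub_self _) fun r hr hr0 => ?_).symm
    rw [degree_X_pow_sub_C hm0, hm, ← degree_eq_natDegree (minpoly.ne_zero hint)]
    exact minpoly.min κ Θ hr hr0
  -- the automorphism `Θ ↦ ω' Θ`
  obtain ⟨ω', hω'⟩ := HasEnoughRootsOfUnity.exists_primitiveRoot k m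
  set F := κ⟮Θ⟯ with hF
  let pb : PowerBasis κ F := IntermediateField.adjoin.powerBasis hint
  let z : F := algebraMap κ F (algebraMap k κ ω') * pb.gen
  have hgen : ((pb.gen : F) : LaurentSeries k) = Θ := rfl
  have hz : aeval z (minpoly κ pb.gen) = 0 := by
    have e : minpoly κ pb.gen = q := by
      rw [IntermediateField.adjoin.powerBasis_gen, IntermediateField.minpoly_gen]
    rw [e, hqeq, map_sub, map_pow, aeval_X, aeval_C, sub_eq_zero, mul_pow, ← map_pow, ← map_pow,
      hω'.pow_eq_one, map_one, map_one, one_mul]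
    exact Subtype.ext (by rw [SubmonoidClass.coe_pow, hgen]; rfl)
  let σ : F →ₐ[κ] F := pb.lift z hz
  have hxF : x ∈ F := by
    have : x ∈ (κ⟮Θ⟯).restrictScalars k := by
      rw [IntermediateField.restrictScalars_adjoin_eq_sup]
      exact hx
    exact this
  set xF : F := ⟨x, hxF⟩ with hxF'
  have hσpow : σ xF ^ p = xF ^ p := by
    have e : xF ^ p = algebraMap κ F ⟨x ^ p, hxp⟩ := Subtype.ext (by simp [hxF'])
    rw [← map_pow, e, AlgHom.commutes]
  obtain ⟨μ, hμ⟩ : ∃ μ : k, ((σ xF : F) : LaurentSeries k) / x = HahnSeries.C μ := by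
    refine exists_C_eq_of_pow_eq hp (c := 1) ?_
    have h1 := congrArg (fun y : F => (y : LaurentSeries k)) hσpow
    simp only [SubmonoidClass.coe_pow, hxF'] at h1
    rw [div_pow, h1, map_one, div_self (pow_ne_zero p hx0)]
  have hσx : σ xF = algebraMap κ F (algebraMap k κ μ) * xF := by
    refine Subtype.ext ?_
    rw [MulMemClass.coe_mul]
    show _ = algebraMap k (LaurentSeries k) μ * x
    rw [algebraMap_eq_C', ← hμ, div_mul_cancel₀ _ hx0]
  have hdim : pb.dim = m := by
    rw [hm, hq, IntermediateField.adjoin.powerBasis_dim]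
  have hsum := pb.basis.sum_repr xF
  simp only [Algebra.smul_def, pb.coe_basis] at hsum
  set a := fun i => pb.basis.repr xF i with ha
  have hexp : σ xF = ∑ i : Fin pb.dim, (a i * algebraMap k κ ω' ^ (i : ℕ)) • pb.basis i := by
    conv_lhs => rw [← hsum]
    rw [map_sum]
    refine Finset.sum_congr rfl fun i _ => ?_
    rw [map_mul, AlgHom.commutes, map_pow, PowerBasis.lift_gen, pb.coe_basis, Algebra.smul_def,
      map_mul, map_pow, mul_pow]
    ring
  have hexp' : σ xF = ∑ i : Fin pb.dim, (a i * algebraMap k κ μ) • pb.basis i := by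
    rw [hσx]
    conv_lhs => rw [← hsum]
    rw [Finset.mul_sum]
    refine Finset.sum_congr rfl fun i _ => ?_
    rw [pb.coe_basis, Algebra.smul_def, map_mul]
    ring
  have hcoef : ∀ i : Fin pb.dim, a i ≠ 0 → ω' ^ (i : ℕ) = μ := by
    intro i hi
    have := congrArg (fun y => pb.basis.repr y i) (hexp.symm.trans hexp')
    simp only [Module.Basis.repr_sum_self] at this
    have h2 := mul_left_cancel₀ hi this
    rw [← map_pow] at h2
    exact (algebraMap k κ).injective h2
  obtain ⟨i, hi⟩ : ∃ i, a i ≠ 0 := by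
    by_contra h
    push Not at h
    refine hx0 ?_
    have : xF = 0 := pb.basis.repr.injective (Finsupp.ext fun i => by rw [map_zero]; exact h i)
    exact congrArg Subtype.val this
  have huniq : ∀ j, a j ≠ 0 → j = i := fun j hj => Fin.ext <|
    hω'.pow_inj (hdim ▸ j.2) (hdim ▸ i.2) ((hcoef j hj).trans (hcoef i hi).symm)
  refine ⟨(a i : LaurentSeries k), i, (a i).2, ?_⟩
  have hxeq : xF = algebraMap κ F (a i) * pb.gen ^ (i : ℕ) := by
    conv_lhs => rw [← hsum]
    rw [Finset.sum_eq_single i]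
    · intro j _ hji
      have : a j = 0 := by
        by_contra hj
        exact hji (huniq j hj)
      show algebraMap κ F (a j) * _ = 0
      rw [this, map_zero, zero_mul]
    · intro h
      exact absurd (Finset.mem_univ i) h
  have := congrArg (fun y : F => (y : LaurentSeries k)) hxeq
  exact this

/-- A power class of `κ(Θ)` lying in `κ` is moved by an automorphism fixing `Θ` within the powers
of `κ`. -/
theorem clsMap_sub_mem_powOf {Θ : LaurentSeries k} {d : ℕ} (hd : d ≠ 0) (hΘ0 : Θ ≠ 0)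
    (hΘ : Θ ^ d ∈ κ) (hchar : ∀ i, 0 < i → i ≤ d → (i : k) ≠ 0) {p : ℕ} (hp : p ≠ 0)
    (g : LaurentSeries k →+* LaurentSeries k)
    (hg : ∀ a : k, ∃ b : k, g (HahnSeries.C a) = HahnSeries.C b)
    (hgκ : ∀ y ∈ κ, g y ∈ κ) (hgΘ : g Θ = Θ) {y : Cls k} (hy : y ∈ clsOf k κ)
    (hyp : y ∈ powOf k (κ ⊔ k⟮Θ⟯) p) : clsMap g hg y - y ∈ powOf k κ p := by
  obtain ⟨w, hw, hw0, rfl⟩ := hy
  obtain ⟨_, ⟨z, hz, hz0, rfl⟩, hzw⟩ := mem_powOf.mp hyp
  rw [← qcls_pow hz0] at hzw
  obtain ⟨c, hc, hwz⟩ := exists_C_of_qcls_eq hw0 (pow_ne_zero p hz0) hzw.symm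
  have hzp : z ^ p ∈ κ := by
    have hC : (HahnSeries.C c : LaurentSeries k) ∈ κ := by
      rw [← algebraMap_eq_C']; exact IntermediateField.algebraMap_mem _ _
    have := div_mem hw hC
    rwa [hwz, mul_div_cancel_left₀ _ ((_root_.map_ne_zero _).mpr hc)] at this
  obtain ⟨a, i, ha, rfl⟩ := exists_monomial_of_pow_mem κ hd hΘ0 hΘ hchar hp hz hz0 hzp
  have ha0 : a ≠ 0 := left_ne_zero_of_mul hz0
  refine mem_powOf.mpr ⟨qcls (g a) - qcls a, ?_, ?_⟩
  · exact sub_mem (qcls_mem_clsOf (hgκ a ha) ((_root_.map_ne_zero g).mpr ha0))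
      (qcls_mem_clsOf ha ha0)
  have hga : g a ≠ 0 := (_root_.map_ne_zero g).mpr ha0
  have h2 : clsMap g hg (qcls ((a * Θ ^ i) ^ p)) = qcls ((g a * Θ ^ i) ^ p) := by
    rw [clsMap_qcls g hg (pow_ne_zero p hz0), map_pow, map_mul, map_pow, hgΘ]
  rw [hwz, qcls_C_mul hc (pow_ne_zero p hz0), h2,
    qcls_pow (mul_ne_zero hga (pow_ne_zero i hΘ0)), qcls_pow hz0, qcls_mul hga (pow_ne_zero i hΘ0),
    qcls_mul ha0 (pow_ne_zero i hΘ0), ← smul_sub, add_sub_add_right_eq_sub]

end Kummer

variable {A : ValuationSubring (AlgebraicClosure ℚ)} {N₁ v : ℕ} [NeZero N₁] [NeZero v]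

local notation "k" => IsLocalRing.ResidueField A

/-- Frobenius on the coefficients. -/
def frobSer [CharP k v] [Fact v.Prime] : LaurentSeries k →+* LaurentSeries k :=
  coeffMap (frobenius k v)

theorem frobSer_C [CharP k v] [Fact v.Prime] (a : k) :
    ∃ b : k, frobSer (v := v) (HahnSeries.C a) = HahnSeries.C b :=
  ⟨frobenius k v a, coeffMap_single _ _ _⟩

variable (A v) in
/-- Frobenius on classes. -/
def frobCls [CharP k v] [Fact v.Prime] : Cls k →+ Cls k :=
  clsMap (frobSer (v := v)) frobSer_C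

theorem frobCls_qcls [CharP k v] [Fact v.Prime] {x : LaurentSeries k} (hx : x ≠ 0) :
    frobCls A v (qcls x) = qcls (coeffMap (frobenius k v) x) :=
  clsMap_qcls _ _ hx

theorem frobSer_mem [CharP k v] [Fact v.Prime] {x : LaurentSeries k} (hx : x ∈ KN A N₁) :
    frobSer (v := v) x ∈ KN A N₁ := Kronecker.coeffMap_mem_fullC N₁ _ hx

theorem frobSer_thetaJ [CharP k v] [Fact v.Prime] : frobSer (v := v) (thetaJ A) = thetaJ A := by
  ext i
  rw [frobSer, coeffMap_coeff, coeff_thetaJ, map_mul, map_intCast, ← coeffMap_coeff (frobenius k v),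
    coeffMap_jqModC]

theorem frobCls_clsOf [CharP k v] [Fact v.Prime] {g : Cls k} (hg : g ∈ clsOf k (KN A N₁)) :
    frobCls A v g ∈ clsOf k (KN A N₁) := by
  obtain ⟨x, hx, hx0, rfl⟩ := hg
  rw [frobCls_qcls hx0]
  exact qcls_mem_clsOf (frobSer_mem (v := v) hx) ((_root_.map_ne_zero _).mpr hx0)

theorem frobCls_powOf_Lam [CharP k v] [Fact v.Prime] {n : ℕ} {g : Cls k}
    (hg : g ∈ powOf k (Lam A N₁) n) : frobCls A v g ∈ powOf k (Lam A N₁) n := by
  obtain ⟨_, ⟨x, hx, hx0, rfl⟩, rfl⟩ := mem_powOf.mp hg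
  refine mem_powOf.mpr ⟨_, qcls_mem_clsOf (κ := Lam A N₁) (x := frobSer (v := v) x) ?_
    ((_root_.map_ne_zero _).mpr hx0), ?_⟩
  · revert x
    suffices h : ∀ x ∈ Lam A N₁, frobSer (v := v) x ∈ Lam A N₁ from fun x hx _ _ => h x hx
    intro x hx
    let T : IntermediateField k (LaurentSeries k) :=
      Subfield.toIntermediateField ((Lam A N₁).toSubfield.comap (frobSer (v := v))) fun a => by
        obtain ⟨b, hb⟩ := frobSer_C (v := v) (A := A) a
        rw [Subfield.mem_comap, algebraMap_eq_C', hb, ← algebraMap_eq_C']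
        exact (Lam A N₁).algebraMap_mem b
    have hle : Lam A N₁ ≤ T := by
      refine sup_le (fun y hy => KN_le_Lam A N₁ (frobSer_mem (v := v) hy)) ?_
      rw [adjoin_simple_le_iff]
      show frobSer (v := v) (thetaJ A) ∈ Lam A N₁
      rw [frobSer_thetaJ]
      exact thetaJ_mem_Lam A N₁
    exact hle hx
  · rw [map_nsmul, frobCls_qcls hx0]
    rfl

/-- **The kernel.** A class of `K` which is a `p`-th power in `K(θ j)` is fixed by Frobenius modulo
`p`-th powers. -/
theorem frobCls_sub_mem [CharP k v] [Fact v.Prime] [IsAlgClosed k]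
    (hΘ : thetaJ A ^ (v - 1) ∈ KN A N₁) {p : ℕ} (hp : p ≠ 0) {y : Cls k}
    (hy : y ∈ clsOf k (KN A N₁)) (hyp : y ∈ powOf k (Lam A N₁) p) :
    frobCls A v y - y ∈ powOf k (KN A N₁) p := by
  have hv := (Fact.out : v.Prime)
  refine clsMap_sub_mem_powOf (KN A N₁) (d := v - 1) ?_ (thetaJ_ne_zero A) hΘ
    (fun i hi hid h => ?_) hp _ _ (fun y hy => frobSer_mem hy) frobSer_thetaJ hy hyp
  · have := hv.two_le; omega
  · rw [CharP.cast_eq_zero_iff k v] at h
    have := Nat.le_of_dvd hi h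
    omega

end FLTAgent.Lower.Levels.Gauss
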