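import Mathlib
import Fermat.Agent.Lower.Levels.Defs
import Fermat.Agent.Lower.Levels.Inertia.Kernel
import Fermat.Agent.HeckeH.TorsionHecke
import Fermat.Agent.ModularCosets.Descent
import Fermat.Agent.Torsion.AutLemma

/-!
# Interpolation and descent of expansions

`mem_sup_of_invariant`: a meromorphic function invariant under the elements of `Γ₀(M)`, `v² ∣ M`,
with `d² ≡ 1 (mod v)` has its expansion in `FC M` with `j (z + 1/v)` adjoined (interpolation by
symmetric functions of the `j (z + u/v)`). `mem_of_mem_baseC` and `exists_root_mem`: a series with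
algebraic coefficients in the `ℂ`-field generated by a `ℚ̄`-field `L`, and an `n`-th root in that
field of an element of `L`, come from `L`. The translations `tr`, the roots of unity `zetaC`,
`zetaQ` and the expansion of translates (`hasQExp_tr`) are set up here.
-/

set_option autoImplicit false
set_option linter.unusedSectionVars false
set_option linter.style.haveILetI false

noncomputable section

open UpperHalfPlane CongruenceSubgroup Filter Topology ModularCurve
open scoped MatrixGroups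

namespace FLTAgent.Lower.Levels.Gauss

open FLTAgent.Modular
open FLTAgent.HeckeH (glM exists_decomp det_glM_pos matOf M2)

local notation "ℚ̄" => AlgebraicClosure ℚ
local notation "ι₀" => Reps.qbarEmb

section Periodic

/-- A periodic function of finite order at the cusp has an expansion in `exp (2πi z)`. -/
theorem exists_hasQExp_one {f : ℍ → ℂ} (hf : IsMero f) (hper : ∀ z : ℍ, f ((1 : ℝ) +ᵥ z) = f z)
    {h : ℝ} (hh : 1 ≤ h) {n : ℕ} (hn : IsBoundedAtImInfty fun z : ℍ => qPow h n z * f z) :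
    ∃ y : LaurentSeries ℂ, HasQExp 1 f y := by
  have hbd : IsBoundedAtImInfty fun z : ℍ => qPow 1 n z * f z := by
    refine Asymptotics.IsBigO.trans (Asymptotics.IsBigO.of_bound 1
      (Eventually.of_forall fun z => ?_)) hn
    rw [one_mul, norm_mul, norm_mul, norm_qPow, norm_qPow, zpow_natCast, zpow_natCast]
    refine mul_le_mul_of_nonneg_right (pow_le_pow_left₀ (Real.exp_pos _).le ?_ n) (norm_nonneg _)
    simp only [Real.exp_le_exp, div_one]
    rw [le_div_iff₀ (by linarith)]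
    nlinarith [Real.pi_pos, z.im_pos, mul_pos Real.pi_pos z.im_pos]
  obtain ⟨y, hy, -⟩ := exists_hasQExp_of_periodic one_pos hper
    (hf.eventually_analyticAt_of_bounded hbd) n hbd
  exact ⟨y, hy⟩

/-- `exp (2πi / v)`. -/
def zetaC (v : ℕ) : ℂˣ :=
  Units.mk0 (Complex.exp (2 * Real.pi * Complex.I / v)) (Complex.exp_ne_zero _)

theorem zetaC_isPrimitiveRoot (v : ℕ) [NeZero v] : IsPrimitiveRoot (zetaC v) v :=
  IsPrimitiveRoot.coe_units_iff.mp (Complex.isPrimitiveRoot_exp v (NeZero.ne v))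

theorem exists_zetaQ (v : ℕ) [NeZero v] :
    ∃ ζ : ℚ̄ˣ, ι₀ (ζ : ℚ̄) = (zetaC v : ℂ) ∧ IsPrimitiveRoot ζ v := by
  obtain ⟨w, hw⟩ := HasEnoughRootsOfUnity.exists_primitiveRoot ℚ̄ v
  obtain ⟨i, -, hi⟩ := (hw.map_of_injective (ι₀).injective).eq_pow_of_pow_eq_one
    ((IsPrimitiveRoot.coe_units_iff.mpr (zetaC_isPrimitiveRoot v)).pow_eq_one)
  have hne : w ^ i ≠ 0 := pow_ne_zero i (hw.ne_zero (NeZero.ne v))
  refine ⟨Units.mk0 _ hne, by rw [Units.val_mk0, map_pow, hi], ?_⟩
  refine IsPrimitiveRoot.coe_units_iff.mp (IsPrimitiveRoot.of_map_of_injective (f := ι₀)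
    ?_ (ι₀).injective)
  rw [Units.val_mk0, map_pow, hi]
  exact IsPrimitiveRoot.coe_units_iff.mpr (zetaC_isPrimitiveRoot v)

/-- A root of unity `exp (2πi / v)` in `ℚ̄`. -/
def zetaQ (v : ℕ) [NeZero v] : ℚ̄ˣ := (exists_zetaQ v).choose

theorem qbarEmb_zetaQ (v : ℕ) [NeZero v] : ι₀ (zetaQ v : ℚ̄) = (zetaC v : ℂ) :=
  (exists_zetaQ v).choose_spec.1

theorem zetaQ_isPrimitiveRoot (v : ℕ) [NeZero v] : IsPrimitiveRoot (zetaQ v) v :=
  (exists_zetaQ v).choose_spec.2

/-- The translation `z ↦ z + u / v`. -/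
def tr (v : ℕ) (u : ZMod v) (z : ℍ) : ℍ := ((u.val : ℝ) / v) +ᵥ z

theorem hasQExp_tr {v : ℕ} [NeZero v] {f : ℍ → ℂ} {y : LaurentSeries ℂ} (hf : HasQExp 1 f y)
    (u : ZMod v) : HasQExp 1 (fun z => f (tr v u z)) (twistSeries (zetaC v ^ u.val) y) := by
  rw [hasQExp_iff] at hf ⊢
  have ht : Tendsto (tr v u) atImInfty atImInfty :=
    tendsto_atImInfty_of_affine (a := 1) one_pos (b := (u.val : ℝ) / v) fun z => by
      rw [tr, coe_vadd]; push_cast; ring
  filter_upwards [ht.eventually hf] with z hz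
  convert hz using 1
  funext k
  rw [twistSeries_coeff, Units.val_zpow_eq_zpow_val, Units.val_pow_eq_pow_val, zetaC, Units.val_mk0,
    qPow, qPow, tr, coe_vadd, ← Complex.exp_nat_mul, ← Complex.exp_int_mul, mul_comm _ (y.coeff k),
    mul_assoc, ← Complex.exp_add]
  congr 2
  push_cast
  ring

theorem det_transMat (v : ℕ) (u : ZMod v) : (transMat v u).det = ((v * v : ℕ) : ℤ) := by
  rw [transMat, Matrix.det_fin_two_of]; push_cast; ring

theorem det_transMat_ne (v : ℕ) [NeZero v] (u : ZMod v) : (transMat v u).det ≠ 0 := by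
  rw [det_transMat]; exact_mod_cast Nat.mul_ne_zero (NeZero.ne v) (NeZero.ne v)

theorem glM_transMat_smul (v : ℕ) [NeZero v] (u : ZMod v) (z : ℍ) :
    glM (transMat v u) (det_transMat_ne v u) • z = tr v u z := by
  refine UpperHalfPlane.ext ?_
  have hv : (v : ℂ) ≠ 0 := by exact_mod_cast NeZero.ne v
  rw [coe_smul_of_det_pos]
  · rw [tr, coe_vadd]
    simp [num, denom, HeckeH.val_glM, transMat]
    field_simp
    ring
  · rw [Matrix.GeneralLinearGroup.val_det_apply]
    refine det_glM_pos (det_transMat_ne v u) ?_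
    rw [det_transMat]
    exact_mod_cast Nat.pos_of_ne_zero (Nat.mul_ne_zero (NeZero.ne v) (NeZero.ne v))

variable {N M v : ℕ} [NeZero v] (hvN : v ∣ N) (hM : N * v ∣ M)

include hvN hM in
theorem tr_smul (γ : Gamma0 M) (u : ZMod v) (z : ℍ) :
    tr v u ((γ : SL(2, ℤ)) • z) =
      (twistElt hvN hM γ u : SL(2, ℤ)) • tr v (twistIdx v γ u) z := by
  have hA := det_transMat_ne v u
  have hB := det_transMat_ne v (twistIdx v γ u)
  have hg : ((matOf γ : M2)).det ≠ 0 := by rw [HeckeH.det_matOf]; exact one_ne_zero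
  have hd : ((matOf (twistElt hvN hM γ u) : M2)).det ≠ 0 := by
    rw [HeckeH.det_matOf]; exact one_ne_zero
  have hC : (transMat v u * matOf γ).det ≠ 0 := by
    rw [Matrix.det_mul]; exact mul_ne_zero hA hg
  have e := (HeckeH.glM_mul_smul hA hg hC rfl z).symm.trans
    (HeckeH.glM_mul_smul hd hB hC (transMat_mul hvN hM γ u) z)
  have e1 : tr v u ((γ : SL(2, ℤ)) • z) = glM (transMat v u) hA • (glM (matOf γ) hg • z) := by
    rw [glM_transMat_smul]
    exact congrArg _ (HeckeH.glM_SL (γ : SL(2, ℤ)) hg z).symm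
  rw [e1, e, glM_transMat_smul]
  exact HeckeH.glM_SL (twistElt hvN hM γ u : SL(2, ℤ)) hd _

end Periodic

section Interp

variable {M v : ℕ} [NeZero M] [NeZero v]

/-- The square of the lower right entry modulo `v`. -/
def dSq (hvM : v ∣ M) : Gamma0 M →* (ZMod v)ˣ := dUnit hvM ^ 2

theorem T_pow_conj_dSq (hvM : v ∣ M) (γ : SL(2, ℤ)) :
    dSq hvM ⟨_, T_pow_conj_mem_Gamma0 M γ⟩ = 1 := by
  refine Units.ext ?_
  rw [dSq, MonoidHom.pow_apply, Units.val_pow_eq_pow_val, coe_dUnit, Units.val_one]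
  have e : matOf (⟨_, T_pow_conj_mem_Gamma0 M γ⟩ : Gamma0 M) 1 1 =
      1 + (M : ℤ) * (γ 1 0 * γ 0 0) := by
    show (γ * ModularGroup.T ^ (M : ℤ) * γ⁻¹ : SL(2, ℤ)) 1 1 = _
    simp [Matrix.mul_apply, Fin.sum_univ_two, Matrix.SpecialLinearGroup.coe_inv,
      Matrix.adjugate_fin_two, ModularGroup.coe_T_zpow, -zpow_natCast]
    have hdet : γ 0 0 * γ 1 1 - γ 0 1 * γ 1 0 = 1 := by
      rw [← Matrix.det_fin_two]; exact γ.2
    linear_combination hdet
  obtain ⟨c, hc⟩ := hvM
  rw [e, hc]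
  simp

/-- An invariant raw function has its expansion in `FC M`. -/
theorem exists_mem_FC_of_invariant {h : ℍ → ℂ} (hraw : IsMeroRaw h)
    (hinv : ∀ (γ : Gamma0 M) (z : ℍ), h ((γ : SL(2, ℤ)) • z) = h z)
    (hexp : ∀ γ : SL(2, ℤ), ∃ y : LaurentSeries ℂ, HasQExp M (fun z => h (γ • z)) y)
    {Z : LaurentSeries ℂ} (hZ : HasQExp M h Z) :
    ∃ t ∈ FC M, qExpand ℂ M t = Z := by
  have hM0 : (0 : ℝ) < M := by exact_mod_cast Nat.pos_of_ne_zero (NeZero.ne M)
  obtain ⟨y, hy⟩ := exists_eq_ev (IsModFun.of_nfH hraw hinv hexp)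
  have h2 := (hasQExp_ev y).qExpand M
  rw [hy, mul_one] at h2
  exact ⟨_, y.2, h2.unique hM0 (hZ.nfH hM0)⟩

theorem exists_hasQExp_jtr (hM : v * v ∣ M) (u : ZMod v) (γ : SL(2, ℤ)) :
    ∃ y : LaurentSeries ℂ, HasQExp M (fun z => jFun (tr v u (γ • z))) y := by
  obtain ⟨δ, φ, a, b, D, haD, hbD, hφ, hMγ⟩ := exists_decomp (transMat v u) (det_transMat_ne v u)
    (Nat.mul_ne_zero (NeZero.ne v) (NeZero.ne v)) (det_transMat v u) γ
  have ha : a ≠ 0 := fun h => NeZero.ne v (by
    rw [h, zero_mul] at haD; exact Nat.mul_self_inj.mp (haD.symm.trans (zero_mul 0).symm))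
  have hD : D ≠ 0 := by omega
  have : NeZero a := ⟨ha⟩
  have : NeZero D := ⟨hD⟩
  obtain ⟨c, hc⟩ : D ∣ M := (dvd_mul_left D a).trans (haD ▸ hM)
  have : NeZero c := ⟨fun h => NeZero.ne M (by rw [hc, h, mul_zero])⟩
  have h1 := (hasQExp_jFun.comp_affine one_ne_zero a D (b : ℤ) (φ := φ) fun z => by
    rw [hφ]; push_cast; field_simp).qExpand c
  rw [show (c : ℝ) * ((D : ℝ) * 1) = M by rw [hc]; push_cast; ring] at h1
  refine ⟨_, h1.congr (Eventually.of_forall fun z => ?_)⟩
  show jFun (φ z) = jFun (tr v u (γ • z))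
  rw [← glM_transMat_smul, hMγ, jFun_smul]

/-- **Interpolation.** A meromorphic function of level `M` invariant under `d² ≡ 1 (mod v)` has its
expansion in `FC M` with `j(z + 1/v)` adjoined. -/
theorem mem_sup_of_invariant (hM : v * v ∣ M) {F : ℍ → ℂ} (hF : IsMero F)
    (hcusp : IsMeroAtCusps M F)
    (hinv : ∀ γ : Gamma0 M, dSq (dvd_of_mul_left_dvd hM) γ = 1 → ∀ z, F ((γ : SL(2, ℤ)) • z) = F z)
    {Y : LaurentSeries ℂ} (hY : HasQExp 1 F Y) :
    Y ∈ FC M ⊔ IntermediateField.adjoin ℂ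
      ({twistSeries (zetaC v) (coeffEmb ℂ jq)} : Set (LaurentSeries ℂ)) := by
  classical
  have hM0 : (0 : ℝ) < M := by exact_mod_cast Nat.pos_of_ne_zero (NeZero.ne M)
  set hvM : v ∣ M := dvd_of_mul_left_dvd hM
  set φ := qExpand ℂ M with hφ
  set Q := (dSq hvM).range with hQdef
  haveI : Fintype Q := Fintype.ofFinite _
  have hgex : ∀ e : Q, ∃ g : Gamma0 M, dSq hvM g = e := fun e => e.2
  choose g hg using hgex
  let perm : Gamma0 M → Q ≃ Q := fun δ => Equiv.mulRight ⟨dSq hvM δ, δ, rfl⟩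
  have hFperm : ∀ (δ : Gamma0 M) (e : Q) (z : ℍ),
      F ((g e : SL(2, ℤ)) • ((δ : SL(2, ℤ)) • z)) = F ((g (perm δ e) : SL(2, ℤ)) • z) := by
    intro δ e z
    have h1 : dSq hvM (g e * δ * (g (perm δ e))⁻¹) = 1 := by
      rw [map_mul, map_mul, map_inv, hg, hg]
      simp [perm, Equiv.coe_mulRight]
    have h2 := hinv _ h1 ((g (perm δ e) : SL(2, ℤ)) • z)
    simpa [Subgroup.coe_mul, Subgroup.coe_inv, mul_smul, inv_smul_smul] using h2
  have hvv : v * v ∣ M := hM
  have hjperm : ∀ (δ : Gamma0 M) (e : Q) (z : ℍ),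
      jFun (tr v ((e : (ZMod v)ˣ) : ZMod v) ((δ : SL(2, ℤ)) • z)) =
        jFun (tr v (((perm δ e : Q) : (ZMod v)ˣ) : ZMod v) z) := by
    intro δ e z
    rw [tr_smul (dvd_refl v) hvv, jFun_smul]
    simp [perm, Equiv.coe_mulRight, twistIdx, dSq, coe_dUnit]
  -- expansions
  have hFexp : ∀ (e : Q) (γ : SL(2, ℤ)),
      ∃ y : LaurentSeries ℂ, HasQExp M (fun z => F ((g e : SL(2, ℤ)) • (γ • z))) y := by
    intro e γ
    obtain ⟨n, hn⟩ := hcusp ((g e : SL(2, ℤ)) * γ)
    have hper : ∀ z : ℍ, F ((g e : SL(2, ℤ)) • (γ • ((M : ℝ) +ᵥ z))) =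
        F ((g e : SL(2, ℤ)) • (γ • z)) := by
      intro z
      have h1 := hinv _ (T_pow_conj_dSq hvM ((g e : SL(2, ℤ)) * γ))
        (((g e : SL(2, ℤ)) * γ) • z)
      simp only [mul_smul, inv_smul_smul, mul_inv_rev] at h1
      rw [show ((M : ℝ) +ᵥ z) = ModularGroup.T ^ (M : ℤ) • z by
        rw [UpperHalfPlane.modular_T_zpow_smul]; norm_cast]
      exact h1
    obtain ⟨y, hy, -⟩ := exists_hasQExp_of_periodic (f := fun z => F ((g e : SL(2, ℤ)) • (γ • z)))
      hM0 hper (((hF.comp_sl (g e : SL(2, ℤ))).comp_sl γ).eventually_analyticAt_of_bounded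
        (h := (M : ℝ)) (n := n) (by simpa [mul_smul] using hn)) n (by simpa [mul_smul] using hn)
    exact ⟨y, hy⟩
  choose Ye hYe using fun e : Q => hFexp e 1
  simp only [one_smul] at hYe
  set R : Q → LaurentSeries ℂ := fun e =>
    twistSeries (zetaC v ^ ((e : (ZMod v)ˣ) : ZMod v).val) (coeffEmb ℂ jq) with hR
  have hRe : ∀ e : Q, HasQExp M (fun z => jFun (tr v ((e : (ZMod v)ˣ) : ZMod v) z)) (φ (R e)) :=
    fun e => by
      have := (hasQExp_tr hasQExp_jFun ((e : (ZMod v)ˣ) : ZMod v)).qExpand M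
      rwa [mul_one] at this
  have hraw : ∀ e : Q, IsMeroRaw fun z => jFun (tr v ((e : (ZMod v)ˣ) : ZMod v) z) := fun e => by
    have := isMero_jFun.raw.comp_glSmul (det_glM_pos (det_transMat_ne v ((e : (ZMod v)ˣ) : ZMod v))
      (by rw [det_transMat]; exact_mod_cast
        Nat.pos_of_ne_zero (Nat.mul_ne_zero (NeZero.ne v) (NeZero.ne v))))
    simp only [glM_transMat_smul] at this
    exact this
  have hRinj : Function.Injective R := by
    intro e e' h
    have h1 := congrArg (fun y : LaurentSeries ℂ => y.coeff (-1)) h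
    simp only [hR, twistSeries_coeff, coeffEmb_coeff, coeff_jq_neg_one, map_one, mul_one,
      zpow_neg, zpow_one, Units.val_inv_eq_inv_val, inv_inj] at h1
    have h2 := (zetaC_isPrimitiveRoot v).pow_inj (ZMod.val_lt _) (ZMod.val_lt _) (Units.ext h1)
    exact Subtype.ext (Units.ext (ZMod.val_injective v h2))
  set e₀ : Q := 1
  set R₁ := twistSeries (zetaC v) (coeffEmb ℂ jq) with hR₁
  set L := FC M ⊔ IntermediateField.adjoin ℂ ({R₁} : Set (LaurentSeries ℂ)) with hL
  have hFC : FC M ≤ L := le_sup_left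
  set K : Subfield (LaurentSeries ℂ) := L.toSubfield.map φ with hK
  have hR0 : R e₀ ∈ L := by
    rcases eq_or_lt_of_le (NeZero.one_le : 1 ≤ v) with h1v | h1v
    · have : twistSeries (zetaC v ^ (((e₀ : Q) : (ZMod v)ˣ) : ZMod v).val) (coeffEmb ℂ jq) = R₁ := by
        have hz : zetaC v = 1 := by
          have := (zetaC_isPrimitiveRoot v).pow_eq_one
          rwa [← h1v, pow_one, h1v] at this
        rw [hz, one_pow, hR₁, hz]
      show R e₀ ∈ L
      rw [hR]
      simp only
      rw [this]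
      exact (le_sup_right : _ ≤ L) (IntermediateField.mem_adjoin_simple_self ℂ _)
    · haveI : Fact (1 < v) := ⟨h1v⟩
      have : R e₀ = R₁ := by simp [hR, hR₁, e₀, ZMod.val_one]
      exact this ▸ (le_sup_right : _ ≤ L) (IntermediateField.mem_adjoin_simple_self ℂ _)
  have hdesc : ∀ {h : ℍ → ℂ} {Z : LaurentSeries ℂ}, IsMeroRaw h →
      (∀ (γ : Gamma0 M) (z : ℍ), h ((γ : SL(2, ℤ)) • z) = h z) →
      (∀ γ : SL(2, ℤ), ∃ y : LaurentSeries ℂ, HasQExp M (fun z => h (γ • z)) y) →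
      HasQExp M h Z → Z ∈ K := fun hr hi hx he => by
    obtain ⟨t, ht, htZ⟩ := exists_mem_FC_of_invariant hr hi hx he
    exact ⟨t, hFC ht, htZ⟩
  set P := ∏ e : Q, (Polynomial.X - Polynomial.C (φ (R e))) with hP
  have hPK : ∀ i, P.coeff i ∈ K := fun i => by
    obtain ⟨hr, he⟩ := raw_hasQExp_coeff_prod Finset.univ
      (fun e z => jFun (tr v (((e : Q) : (ZMod v)ˣ) : ZMod v) z)) (fun e => φ (R e))
      (fun e _ => hraw e) (fun e _ => hRe e) i
    refine hdesc hr (fun γ z => ?_) (fun γ => ?_) he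
    · refine congrArg (fun p : Polynomial ℂ => p.coeff i) ?_
      exact Fintype.prod_equiv (perm γ) _ _ fun e => by rw [hjperm γ e z]
    · choose y hy using fun e : Q => exists_hasQExp_jtr (M := M) hM ((e : (ZMod v)ˣ) : ZMod v) γ
      exact ⟨_, (raw_hasQExp_coeff_prod Finset.univ
        (fun (e : Q) z => jFun (tr v ((e : (ZMod v)ˣ) : ZMod v) (γ • z))) y
        (fun e _ => (hraw e).comp_sl γ) (fun e _ => hy e) i).2⟩
  have hX0K : φ (R e₀) ∈ K := ⟨_, hR0, rfl⟩
  set Q' := ∏ e ∈ Finset.univ.erase e₀, (Polynomial.X - Polynomial.C (φ (R e))) with hQ'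
  have hQK : ∀ i, Q'.coeff i ∈ K := by
    obtain ⟨P', hP'⟩ : P ∈ Polynomial.lifts K.subtype :=
      (Polynomial.lifts_iff_coeff_lifts P).2 fun i => ⟨⟨_, hPK i⟩, rfl⟩
    have hQeq : Q' = (P' /ₘ (Polynomial.X - Polynomial.C (⟨φ (R e₀), hX0K⟩ : K))).map K.subtype := by
      rw [Polynomial.map_divByMonic _ (Polynomial.monic_X_sub_C _), ← Polynomial.coe_mapRingHom,
        hP', Polynomial.coe_mapRingHom, Polynomial.map_sub, Polynomial.map_X, Polynomial.map_C,
        hP, ← Finset.mul_prod_erase _ _ (Finset.mem_univ e₀)]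
      exact (Polynomial.mul_divByMonic_cancel_left _ (Polynomial.monic_X_sub_C _)).symm
    intro i
    rw [hQeq, Polynomial.coeff_map]
    exact SetLike.coe_mem _
  have hTK : ∀ i : ℕ, (∑ e, Ye e * φ (R e) ^ i) ∈ K := fun i => by
    refine hdesc (h := ∑ e : Q, (fun z => F ((g e : SL(2, ℤ)) • z)) *
      (fun z => jFun (tr v ((e : (ZMod v)ˣ) : ZMod v) z)) ^ i) ?_ (fun γ z => ?_) (fun γ => ?_)
      (HasQExp.finsum _ fun e _ => (hYe e).mul ((hRe e).pow i))
    · exact IsMeroRaw.finsum _ fun e _ => (hF.raw.comp_sl (g e : SL(2, ℤ))).mul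
        (MeromorphicOn.pow (hraw e) i)
    · simp only [Finset.sum_apply, Pi.mul_apply, Pi.pow_apply]
      exact Fintype.sum_equiv (perm γ) _ _ fun e => by rw [hFperm γ e z, hjperm γ e z]
    · choose y hy using fun e : Q => hFexp e γ
      choose y' hy' using fun e : Q => exists_hasQExp_jtr (M := M) hM ((e : (ZMod v)ˣ) : ZMod v) γ
      refine ⟨_, (HasQExp.finsum (Finset.univ : Finset Q) fun e _ =>
        (hy e).mul ((hy' e).pow i)).congr (Eventually.of_forall fun z => ?_)⟩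
      simp [Finset.sum_apply]
  have hsum : ∑ i ∈ Finset.range (Q'.natDegree + 1), Q'.coeff i * ∑ e, Ye e * φ (R e) ^ i =
      Ye e₀ * Q'.eval (φ (R e₀)) := by
    simp_rw [Finset.mul_sum]
    rw [Finset.sum_comm, Finset.sum_eq_single e₀]
    · rw [Polynomial.eval_eq_sum_range, Finset.mul_sum]
      exact Finset.sum_congr rfl fun i _ => by ring
    · intro e _ he
      have h0 : Q'.eval (φ (R e)) = 0 := by
        rw [hQ', Polynomial.eval_prod,
          Finset.prod_eq_zero (Finset.mem_erase.2 ⟨he, Finset.mem_univ e⟩)]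
        simp
      rw [Polynomial.eval_eq_sum_range] at h0
      rw [← mul_zero (Ye e), ← h0, Finset.mul_sum]
      exact Finset.sum_congr rfl fun i _ => by ring
    · simp
  have hne : Q'.eval (φ (R e₀)) ≠ 0 := by
    rw [hQ', Polynomial.eval_prod, Finset.prod_ne_zero_iff]
    intro e he
    simpa [sub_eq_zero] using fun h =>
      (Finset.mem_erase.1 he).1 (hRinj (qExpand_injective M h)).symm
  have hYK := div_mem (hsum ▸ sum_mem fun i _ => mul_mem (hQK i) (hTK i) :
    Ye e₀ * Q'.eval (φ (R e₀)) ∈ K) (show Q'.eval (φ (R e₀)) ∈ K by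
      rw [Polynomial.eval_eq_sum_range]
      exact sum_mem fun i _ => mul_mem (hQK i) (pow_mem hX0K i))
  rw [mul_div_cancel_right₀ _ hne] at hYK
  have h0 : Ye e₀ = φ Y := by
    have hg0 : ∀ z : ℍ, F ((g e₀ : SL(2, ℤ)) • z) = F z := hinv _ (by rw [hg]; rfl)
    have h1 := hY.qExpand M
    rw [mul_one] at h1
    have h2 := hYe e₀
    rw [funext hg0] at h2
    exact h2.unique hM0 h1
  obtain ⟨t, ht, htY⟩ := h0 ▸ hYK
  rwa [← qExpand_injective M htY]

end Interp

section Descent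

theorem twistSeries_eq (u : ℂˣ) (y : LaurentSeries ℂ) :
    twistSeries u y = ModularCosets.twist u y := by
  ext k; rw [twistSeries_coeff, ModularCosets.twist_coeff]

variable {L : IntermediateField ℚ̄ (LaurentSeries ℚ̄)} (ι : ℚ̄ →+* ℂ)

variable (L) in
/-- The `ℂ`-field generated by a `ℚ̄`-field of series. -/
def baseC : IntermediateField ℂ (LaurentSeries ℂ) :=
  IntermediateField.adjoin ℂ (coeffMap ι '' (L : Set (LaurentSeries ℚ̄)))

/-- A series of `baseC L ι` with algebraic coefficients comes from `L`. -/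
theorem mem_of_mem_baseC {G₀ : LaurentSeries ℚ̄} (h : coeffMap ι G₀ ∈ baseC L ι) : G₀ ∈ L := by
  letI : Algebra ℚ̄ ℂ := ι.toAlgebra
  set S := coeffMap ι '' (L : Set (LaurentSeries ℚ̄)) with hS
  letI : Module ℂ (LaurentSeries ℂ) := Algebra.toModule
  have hspan : ∀ x ∈ Algebra.adjoin ℂ S, x ∈ Submodule.span ℂ S := by
    intro x hx
    rw [← Subalgebra.mem_toSubmodule, Algebra.adjoin_eq_span] at hx
    refine Submodule.span_mono ?_ hx
    exact Submonoid.closure_le (S := (L.toSubfield.map (coeffMap ι)).toSubmonoid) |>.mpr subset_rfl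
  obtain ⟨r, hr, s, hs, hrs⟩ := IntermediateField.mem_adjoin_iff_div.mp h
  by_cases hs0 : s = 0
  · rw [hs0, div_zero] at hrs
    have : G₀ = 0 := ModularCosets.coeffMap_inj ι (by rw [hrs, map_zero])
    rw [this]; exact zero_mem L
  obtain ⟨i, hi⟩ : ∃ i, s.coeff i ≠ 0 := by
    by_contra hh
    push Not at hh
    exact hs0 (HahnSeries.ext (funext hh))
  obtain ⟨ρ, hρ⟩ : ∃ ρ : ℂ →ₗ[ℚ̄] ℚ̄, ρ (s.coeff i) ≠ 0 := by
    by_contra hh
    push Not at hh
    exact hi ((Module.forall_dual_apply_eq_zero_iff ℚ̄ (s.coeff i)).mp hh)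
  let ρs : LaurentSeries ℂ →+ LaurentSeries ℚ̄ :=
    { toFun := fun x => x.map ρ.toAddMonoidHom
      map_zero' := by ext; simp
      map_add' := fun x y => by ext; simp }
  have hbase : ∀ (c : ℂ) (m : LaurentSeries ℚ̄),
      ρs (HahnSeries.C c * coeffMap ι m) = HahnSeries.C (ρ c) * m := by
    intro c m
    ext k
    simp only [ρs, AddMonoidHom.coe_mk, ZeroHom.coe_mk, HahnSeries.map_coeff,
      LinearMap.toAddMonoidHom_coe, HahnSeries.C_apply, HahnSeries.coeff_single_zero_mul,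
      coeffMap_coeff]
    rw [show c * ι (m.coeff k) = m.coeff k • c by
      rw [Algebra.smul_def, mul_comm]; rfl, map_smul, smul_eq_mul, mul_comm]
  have key : ∀ x ∈ Submodule.span ℂ S,
      ρs x ∈ L ∧ ρs (coeffMap ι G₀ * x) = G₀ * ρs x := by
    intro x hx
    have hgen : ∀ y ∈ Submodule.span ℂ S, ∀ c : ℂ,
        ρs (HahnSeries.C c * y) ∈ L ∧
          ρs (coeffMap ι G₀ * (HahnSeries.C c * y)) = G₀ * ρs (HahnSeries.C c * y) := by
      intro y hy
      induction hy using Submodule.span_induction with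
      | mem y hy =>
        obtain ⟨m, hm, rfl⟩ := hy
        intro c
        refine ⟨?_, ?_⟩
        · rw [hbase, ← algebraMap_eq_C']
          exact mul_mem (L.algebraMap_mem _) hm
        · rw [mul_left_comm, ← map_mul, hbase, hbase, mul_left_comm]
      | zero => intro c; simp
      | add y z _ _ hy hz =>
        intro c
        rw [mul_add, mul_add, map_add, map_add, mul_add, (hy c).2, (hz c).2]
        exact ⟨add_mem (hy c).1 (hz c).1, rfl⟩
      | smul d y _ hy =>
        intro c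
        rw [Algebra.smul_def, algebraMap_eq_C', ← mul_assoc, ← map_mul]
        exact hy (c * d)
    simpa using hgen x hx 1
  have hden : (ρs s).coeff i ≠ 0 := hρ
  have heq : G₀ * ρs s = ρs r := by
    rw [← (key s (hspan s hs)).2, hrs, div_mul_cancel₀ r hs0]
  have hG : G₀ = ρs r / ρs s := by
    rw [← heq, mul_div_cancel_right₀]
    intro h0
    exact hden (by rw [h0, HahnSeries.coeff_zero])
  rw [hG]
  exact div_mem (key r (hspan r hr)).1 (key s (hspan s hs)).1

/-- A series over `ℂ` a power of which has algebraic coefficients has algebraic coefficients. -/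
theorem exists_coeffMap_of_pow {y : LaurentSeries ℂ} {H : LaurentSeries ℚ̄} {n : ℕ} (hn : n ≠ 0)
    (hH : H ≠ 0) (h : y ^ n = coeffMap ι H) : ∃ G : LaurentSeries ℚ̄, coeffMap ι G = y := by
  have hy0 : y ≠ 0 := by
    intro h0
    rw [h0, zero_pow hn] at h
    exact hH (ModularCosets.coeffMap_inj ι (by rw [← h, map_zero]))
  have hlead : ∀ τ : ℂ ≃+* ℂ, (∀ b, τ (ι b) = ι b) → coeffMap τ.toRingHom y = y := by
    intro τ hτ
    obtain ⟨μ, hμ⟩ : ∃ μ : ℂ, coeffMap τ.toRingHom y / y = HahnSeries.C μ := by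
      refine exists_C_eq_of_pow_eq hn (c := 1) ?_
      rw [div_pow, ← map_pow, h, coeffMap_coeffMap,
        coeffMap_congr (show τ.toRingHom.comp ι = ι from RingHom.ext hτ), map_one,
        div_self (by rw [← h]; exact pow_ne_zero n hy0)]
    have e : coeffMap τ.toRingHom y = μ • y := by
      rw [← HahnSeries.C_mul_eq_smul, ← hμ, div_mul_cancel₀ _ hy0]
    have hl : y.coeff y.order ≠ 0 := HahnSeries.coeff_order_eq_zero.not.mpr hy0
    -- the leading coefficient is algebraic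
    have hroot : y.coeff y.order ∈ ι.range := by
      have h1 : (y ^ n).coeff (y ^ n).order ∈ ι.range := by
        rw [h, coeffMap_coeff]; exact ⟨_, rfl⟩
      have hlc : ∀ m : ℕ, (y ^ m).leadingCoeff = y.leadingCoeff ^ m := by
        intro m
        induction m with
        | zero => simp
        | succ m ih => rw [pow_succ, pow_succ, HahnSeries.leadingCoeff_mul, ih]
      rw [← HahnSeries.leadingCoeff_eq, hlc, HahnSeries.leadingCoeff_eq] at h1
      obtain ⟨a, ha⟩ := h1
      obtain ⟨b, hb⟩ := IsAlgClosed.exists_pow_nat_eq a (Nat.pos_of_ne_zero hn)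
      haveI : NeZero n := ⟨hn⟩
      obtain ⟨w, hw⟩ := HasEnoughRootsOfUnity.exists_primitiveRoot ℚ̄ n
      by_cases hb0 : ι b = 0
      · exact absurd ((pow_eq_zero_iff hn).mp
          (show y.coeff y.order ^ n = 0 by rw [← ha, ← hb, map_pow, hb0, zero_pow hn])) hl
      · have h2 : (y.coeff y.order / ι b) ^ n = 1 := by
          rw [div_pow, ← map_pow, hb, ha, div_self]
          exact pow_ne_zero n hl
        haveI : NeZero n := ⟨hn⟩
        obtain ⟨j, -, hj⟩ := (hw.map_of_injective ι.injective).eq_pow_of_pow_eq_one h2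
        exact ⟨w ^ j * b, by rw [map_mul, map_pow, hj, div_mul_cancel₀ _ hb0]⟩
    obtain ⟨a, ha⟩ := hroot
    have h3 : (coeffMap τ.toRingHom y).coeff y.order = y.coeff y.order := by
      rw [coeffMap_coeff, ← ha]; exact hτ a
    rw [e, HahnSeries.coeff_smul, smul_eq_mul, mul_left_eq_self₀] at h3
    rw [e, h3.resolve_right hl, one_smul]
  have hcoef : ∀ i, ∃ a, ι a = y.coeff i := fun i =>
    Torsion.mem_range_of_forall_aut ι fun τ hτ => by
      conv_rhs => rw [← hlead τ hτ, coeffMap_coeff]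
      rfl
  choose g hg using hcoef
  refine ⟨⟨g, y.isPWO_support.mono fun i hi h0 => hi ?_⟩, HahnSeries.ext (funext fun i => ?_)⟩
  · exact ι.injective (by rw [hg, h0, map_zero])
  · rw [coeffMap_coeff]; exact hg i

/-- An `n`-th root in `baseC L ι` of an element of `L` lies in `L`. -/
theorem exists_root_mem {y : LaurentSeries ℂ} (hy : y ∈ baseC L ι) {H : LaurentSeries ℚ̄} {n : ℕ}
    (hn : n ≠ 0) (hH : H ≠ 0) (h : y ^ n = coeffMap ι H) :
    ∃ G ∈ L, coeffMap ι G = y ∧ G ^ n = H := by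
  obtain ⟨G, rfl⟩ := exists_coeffMap_of_pow ι hn hH h
  exact ⟨G, mem_of_mem_baseC ι hy, rfl, ModularCosets.coeffMap_inj ι (by rw [map_pow, h])⟩

end Descent

theorem interp_le_baseC {N₁ v : ℕ} [NeZero N₁] [NeZero v] :
    FC (N₁ * v * v) ⊔ IntermediateField.adjoin ℂ
      ({twistSeries (zetaC v) (coeffEmb ℂ jq)} : Set (LaurentSeries ℂ)) ≤
      baseC (lvlField N₁ v (zetaQ v)) ι₀ := by
  refine sup_le ?_ ?_
  · rw [Modular.FC, ModularCosets.laurentBaseChange_full, ModularCosets.fullC_eq_adjoin,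
      IntermediateField.adjoin_le_iff]
    rintro _ ⟨d, rfl⟩
    refine IntermediateField.subset_adjoin ℂ _ ⟨ModularCosets.jGens (N₁ * v * v) ℚ̄ d, ?_,
      ModularCosets.coeffMap_jGens (N := N₁ * v * v) ι₀ d⟩
    exact (le_sup_left : modularFunctionFieldBar (N₁ * v * v) ≤ _)
      (qScale_jq_mem_bar (Nat.dvd_of_mem_divisors d.2))
  · rw [IntermediateField.adjoin_simple_le_iff]
    refine IntermediateField.subset_adjoin ℂ _ ⟨ModularCosets.twist (zetaQ v) (jqModC ℚ̄), ?_, ?_⟩
    · exact (le_sup_right : _ ≤ lvlField N₁ v (zetaQ v))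
        (IntermediateField.mem_adjoin_simple_self _ _)
    · rw [ModularCosets.coeffMap_twist, twistSeries_eq, coeffMap_jqModC,
        ModularCosets.coeffEmb_jq_eq]
      congr 2
      exact Units.ext (qbarEmb_zetaQ v)

end FLTAgent.Lower.Levels.Gauss
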