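import Mathlib
import Fermat.Agent.Lower.Levels.Inertia.Func

/-!
# Kummer functions of torsion classes

`HasKummer φ h`: `h` is the `n`-th power of a function with multiplier `exp (2πi φ / n)`.
Every torsion class has such an `h`, compatibly with Galois (`exists_kummer`). The central
`exists_root_of_relation`: if characters translated by integral matrices add up to zero on the
group `GammaP` (`d² ≡ 1 (mod v)`), the product of the translated Kummer functions is an `n`-th
power in `lvlField`, by the interpolation of `Inertia.Func`.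
-/

set_option autoImplicit false
set_option linter.unusedSectionVars false
set_option linter.style.haveILetI false

noncomputable section

open UpperHalfPlane CongruenceSubgroup Filter Topology ModularCurve AlgebraicCurve
open scoped MatrixGroups

namespace FLTAgent.Lower.Levels.Gauss

open FLTAgent.Modular
open FLTAgent.HeckeH (glM matOf M2 det_glM_pos)

local notation "ℚ̄" => AlgebraicClosure ℚ
local notation "Γℚ" => (AlgebraicClosure ℚ ≃ₐ[ℚ] AlgebraicClosure ℚ)
local notation "ι₀" => Reps.qbarEmb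

variable {M n : ℕ} [NeZero M] [NeZero n]

/-- `ev` of an algebraic function. -/
def evQ (h : modularFunctionFieldBar M) : ℍ → ℂ :=
  ev ((Torsion.embFC M ι₀ h : FC M) : LaurentSeries ℂ)

/-- `h` is the `n`-th power of a function with multiplier `exp (2πi φ / n)`. -/
def HasKummer (φ : Additive (Gamma0 M) →+ ZMod n) (h : modularFunctionFieldBar M) : Prop :=
  h ≠ 0 ∧ ∃ (f : ℍ → ℂ) (D : Divisor ℂ (FC M)),
    IsMult M f (Torsion.expChar φ) ∧ Torsion.HasDivisor M f D ∧ f ^ n = evQ h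

theorem isMult_one_of_isModFun {g : ℍ → ℂ} (hg : IsModFun M g)
    (h0 : ∃ z : ℍ, meromorphicOrderAt (g ∘ ofComplex) (z : ℂ) ≠ ⊤) : IsMult M g 1 :=
  ⟨hg.mero, hg.meroCusp, h0, fun γ z => by rw [hg.smul γ z, MonoidHom.one_apply]; simp⟩

theorem isMult_of_hasDivisor {f : ℍ → ℂ} {D : Divisor ℂ (FC M)}
    (hD : Torsion.HasDivisor M f D) {c : Gamma0 M →* ℂˣ}
    (hc : ∀ (γ : Gamma0 M) (z : ℍ), f ((γ : SL(2, ℤ)) • z) = (c γ : ℂ) * f z) : IsMult M f c :=
  ⟨hD.mero, hD.meroCusp, ⟨UpperHalfPlane.I, hD.order_ne_top _⟩, hc⟩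

/-- The Kummer function of a divisor. -/
theorem hasKummer_of_divisor (D : Divisor.degZero (K := ℚ̄) (F := modularFunctionFieldBar M))
    (hx : Pic0.mk D ∈ Pic0.torsion ℚ̄ (modularFunctionFieldBar M) n)
    {h : modularFunctionFieldBar M} (h0 : h ≠ 0)
    (hD : ∀ w, (n • (D : Divisor ℚ̄ (modularFunctionFieldBar M))) w = w.ord h) :
    HasKummer (Torsion.jTorsionEquiv M ι₀ n ⟨Pic0.mk D, hx⟩ : Additive (Gamma0 M) →+ ZMod n) h := by
  have hn := NeZero.ne n
  have hDC : n • Torsion.divExt ι₀ (D : Divisor ℚ̄ (modularFunctionFieldBar M)) ∈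
      Divisor.principal (K := ℂ) (F := FC M) := by
    rw [← map_nsmul, Torsion.divExt_mem_principal_iff]
    exact ⟨h, h0, hD⟩
  obtain ⟨φ, hφ, f, hfm, hfD⟩ := Torsion.exists_mult_of_nsmul_principal hDC
  have hx1 : Pic0.mk (Torsion.degZeroExt ι₀ D) ∈ Pic0.torsion ℂ (FC M) n :=
    (Torsion.picExtTorsion ι₀ n ⟨Pic0.mk D, hx⟩).2
  have hex : (Torsion.jTorsionEquiv M ι₀ n ⟨Pic0.mk D, hx⟩ : Additive (Gamma0 M) →+ ZMod n) = φ :=
    Torsion.torsionEquiv_eq (D := Torsion.degZeroExt ι₀ D) hx1 hfm hfD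
  have hE0 : Torsion.embFC M ι₀ h ≠ 0 :=
    (map_ne_zero_iff _ (Torsion.embFC M ι₀).injective).mpr h0
  have hY : Torsion.HasDivisor M (evQ h)
      (n • Torsion.divExt ι₀ (D : Divisor ℚ̄ (modularFunctionFieldBar M))) := by
    refine Torsion.hasDivisor_ev hE0 fun w => ?_
    rw [← map_nsmul]
    exact HeckeH.divExt_apply_eq_ord ι₀ hD w
  have hmod := Torsion.isModFun_pow hfD hfm.smul (Torsion.expChar_pow_eq_one φ)
  obtain ⟨a, ha, hfa⟩ := Torsion.eq_const_mul_of_hasDivisor (hfD.pow n) hY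
    (isMult_one_of_isModFun hmod ⟨_, (hfD.pow n).order_ne_top UpperHalfPlane.I⟩)
    (isMult_one_of_isModFun (isModFun_ev _) ⟨_, hY.order_ne_top UpperHalfPlane.I⟩)
    (n := 1) one_ne_zero (fun γ => by simp) fun γ => by simp
  obtain ⟨a₀, ha₀⟩ := IsAlgClosed.exists_pow_nat_eq a⁻¹ (Nat.pos_of_ne_zero hn)
  have ha₀0 : a₀ ≠ 0 := fun h => inv_ne_zero ha (by rw [← ha₀, h, zero_pow hn])
  refine ⟨h0, fun z => a₀ * f z, Torsion.divExt ι₀ (D : Divisor ℚ̄ (modularFunctionFieldBar M)),
    isMult_of_hasDivisor (hfD.const_mul ha₀0) fun γ z => ?_, hfD.const_mul ha₀0, ?_⟩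
  · rw [hfm.smul, hex]; ring
  · funext z
    have := hfa z
    simp only [Pi.pow_apply] at this ⊢
    rw [mul_pow, this, ha₀, ← mul_assoc, inv_mul_cancel₀ ha, one_mul]

/-- The Galois action on characters. -/
def galT (σ : Γℚ) (φ : Period.H M (ZMod n) (ZMod n)) : Period.H M (ZMod n) (ZMod n) :=
  Torsion.jTorsionEquiv M ι₀ n
    (JZero.torsionGaloisRep M n σ ((Torsion.jTorsionEquiv M ι₀ n).symm φ))

/-- `σ` on the function field over `ℚ̄`. -/
def galF (σ : Γℚ) (h : modularFunctionFieldBar M) : modularFunctionFieldBar M :=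
  arithmeticGalois (modularFunctionFieldFull M) σ • h

theorem coe_galF (σ : Γℚ) (h : modularFunctionFieldBar M) :
    (galF σ h : LaurentSeries ℚ̄) = coeffMap (σ : ℚ̄ →+* ℚ̄) (h : LaurentSeries ℚ̄) := rfl

/-- Kummer functions exist, compatibly with Galois. -/
theorem exists_kummer (φ : Period.H M (ZMod n) (ZMod n)) :
    ∃ h : modularFunctionFieldBar M, HasKummer (φ : Additive (Gamma0 M) →+ ZMod n) h ∧
      ∀ σ : Γℚ, HasKummer (galT σ φ : Additive (Gamma0 M) →+ ZMod n) (galF σ h) := by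
  set x := (Torsion.jTorsionEquiv M ι₀ n).symm φ with hxdef
  obtain ⟨D, hD⟩ := Pic0.mk_surjective (x : JZero M)
  have hx : Pic0.mk D ∈ Pic0.torsion ℚ̄ (modularFunctionFieldBar M) n := hD ▸ x.2
  have hnD : n • (D : Divisor ℚ̄ (modularFunctionFieldBar M)) ∈
      Divisor.principal (K := ℚ̄) (F := modularFunctionFieldBar M) := by
    have h0 : Pic0.mk (n • D) = 0 := by
      have := Pic0.mem_torsion.mp hx
      rw [natCast_zsmul] at this
      exact this
    have := (QuotientAddGroup.eq_zero_iff _).mp h0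
    simpa [AddSubgroup.mem_addSubgroupOf] using this
  obtain ⟨h, h0, hh⟩ := hnD
  have hxD : x = ⟨Pic0.mk D, hx⟩ := Subtype.ext hD.symm
  refine ⟨h, ?_, fun σ => ?_⟩
  · have := hasKummer_of_divisor D hx h0 hh
    rwa [← hxD, hxdef, AddEquiv.apply_symm_apply] at this
  · set g := arithmeticGalois (modularFunctionFieldFull M) σ
    set E : Divisor.degZero (K := ℚ̄) (F := modularFunctionFieldBar M) :=
      SemilinearAut.degZeroSMulHom g D with hE
    have hEx : Pic0.mk E = ((JZero.torsionGaloisRep M n σ x : Pic0.torsion ℚ̄ _ n) : JZero M) := by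
      rw [JZero.coe_torsionGaloisRep_apply, galois_smul_pic0_def, ← hD, SemilinearAut.pic0_smul_mk]
    have hEt : Pic0.mk E ∈ Pic0.torsion ℚ̄ (modularFunctionFieldBar M) n := hEx ▸ SetLike.coe_mem _
    have hσ0 : galF σ h ≠ 0 := by
      intro e
      refine h0 (Subtype.ext (HahnSeries.ext (funext fun i => ?_)))
      have h1 := congrArg (fun y : modularFunctionFieldBar M => (y : LaurentSeries ℚ̄).coeff i) e
      simp only [coe_galF, coeffMap_coeff, ZeroMemClass.coe_zero, HahnSeries.coeff_zero] at h1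
      exact σ.injective (h1.trans (map_zero σ).symm)
    have hEh : ∀ w, (n • (E : Divisor ℚ̄ (modularFunctionFieldBar M))) w = w.ord (galF σ h) := by
      intro w
      have h1 := hh (g⁻¹ • w)
      have h2 := SemilinearAut.ord_smul g (g⁻¹ • w) h
      rw [smul_inv_smul] at h2
      rw [galF, h2, ← h1, Finsupp.smul_apply, Finsupp.smul_apply]
      congr 1
      conv_lhs => rw [← smul_inv_smul g w]
      exact SemilinearAut.divisor_smul_apply_smul g _ _
    have := hasKummer_of_divisor E hEt hσ0 hEh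
    rwa [show (⟨Pic0.mk E, hEt⟩ : Pic0.torsion ℚ̄ _ n) = JZero.torsionGaloisRep M n σ x from
      Subtype.ext hEx] at this

theorem HasKummer.neg {φ : Additive (Gamma0 M) →+ ZMod n} {h : modularFunctionFieldBar M}
    (hk : HasKummer φ h) : HasKummer (-φ) h⁻¹ := by
  obtain ⟨h0, f, D, hf, hD, he⟩ := hk
  refine ⟨inv_ne_zero h0, f⁻¹, -D, isMult_of_hasDivisor hD.inv fun γ z => ?_, hD.inv, ?_⟩
  · simp only [Pi.inv_apply, hf.smul, mul_inv, Torsion.coe_expChar, AddMonoidHom.neg_apply,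
      AddChar.map_neg_eq_inv]
  · rw [inv_pow, he, evQ, evQ, map_inv₀, ev_inv]

/-- Reduction of the coefficients. -/
theorem HasKummer.cast {m : ℕ} [NeZero m] {n' : ℕ} [NeZero n'] (hn : n' = m * n)
    {φ : Additive (Gamma0 M) →+ ZMod n'} {h : modularFunctionFieldBar M} (hk : HasKummer φ h) :
    HasKummer ((ZMod.castHom (hn ▸ dvd_mul_left n m) (ZMod n)).toAddMonoidHom.comp φ) h := by
  subst hn
  obtain ⟨h0, f, D, hf, hD, he⟩ := hk
  refine ⟨h0, f ^ m, m • D, isMult_of_hasDivisor (hD.pow m) fun γ z => ?_, hD.pow m, ?_⟩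
  · rw [Pi.pow_apply, Pi.pow_apply, hf.smul, mul_pow]
    congr 1
    rw [Torsion.coe_expChar, Torsion.coe_expChar, AddMonoidHom.comp_apply]
    set a : ZMod (m * n) := φ (Additive.ofMul γ)
    show ZMod.stdAddChar a ^ m = ZMod.stdAddChar (ZMod.castHom (dvd_mul_left n m) (ZMod n) a)
    rw [← AddChar.map_nsmul_eq_pow, ← ZMod.natCast_zmod_val a, map_natCast, ← Nat.cast_smul_eq_nsmul
      (ZMod (m * n)), smul_eq_mul, ← Nat.cast_mul, ZMod.stdAddChar_apply, ZMod.stdAddChar_apply,
      ← Int.cast_natCast, ← Int.cast_natCast (R := ZMod n), ZMod.toCircle_intCast,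
      ZMod.toCircle_intCast]
    congr 1
    have hm : (m : ℂ) ≠ 0 := Nat.cast_ne_zero.mpr (NeZero.ne m)
    have hn' : (n : ℂ) ≠ 0 := Nat.cast_ne_zero.mpr (NeZero.ne n)
    push_cast
    field_simp
  · rw [← pow_mul, he]

section Relation

variable {v : ℕ} [NeZero v]

/-- The elements with `d² ≡ 1 (mod v)`. -/
def GammaP (hvM : v ∣ M) : Subgroup (Gamma0 M) := (dSq hvM).ker

theorem T_mem_Gamma0 (M : ℕ) : ModularGroup.T ∈ Gamma0 M := by
  rw [Gamma0_mem]; simp [ModularGroup.T]

theorem T_mem_GammaP (hvM : v ∣ M) :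
    (⟨ModularGroup.T, T_mem_Gamma0 M⟩ : Gamma0 M) ∈ GammaP hvM := by
  rw [GammaP, MonoidHom.mem_ker]
  refine Units.ext ?_
  simp [dSq, coe_dUnit, matOf, ModularGroup.T]

theorem glM_smul_co {A : M2} (hA : A.det ≠ 0) {δ γ : Gamma0 M}
    (h : A * matOf δ = matOf γ * A) (z : ℍ) :
    glM A hA • ((δ : SL(2, ℤ)) • z) = (γ : SL(2, ℤ)) • (glM A hA • z) :=
  HeckeH.glM_smul_comm hA hA h z

/-- **Relations.** If translated characters add up to zero on `d² ≡ 1`, the product of the
translated Kummer functions is an `n`-th power in the top field. -/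
theorem exists_root_of_relation {N₁ : ℕ} [NeZero N₁] (hM : M = N₁ * v * v) {ι : Type} [Fintype ι]
    (A : ι → M2) (hdet : ∀ i, 0 < (A i).det) (hvM : v ∣ M)
    (co : ι → GammaP hvM → Gamma0 M)
    (hco : ∀ i (δ : GammaP hvM), A i * matOf (δ : Gamma0 M) = matOf (co i δ) * A i)
    {φ : ι → Additive (Gamma0 M) →+ ZMod n} {h : ι → modularFunctionFieldBar M}
    (hk : ∀ i, HasKummer (φ i) (h i)) (T : ι → LaurentSeries ℚ̄) (hT0 : ∀ i, T i ≠ 0)
    (hT : ∀ i, HasQExp 1 (fun z => evQ (h i) (glM (A i) (hdet i).ne' • z)) (coeffMap ι₀ (T i)))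
    (hsum : ∀ δ : GammaP hvM, ∑ i, φ i (Additive.ofMul (co i δ)) = 0) :
    ∃ G ∈ lvlField N₁ v (zetaQ v), G ^ n = ∏ i, T i := by
  classical
  subst hM
  choose f D hf hD he using fun i => (hk i).2
  set F : ι → ℍ → ℂ := fun i z => f i (glM (A i) (hdet i).ne' • z) with hF
  have hFm : ∀ i, IsMero (F i) := fun i =>
    (hD i).mero.comp_glSmul (det_glM_pos _ (hdet i))
  have hraw : IsMeroRaw (∏ i, F i) := IsMeroRaw.finprod _ fun i _ => (hFm i).raw
  set P := nfH (∏ i, F i) with hP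
  have hgr : HeckeH.GrowsAtCusps P := by
    intro γ
    choose κ hκ using fun i : ι =>
      (HeckeH.growsAtCusps_of_hasDivisor (hD i)).comp_glM (A i) (hdet i).ne' (hdet i) γ
    refine ⟨∑ i, κ i, ?_⟩
    have e : (fun z => P (γ • z)) = nfH (∏ i, fun z => F i (γ • z)) := by
      rw [hP]
      refine (nfH_comp_glSmul hraw (det_pos_SL γ)).symm.trans ?_
      congr 1
      funext z
      simp only [Finset.prod_apply]
      rfl
    rw [e]
    exact HeckeH.HasGrowth.nfH_prod (fun i => (hFm i).comp_sl γ) hκ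
  have hcusp : IsMeroAtCusps (N₁ * v * v) P := fun γ => by
    obtain ⟨κ, hκ⟩ := hgr γ
    exact hκ.exists_bounded (by exact_mod_cast Nat.pos_of_ne_zero (NeZero.ne _))
  have hinv : ∀ γ : Gamma0 (N₁ * v * v), dSq hvM γ = 1 →
      ∀ z, P ((γ : SL(2, ℤ)) • z) = P z := by
    intro γ hγ z
    set δ : GammaP hvM := ⟨γ, hγ⟩
    have hstep : (fun z => (∏ i, F i) ((γ : SL(2, ℤ)) • z)) = ∏ i, F i := by
      funext w
      simp only [Finset.prod_apply, hF]
      have h1 : ∀ i, f i (glM (A i) (hdet i).ne' • ((γ : SL(2, ℤ)) • w)) =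
          ZMod.stdAddChar (φ i (Additive.ofMul (co i δ))) *
            f i (glM (A i) (hdet i).ne' • w) := fun i => by
        rw [glM_smul_co _ (hco i δ), (hf i).smul, Torsion.coe_expChar]
      rw [Finset.prod_congr rfl fun i _ => h1 i, Finset.prod_mul_distrib]
      have h2 : ∏ i, ZMod.stdAddChar (φ i (Additive.ofMul (co i δ))) = (1 : ℂ) := by
        rw [← AddChar.map_zero_eq_one (ZMod.stdAddChar (N := n)), ← hsum δ]
        induction (Finset.univ : Finset ι) using Finset.induction with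
        | empty => simp
        | insert a s ha ih =>
          rw [Finset.prod_insert ha, Finset.sum_insert ha, AddChar.map_add_eq_mul, ih]
      rw [h2, one_mul]
    have := congrFun (nfH_comp_glSmul hraw (det_pos_SL (γ : SL(2, ℤ)))) z
    exact this.symm.trans (congrFun (congrArg nfH hstep) z)
  have hper : ∀ z : ℍ, P ((1 : ℝ) +ᵥ z) = P z := fun z => by
    rw [← UpperHalfPlane.modular_T_smul]
    exact hinv ⟨ModularGroup.T, T_mem_Gamma0 _⟩ (MonoidHom.mem_ker.mp (T_mem_GammaP hvM)) z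
  obtain ⟨m, hm⟩ := hcusp 1
  simp only [one_smul] at hm
  obtain ⟨Y, hY⟩ := exists_hasQExp_one (isMero_nfH hraw) hper
    (by exact_mod_cast Nat.one_le_iff_ne_zero.mpr (NeZero.ne (N₁ * v * v))) hm
  have hYpow : Y ^ n = coeffMap ι₀ (∏ i, T i) := by
    rw [map_prod]
    refine (hY.pow n).unique one_pos
      ((HasQExp.finprod Finset.univ fun i _ => hT i).congr ?_)
    have hev : ∀ᶠ z : ℍ in atImInfty, ∀ i, AnalyticAt ℂ (F i ∘ ofComplex) (z : ℂ) := by
      refine eventually_all.mpr fun i => ?_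
      obtain ⟨κ, hκ⟩ := (HeckeH.growsAtCusps_of_hasDivisor (hD i)).comp_glM (A i)
        (hdet i).ne' (hdet i) 1
      simp only [one_smul] at hκ
      exact HeckeH.eventually_analyticAt_of_growth (hFm i) hκ
    filter_upwards [hev] with z hz
    have h2 := Finset.analyticAt_fun_prod (Finset.univ : Finset ι) (fun i _ => hz i)
    have e : (∏ i, F i) ∘ ofComplex = fun w => ∏ i, (F i ∘ ofComplex) w := by
      funext w; simp [Finset.prod_apply]
    rw [Pi.pow_apply, nfH_apply_of_analyticAt (e ▸ h2), Finset.prod_apply, Finset.prod_apply,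
      ← Finset.prod_pow]
    refine Finset.prod_congr rfl fun i _ => ?_
    show evQ (h i) (glM (A i) (hdet i).ne' • z) = f i (glM (A i) (hdet i).ne' • z) ^ n
    rw [← he i, Pi.pow_apply]
  obtain ⟨G, hG, -, hGn⟩ := exists_root_mem ι₀
    (interp_le_baseC (mem_sup_of_invariant (M := N₁ * v * v) (v := v) ⟨N₁, by ring⟩
      (isMero_nfH hraw) hcusp hinv hY))
    (NeZero.ne n) (Finset.prod_ne_zero_iff.mpr fun i _ => hT0 i) hYpow
  exact ⟨G, hG, hGn⟩

end Relation

end FLTAgent.Lower.Levels.Gauss
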