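import Mathlib
import Fermat.Agent.Lower.Levels.Inertia.Kummer

/-!
# Expansions at the cusps `1 / (N₁ v c)`

For `c ∈ (ℤ/v)ˣ` the matrix `gamC c = (1 0; N₁ v c 1)` conjugates `GammaP` into `Γ₀(N₁ v²)` (`coC`),
and `tauC c` is the expansion at this cusp, a ring homomorphism from level `N₁ v²` into the base
change of `lvlField` (`tauC_mem`). `hasQExp_jMulFun_gamC` and `hasQExp_jMulFun_gamC_of_dvd` compute
it on the generators: `j (e v² z)` goes to a twist `cuspJ` of `j (e z)` and `j (d z)`, `d ∣ N₁ v`,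
is fixed.
-/

set_option autoImplicit false
set_option linter.unusedSectionVars false
set_option linter.style.haveILetI false

noncomputable section

open UpperHalfPlane CongruenceSubgroup Filter Topology ModularCurve IntermediateField
open scoped MatrixGroups

namespace FLTAgent.Lower.Levels.Gauss

open FLTAgent.Modular
open FLTAgent.HeckeH (glM matOf M2 det_glM_pos)

local notation "ℚ̄" => AlgebraicClosure ℚ
local notation "Γℚ" => (AlgebraicClosure ℚ ≃ₐ[ℚ] AlgebraicClosure ℚ)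
local notation "ι₀" => Reps.qbarEmb

variable (N₁ v : ℕ) [NeZero N₁] [NeZero v]

/-- The lower left entry `N₁ v c`. -/
def cuspC (c : (ZMod v)ˣ) : ℤ := (N₁ * v : ℕ) * ((c : ZMod v).val : ℤ)

/-- `(1 0; N₁ v c 1)`. -/
def gamC (c : (ZMod v)ˣ) : SL(2, ℤ) :=
  ⟨!![1, 0; cuspC N₁ v c, 1], by rw [Matrix.det_fin_two_of]; ring⟩

theorem gamC_mem (c : (ZMod v)ˣ) : gamC N₁ v c ∈ Gamma0 (N₁ * v) := by
  rw [Gamma0_mem]
  show ((cuspC N₁ v c : ℤ) : ZMod (N₁ * v)) = 0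
  rw [cuspC, Int.cast_mul, Int.cast_natCast, ZMod.natCast_self, zero_mul]

variable {N₁ v}

theorem dvd_mul_self_cuspC (c : (ZMod v)ˣ) :
    ((N₁ * v * v : ℕ) : ℤ) ∣ cuspC N₁ v c * cuspC N₁ v c :=
  ⟨N₁ * ((c : ZMod v).val : ℤ) * ((c : ZMod v).val : ℤ), by rw [cuspC]; push_cast; ring⟩

theorem conj_entries (c : (ZMod v)ˣ) (δ : SL(2, ℤ)) :
    (gamC N₁ v c * δ * (gamC N₁ v c)⁻¹ : SL(2, ℤ)) 1 0 =
        cuspC N₁ v c * (δ 0 0 - δ 1 1) + δ 1 0 - cuspC N₁ v c * cuspC N₁ v c * δ 0 1 ∧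
      (gamC N₁ v c * δ * (gamC N₁ v c)⁻¹ : SL(2, ℤ)) 1 1 = cuspC N₁ v c * δ 0 1 + δ 1 1 := by
  have e : ((gamC N₁ v c * δ * (gamC N₁ v c)⁻¹ : SL(2, ℤ)) : M2) =
      !![(1 : ℤ), 0; cuspC N₁ v c, 1] * (δ : M2) *
        Matrix.adjugate !![(1 : ℤ), 0; cuspC N₁ v c, 1] := by
    rw [Matrix.SpecialLinearGroup.coe_mul, Matrix.SpecialLinearGroup.coe_mul,
      Matrix.SpecialLinearGroup.coe_inv]
    rfl
  rw [Matrix.eta_fin_two (δ : M2), Matrix.adjugate_fin_two_of, Matrix.mul_fin_two,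
    Matrix.mul_fin_two] at e
  constructor <;> rw [e] <;> simp <;> ring

theorem dvd_a_sub_d {hvM : v ∣ N₁ * v * v} (δ : GammaP hvM) :
    (v : ℤ) ∣ matOf (δ : Gamma0 (N₁ * v * v)) 0 0 - matOf (δ : Gamma0 (N₁ * v * v)) 1 1 := by
  rw [← ZMod.intCast_zmod_eq_zero_iff_dvd, Int.cast_sub, sub_eq_zero]
  have h1 : dSq hvM (δ : Gamma0 (N₁ * v * v)) = 1 := δ.2
  rw [dSq, MonoidHom.pow_apply, Units.ext_iff, Units.val_pow_eq_pow_val, coe_dUnit,
    Units.val_one] at h1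
  have h2 := intCast_matOf_mul_eq_one hvM (δ : Gamma0 (N₁ * v * v))
  linear_combination ((matOf (δ : Gamma0 (N₁ * v * v)) 1 1 : ℤ) : ZMod v) * h2 -
    ((matOf (δ : Gamma0 (N₁ * v * v)) 0 0 : ℤ) : ZMod v) * h1

theorem conj_mem {hvM : v ∣ N₁ * v * v} (c : (ZMod v)ˣ) (δ : GammaP hvM) :
    gamC N₁ v c * ((δ : Gamma0 (N₁ * v * v)) : SL(2, ℤ)) * (gamC N₁ v c)⁻¹ ∈
      Gamma0 (N₁ * v * v) := by
  rw [Gamma0_mem, (conj_entries c _).1, ZMod.intCast_zmod_eq_zero_iff_dvd]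
  obtain ⟨e, he⟩ := dvd_a_sub_d δ
  refine dvd_sub (dvd_add ?_ (HeckeH.matOf_dvd (δ : Gamma0 (N₁ * v * v))))
    (dvd_mul_of_dvd_left (dvd_mul_self_cuspC c) _)
  refine ⟨((c : ZMod v).val : ℤ) * e, ?_⟩
  show cuspC N₁ v c * (matOf (δ : Gamma0 (N₁ * v * v)) 0 0 - matOf (δ : Gamma0 (N₁ * v * v)) 1 1) = _
  rw [he, cuspC]; push_cast; ring

/-- Conjugation of `d² ≡ 1` by `(1 0; N₁ v c 1)`. -/
def coC {hvM : v ∣ N₁ * v * v} (c : (ZMod v)ˣ) (δ : GammaP hvM) : Gamma0 (N₁ * v * v) :=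
  ⟨_, conj_mem c δ⟩

theorem matOf_coC {hvM : v ∣ N₁ * v * v} (c : (ZMod v)ˣ) (δ : GammaP hvM) :
    ((gamC N₁ v c : SL(2, ℤ)) : M2) * matOf (δ : Gamma0 (N₁ * v * v)) =
      matOf (coC c δ) * ((gamC N₁ v c : SL(2, ℤ)) : M2) := by
  show _ = ((gamC N₁ v c * ((δ : Gamma0 (N₁ * v * v)) : SL(2, ℤ)) * (gamC N₁ v c)⁻¹ : SL(2, ℤ)) :
    M2) * _
  rw [← Matrix.SpecialLinearGroup.coe_mul (gamC N₁ v c * ((δ : Gamma0 (N₁ * v * v)) : SL(2, ℤ)) *
    (gamC N₁ v c)⁻¹), inv_mul_cancel_right, Matrix.SpecialLinearGroup.coe_mul]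
  rfl

theorem det_gamC_pos (c : (ZMod v)ˣ) : 0 < ((gamC N₁ v c : SL(2, ℤ)) : M2).det := by
  rw [(gamC N₁ v c).2]; exact one_pos

/-- The translate of `ev y` to the cusp. -/
theorem exists_tauC (c : (ZMod v)ˣ) (y : FC (N₁ * v * v)) :
    ∃ Y ∈ FC (N₁ * v * v) ⊔ adjoin ℂ ({twistSeries (zetaC v) (coeffEmb ℂ jq)} :
        Set (LaurentSeries ℂ)),
      HasQExp 1 (fun z => ev (y : LaurentSeries ℂ) (gamC N₁ v c • z)) Y := by
  have hF := isModFun_ev y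
  set F := fun z => ev (y : LaurentSeries ℂ) (gamC N₁ v c • z) with hFdef
  have hvM : v ∣ N₁ * v * v := dvd_mul_left v _
  have hinv : ∀ γ : Gamma0 (N₁ * v * v), dSq hvM γ = 1 → ∀ z, F ((γ : SL(2, ℤ)) • z) = F z := by
    intro γ hγ z
    have h1 := hF.smul (coC c (⟨γ, hγ⟩ : GammaP hvM)) (gamC N₁ v c • z)
    have e : ((coC c (⟨γ, hγ⟩ : GammaP hvM) : Gamma0 (N₁ * v * v)) : SL(2, ℤ)) •
        (gamC N₁ v c • z) = gamC N₁ v c • ((γ : SL(2, ℤ)) • z) := by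
      rw [← mul_smul, ← mul_smul]
      congr 1
      exact inv_mul_cancel_right _ _
    rwa [e] at h1
  have hcusp : IsMeroAtCusps (N₁ * v * v) F := fun γ => by
    obtain ⟨m, hm⟩ := hF.meroCusp (gamC N₁ v c * γ)
    refine ⟨m, ?_⟩
    simpa [F, mul_smul] using hm
  have hper : ∀ z : ℍ, F ((1 : ℝ) +ᵥ z) = F z := fun z => by
    rw [← UpperHalfPlane.modular_T_smul]
    exact hinv ⟨ModularGroup.T, T_mem_Gamma0 _⟩ (MonoidHom.mem_ker.mp (T_mem_GammaP hvM)) z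
  have hFm : IsMero F := hF.mero.comp_sl _
  obtain ⟨m, hm⟩ := hcusp 1
  simp only [one_smul] at hm
  obtain ⟨Y, hY⟩ := exists_hasQExp_one hFm hper
    (by exact_mod_cast Nat.one_le_iff_ne_zero.mpr (NeZero.ne (N₁ * v * v))) hm
  exact ⟨Y, mem_sup_of_invariant (M := N₁ * v * v) (v := v) ⟨N₁, by ring⟩ hFm hcusp hinv hY, hY⟩

theorem hasQExp_comp_sl_nfH {f : ℍ → ℂ} (hf : IsMeroRaw f) (g : SL(2, ℤ)) {Y : LaurentSeries ℂ}
    (h : HasQExp 1 (fun z => f (g • z)) Y) : HasQExp 1 (fun z => nfH f (g • z)) Y := by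
  have e : nfH (fun z => f (g • z)) = fun z => nfH f (g • z) :=
    nfH_comp_glSmul hf (det_pos_SL g)
  exact e ▸ h.nfH one_pos

/-- Expansion at the cusp, as a ring homomorphism. -/
def tauC (c : (ZMod v)ˣ) : FC (N₁ * v * v) →+* LaurentSeries ℂ where
  toFun y := (exists_tauC c y).choose
  map_one' := by
    refine (exists_tauC c 1).choose_spec.2.unique one_pos ?_
    rw [OneMemClass.coe_one, ev_one']
    exact hasQExp_one 1
  map_zero' := by
    refine (exists_tauC c 0).choose_spec.2.unique one_pos ?_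
    rw [ZeroMemClass.coe_zero, ev_zero']
    exact hasQExp_zero 1
  map_add' a b := by
    refine (exists_tauC c (a + b)).choose_spec.2.unique one_pos ?_
    rw [ev_add]
    exact hasQExp_comp_sl_nfH ((isMero_ev a).raw.add (isMero_ev b).raw) _
      ((exists_tauC c a).choose_spec.2.add (exists_tauC c b).choose_spec.2)
  map_mul' a b := by
    refine (exists_tauC c (a * b)).choose_spec.2.unique one_pos ?_
    rw [ev_mul]
    exact hasQExp_comp_sl_nfH ((isMero_ev a).raw.mul (isMero_ev b).raw) _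
      ((exists_tauC c a).choose_spec.2.mul (exists_tauC c b).choose_spec.2)

theorem hasQExp_tauC (c : (ZMod v)ˣ) (y : FC (N₁ * v * v)) :
    HasQExp 1 (fun z => ev (y : LaurentSeries ℂ) (gamC N₁ v c • z)) (tauC c y) :=
  (exists_tauC c y).choose_spec.2

/-- The expansions at the cusp lie in the base change of `lvlField`. -/
theorem tauC_mem (c : (ZMod v)ˣ) (y : FC (N₁ * v * v)) :
    tauC c y ∈ baseC (lvlField N₁ v (zetaQ v)) ι₀ :=
  interp_le_baseC (exists_tauC c y).choose_spec.1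

theorem tauC_algebraMap (c : (ZMod v)ˣ) (a : ℂ) :
    tauC c (algebraMap ℂ (FC (N₁ * v * v)) a) = HahnSeries.C a := by
  refine (hasQExp_tauC c _).unique one_pos ?_
  rw [ev_algebraMap_apply, ← algebraMap_eq_C']
  exact hasQExp_const 1 a

/-- The exponent `1 / ((N₁ / e) c)` modulo `v`. -/
def cuspB (e : ℕ) (c : (ZMod v)ˣ) : ℕ := ((((N₁ / e : ℕ) : ZMod v) * (c : ZMod v))⁻¹).val

/-- The expansion of `j (e v² z)` at the cusp. -/
def cuspJ {R : Type*} [CommRing R] (ζ : Rˣ) (e : ℕ) (c : (ZMod v)ˣ) : LaurentSeries R :=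
  ModularCosets.qScale R e (ModularCosets.twist (ζ ^ cuspB (N₁ := N₁) e c) (jqModC R))

variable (hv : v.Prime) (hvN : ¬ v ∣ N₁)

include hv hvN in
theorem hasQExp_jMulFun_gamC {e : ℕ} (he : e ∣ N₁) (c : (ZMod v)ˣ) :
    HasQExp 1 (fun z => jMulFun (e * (v * v)) (gamC N₁ v c • z))
      (cuspJ (N₁ := N₁) (zetaC v) e c) := by
  haveI := Fact.mk hv
  obtain ⟨f, hf⟩ := id he
  have he0 : e ≠ 0 := fun h => NeZero.ne N₁ (by rw [hf, h, zero_mul])
  haveI : NeZero e := ⟨he0⟩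
  have hfdiv : N₁ / e = f := by rw [hf, Nat.mul_div_cancel_left _ (Nat.pos_of_ne_zero he0)]
  have hfv : (f : ZMod v) ≠ 0 := fun h =>
    hvN (((ZMod.natCast_eq_zero_iff _ _).mp h).trans ⟨e, by rw [hf, mul_comm]⟩)
  set B : ℕ := cuspB (N₁ := N₁) e c with hB
  set cn : ℕ := ((c : ZMod v)).val
  have hfc : ((f * cn * B : ℕ) : ZMod v) = 1 := by
    rw [Nat.cast_mul, Nat.cast_mul, hB, cuspB, hfdiv, ZMod.natCast_zmod_val,
      ZMod.natCast_zmod_val]
    exact mul_inv_cancel₀ (mul_ne_zero hfv c.ne_zero)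
  obtain ⟨y, hy⟩ : (v : ℤ) ∣ 1 - ((f * cn * B : ℕ) : ℤ) := by
    rw [← ZMod.intCast_zmod_eq_zero_iff_dvd, Int.cast_sub, Int.cast_one, Int.cast_natCast, hfc,
      sub_self]
  push_cast at hy
  have hδ : (!![(v : ℤ), -(B : ℤ); (f : ℤ) * cn, y] : M2).det = 1 := by
    rw [Matrix.det_fin_two_of]; linear_combination -hy
  set δ : SL(2, ℤ) := ⟨_, hδ⟩
  set U : M2 := !![((e * v : ℕ) : ℤ), (B : ℤ); 0, (v : ℤ)] with hU
  set Dg : M2 := !![((e * (v * v) : ℕ) : ℤ), 0; 0, 1] with hDg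
  have hev : 0 < e * (v * v) := Nat.pos_of_ne_zero
    (Nat.mul_ne_zero he0 (Nat.mul_ne_zero hv.ne_zero hv.ne_zero))
  have hUp : 0 < U.det := by
    rw [hU, Matrix.det_fin_two_of, mul_zero, sub_zero]
    exact_mod_cast Nat.mul_pos (Nat.mul_pos (Nat.pos_of_ne_zero he0) hv.pos) hv.pos
  have hDp : 0 < Dg.det := by
    rw [hDg, Matrix.det_fin_two_of]; simpa using (by exact_mod_cast hev : (0 : ℤ) < _)
  have hprod : Dg * ((gamC N₁ v c : SL(2, ℤ)) : M2) = (δ : M2) * U := by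
    rw [hU, hDg]
    show _ * !![(1 : ℤ), 0; cuspC N₁ v c, 1] = !![(v : ℤ), -(B : ℤ); (f : ℤ) * cn, y] * _
    rw [Matrix.mul_fin_two, Matrix.mul_fin_two, cuspC, hf]
    ext i j
    fin_cases i <;> fin_cases j <;> simp [cn, -ZMod.natCast_val] <;>
      first | (push_cast; ring1) | (push_cast; linear_combination hy)
  have hsm : ∀ z : ℍ, ModularForm.heckeDiagMatrix (e * (v * v)) • (gamC N₁ v c • z) =
      δ • (glM U hUp.ne' • z) := by
    intro z
    have hg0 : ((gamC N₁ v c : SL(2, ℤ)) : M2).det ≠ 0 := (det_gamC_pos c).ne'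
    have hd0 : (δ : M2).det ≠ 0 := by rw [δ.2]; exact one_ne_zero
    have hC : (Dg * ((gamC N₁ v c : SL(2, ℤ)) : M2)).det ≠ 0 := by
      rw [Matrix.det_mul]; exact mul_ne_zero hDp.ne' hg0
    have e1 := (HeckeH.glM_mul_smul hDp.ne' hg0 hC rfl z).symm.trans
      (HeckeH.glM_mul_smul hd0 hUp.ne' hC hprod z)
    rw [HeckeH.glM_SL, HeckeH.glM_SL] at e1
    rw [← e1]
    congr 1
    refine Units.ext ?_
    rw [HeckeH.val_glM, ModularForm.val_heckeDiagMatrix hev.ne', hDg]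
    ext i j
    fin_cases i <;> fin_cases j <;> simp
  have hφ : ∀ z : ℍ, ((glM U hUp.ne' • z : ℍ) : ℂ) =
      (((e * v : ℕ) : ℂ) * z + ((B : ℤ) : ℂ)) / (v : ℂ) := by
    intro z
    rw [coe_smul_of_det_pos]
    · simp [num, denom, HeckeH.val_glM, hU]
    · rw [Matrix.GeneralLinearGroup.val_det_apply]
      exact det_glM_pos _ hUp
  haveI : NeZero (e * v) := ⟨Nat.mul_ne_zero he0 hv.ne_zero⟩
  have h1 := hasQExp_jFun.comp_affine one_ne_zero (e * v) v (B : ℤ) hφ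
  have htw : Units.mk0 (Complex.exp (2 * Real.pi * Complex.I * ((B : ℤ) : ℂ) / (((v : ℝ) : ℂ) * ((1 : ℝ) : ℂ))))
      (Complex.exp_ne_zero _) = zetaC v ^ B := by
    refine Units.ext ?_
    rw [Units.val_pow_eq_pow_val, zetaC, Units.val_mk0, Units.val_mk0, ← Complex.exp_nat_mul]
    congr 1
    push_cast
    ring
  have h2 : HasQExp ((v : ℝ) * 1) (fun z => jFun (glM U hUp.ne' • z))
      (qExpand ℂ v (cuspJ (N₁ := N₁) (zetaC v) e c)) := by
    rw [cuspJ, ModularCosets.qScale_eq, qExpand_qExpand, qExpand_congr (mul_comm v e),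
      ← hB, ← htw, ← twistSeries_eq, ← ModularCosets.coeffEmb_jq_eq]
    exact h1
  refine HasQExp.congr ?_ (Eventually.of_forall fun z => ?_) (f := fun z => jFun (glM U hUp.ne' • z))
  · rw [hasQExp_iff] at h2 ⊢
    filter_upwards [h2] with z hz
    have hinj : Function.Injective fun k : ℤ => (v : ℤ) * k :=
      mul_right_injective₀ (by exact_mod_cast hv.ne_zero)
    refine ((hinj.hasSum_iff fun k hk => ?_).2 hz).congr_fun fun k => ?_
    · rw [qExpand_coeff_of_not_dvd, zero_mul]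
      rintro ⟨m, rfl⟩
      exact hk ⟨m, rfl⟩
    · simp only [Function.comp_apply, qExpand_coeff_mul]
      rw [qPow_mul_period (1 : ℝ) hv.ne_zero]
  · show jFun (glM U hUp.ne' • z) = jFun (_ • (gamC N₁ v c • z))
    rw [hsm, jFun_smul]

include hv in
/-- `j (d z)`, `d ∣ N₁ v`, is fixed. -/
theorem hasQExp_jMulFun_gamC_of_dvd {d : ℕ} [NeZero d] (hd : d ∣ N₁ * v) (c : (ZMod v)ˣ) :
    HasQExp 1 (fun z => jMulFun d (gamC N₁ v c • z)) (ModularCosets.qScale ℂ d (jqModC ℂ)) := by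
  have h := (isModFun_jMulFun (N := N₁ * v) hd).smul ⟨_, gamC_mem N₁ v c⟩
  simp only at h
  refine HasQExp.congr (f := jMulFun d) ?_ (Eventually.of_forall fun z => (h z).symm)
  have := hasQExp_jMulFun d
  rw [ModularCosets.qScale_eq, ← ModularCosets.coeffEmb_jq_eq]
  rwa [coeffEmb, coeffMap_qExpand] at this

end FLTAgent.Lower.Levels.Gauss
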