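import Mathlib
import Fermat.Agent.Lower.Levels.Inertia.Cusp
import Fermat.Agent.GalCommon.Basic

/-!
# Expansions at the cusps over `ℚ̄`, and Galois

`tauQ c` is `tauC c` with coefficients in `ℚ̄`. A Galois element acting on `exp (2πi/v)` by `a`
takes the expansion at `c` to the expansion at `c a⁻¹` of the conjugate function
(`coeffMap_tauQ_gal`). On reduced classes `cl`: twists by roots of unity reducing to `1` and
inertia act trivially (`cl_twist`, `cl_coeffMap_inertia`).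
-/

set_option autoImplicit false
set_option linter.unusedSectionVars false
set_option linter.style.haveILetI false

noncomputable section

open UpperHalfPlane CongruenceSubgroup Filter Topology ModularCurve IntermediateField
open scoped MatrixGroups

namespace FLTAgent.Lower.Levels.Gauss

open FLTAgent.Modular FLTAgent.BadQ
open FLTAgent.HeckeH (glM matOf M2 det_glM_pos)
open FLTAgent.ModularCosets (twist twist_coeff qScale qScale_eq)

local notation "ℚ̄" => AlgebraicClosure ℚ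
local notation "Γℚ" => (AlgebraicClosure ℚ ≃ₐ[ℚ] AlgebraicClosure ℚ)
local notation "ι₀" => Reps.qbarEmb

variable {N₁ v : ℕ} [NeZero N₁] [NeZero v]

/-- A subfield with the constants and the `j (d z)` is everything. -/
theorem bar_induction {M : ℕ} [NeZero M] (S : Subfield (modularFunctionFieldBar M))
    (hC : ∀ a : ℚ̄, algebraMap ℚ̄ (modularFunctionFieldBar M) a ∈ S)
    (hg : ∀ (d : ℕ) (hd : d ∣ M),
      (⟨qScale ℚ̄ d (jqModC ℚ̄), qScale_jq_mem_bar hd⟩ : modularFunctionFieldBar M) ∈ S)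
    (x : modularFunctionFieldBar M) : x ∈ S := by
  let T : IntermediateField ℚ̄ (LaurentSeries ℚ̄) :=
    Subfield.toIntermediateField (S.map (modularFunctionFieldBar M).toSubfield.subtype)
      fun a => ⟨_, hC a, rfl⟩
  have hle : modularFunctionFieldBar M ≤ T := by
    rw [bar_eq_adjoin, adjoin_le_iff]
    rintro _ ⟨d, rfl⟩
    exact ⟨_, hg d (Nat.dvd_of_mem_divisors d.2), rfl⟩
  obtain ⟨y, hy, hyx⟩ := hle x.2
  rwa [show x = y from Subtype.ext hyx.symm]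

theorem dvd_cases (hv : v.Prime) {d : ℕ} (hd : d ∣ N₁ * v * v) :
    d ∣ N₁ * v ∨ ∃ e, e ∣ N₁ ∧ d = e * (v * v) := by
  rw [Nat.mul_assoc] at hd
  obtain ⟨a, b, ha, hb, rfl⟩ := Nat.dvd_mul.mp hd
  obtain ⟨i, hi, rfl⟩ := (Nat.dvd_prime_pow hv).mp (show b ∣ v ^ 2 by rwa [pow_two])
  rcases Nat.lt_or_ge i 2 with h | h
  · exact Or.inl (Nat.mul_dvd_mul ha (pow_dvd_pow v (Nat.le_of_lt_succ h) |>.trans (by rw [pow_one])))
  · exact Or.inr ⟨a, ha, by rw [le_antisymm hi h, pow_two]⟩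

theorem ev_embFC_qScale {M : ℕ} [NeZero M] {d : ℕ} (hd : d ∣ M) :
    ev ((Torsion.embFC M ι₀ ⟨qScale ℚ̄ d (jqModC ℚ̄), qScale_jq_mem_bar hd⟩ : FC M) :
      LaurentSeries ℂ) = jMulFun d := by
  haveI : NeZero d := ⟨fun h => NeZero.ne M (Nat.eq_zero_of_zero_dvd (h ▸ hd))⟩
  refine ev_eq_of_isMero (isMero_jMulFun d) ?_
  rw [Torsion.coe_embFC]
  show HasQExp 1 (jMulFun d) (coeffMap ι₀ (qScale ℚ̄ d (jqModC ℚ̄)))
  rw [qScale_eq, coeffMap_qExpand, coeffMap_jqModC]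
  have := hasQExp_jMulFun d
  rwa [coeffEmb, coeffMap_qExpand, ← coeffEmb, ModularCosets.coeffEmb_jq_eq] at this

section Tau

variable (hv : v.Prime) (hvN : ¬ v ∣ N₁)

include hv hvN

theorem tauC_gen {d : ℕ} (hd : d ∣ N₁ * v * v) (c : (ZMod v)ˣ) :
    (d ∣ N₁ * v ∧ tauC c (Torsion.embFC (N₁ * v * v) ι₀
        ⟨qScale ℚ̄ d (jqModC ℚ̄), qScale_jq_mem_bar hd⟩) =
          coeffMap ι₀ (qScale ℚ̄ d (jqModC ℚ̄))) ∨
      ∃ e, e ∣ N₁ ∧ d = e * (v * v) ∧ tauC c (Torsion.embFC (N₁ * v * v) ι₀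
        ⟨qScale ℚ̄ d (jqModC ℚ̄), qScale_jq_mem_bar hd⟩) =
          coeffMap ι₀ (cuspJ (N₁ := N₁) (zetaQ v) e c) := by
  haveI : NeZero d := ⟨fun h => NeZero.ne (N₁ * v * v) (Nat.eq_zero_of_zero_dvd (h ▸ hd))⟩
  rcases dvd_cases hv hd with h | ⟨e, he, rfl⟩
  · refine Or.inl ⟨h, (hasQExp_tauC c _).unique one_pos ?_⟩
    rw [ev_embFC_qScale hd, ModularCosets.coeffMap_qScale, coeffMap_jqModC]
    exact hasQExp_jMulFun_gamC_of_dvd hv h c
  · refine Or.inr ⟨e, he, rfl, (hasQExp_tauC c _).unique one_pos ?_⟩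
    rw [ev_embFC_qScale hd]
    have := hasQExp_jMulFun_gamC hv hvN he c
    rwa [cuspJ, ModularCosets.coeffMap_qScale, ModularCosets.coeffMap_twist, coeffMap_jqModC,
      map_pow, show Units.map (ι₀ : ℚ̄ →* ℂ) (zetaQ v) = zetaC v from
        Units.ext (qbarEmb_zetaQ v)]

theorem exists_tauQ (c : (ZMod v)ˣ) (h : modularFunctionFieldBar (N₁ * v * v)) :
    ∃ G : LaurentSeries ℚ̄, coeffMap ι₀ G = tauC c (Torsion.embFC (N₁ * v * v) ι₀ h) := by
  refine bar_induction ((coeffMap ι₀).fieldRange.comap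
    ((tauC c).comp (Torsion.embFC (N₁ * v * v) ι₀))) (fun a => ⟨HahnSeries.C a, ?_⟩)
    (fun d hd => ?_) h
  · rw [RingHom.comp_apply, ModularCosets.coeffMap_C,
      show Torsion.embFC (N₁ * v * v) ι₀ (algebraMap ℚ̄ _ a) = algebraMap ℂ _ (ι₀ a) from
        Subtype.ext (by
          rw [Torsion.coe_embFC]
          show coeffMap ι₀ (algebraMap ℚ̄ (LaurentSeries ℚ̄) a) =
            algebraMap ℂ (LaurentSeries ℂ) (ι₀ a)
          rw [algebraMap_eq_C', algebraMap_eq_C', ModularCosets.coeffMap_C]),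
      tauC_algebraMap]
  · rcases tauC_gen hv hvN hd c with ⟨-, h⟩ | ⟨e, -, -, h⟩ <;> exact ⟨_, h.symm⟩

/-- Expansion at the cusp, over `ℚ̄`. -/
def tauQ (c : (ZMod v)ˣ) : modularFunctionFieldBar (N₁ * v * v) →+* LaurentSeries ℚ̄ where
  toFun h := (exists_tauQ hv hvN c h).choose
  map_one' := ModularCosets.coeffMap_inj ι₀ (by
    rw [(exists_tauQ hv hvN c 1).choose_spec, map_one, map_one, map_one])
  map_zero' := ModularCosets.coeffMap_inj ι₀ (by
    rw [(exists_tauQ hv hvN c 0).choose_spec, map_zero, map_zero, map_zero])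
  map_add' a b := ModularCosets.coeffMap_inj ι₀ (by
    rw [(exists_tauQ hv hvN c _).choose_spec, map_add, map_add, map_add,
      (exists_tauQ hv hvN c a).choose_spec, (exists_tauQ hv hvN c b).choose_spec])
  map_mul' a b := ModularCosets.coeffMap_inj ι₀ (by
    rw [(exists_tauQ hv hvN c _).choose_spec, map_mul, map_mul, map_mul,
      (exists_tauQ hv hvN c a).choose_spec, (exists_tauQ hv hvN c b).choose_spec])

theorem coeffMap_tauQ (c : (ZMod v)ˣ) (h : modularFunctionFieldBar (N₁ * v * v)) :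
    coeffMap ι₀ (tauQ hv hvN c h) = tauC c (Torsion.embFC (N₁ * v * v) ι₀ h) :=
  (exists_tauQ hv hvN c h).choose_spec

theorem tauQ_mem (c : (ZMod v)ˣ) (h : modularFunctionFieldBar (N₁ * v * v)) :
    tauQ hv hvN c h ∈ lvlField N₁ v (zetaQ v) :=
  mem_of_mem_baseC ι₀ (by rw [coeffMap_tauQ hv hvN]; exact tauC_mem c _)

theorem tauQ_algebraMap (c : (ZMod v)ˣ) (a : ℚ̄) :
    tauQ hv hvN c (algebraMap ℚ̄ _ a) = HahnSeries.C a := by
  refine ModularCosets.coeffMap_inj ι₀ ?_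
  rw [coeffMap_tauQ hv hvN, ModularCosets.coeffMap_C,
    show Torsion.embFC (N₁ * v * v) ι₀ (algebraMap ℚ̄ _ a) = algebraMap ℂ _ (ι₀ a) from
      Subtype.ext (by
        rw [Torsion.coe_embFC]
        show coeffMap ι₀ (algebraMap ℚ̄ (LaurentSeries ℚ̄) a) =
          algebraMap ℂ (LaurentSeries ℂ) (ι₀ a)
        rw [algebraMap_eq_C', algebraMap_eq_C', ModularCosets.coeffMap_C]),
    tauC_algebraMap]

theorem coeffMap_cuspJ (σ : Γℚ) (a : (ZMod v)ˣ)
    (ha : σ (zetaQ v : ℚ̄) = (zetaQ v : ℚ̄) ^ (a : ZMod v).val) (e : ℕ) (c : (ZMod v)ˣ) :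
    coeffMap (σ : ℚ̄ →+* ℚ̄) (cuspJ (N₁ := N₁) (zetaQ v) e c) =
      cuspJ (N₁ := N₁) (zetaQ v) e (c * a⁻¹) := by
  haveI := Fact.mk hv
  rw [cuspJ, cuspJ, ModularCosets.coeffMap_qScale, ModularCosets.coeffMap_twist, coeffMap_jqModC]
  congr 3
  refine Units.ext ?_
  rw [Units.coe_map, MonoidHom.coe_coe, Units.val_pow_eq_pow_val, Units.val_pow_eq_pow_val, map_pow]
  show σ (zetaQ v : ℚ̄) ^ _ = _
  rw [ha, ← pow_mul]
  refine pow_eq_pow_of_modEq ?_ (by
    rw [← Units.val_pow_eq_pow_val, (zetaQ_isPrimitiveRoot v).pow_eq_one, Units.val_one])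
  rw [← ZMod.natCast_eq_natCast_iff]
  rw [Nat.cast_mul, cuspB, cuspB, ZMod.natCast_zmod_val, ZMod.natCast_zmod_val,
    ZMod.natCast_zmod_val, Units.val_mul, Units.val_inv_eq_inv_val, mul_inv, mul_inv, mul_inv,
    inv_inv]
  ring

/-- **Galois moves the cusp.** -/
theorem coeffMap_tauQ_gal (σ : Γℚ) (a : (ZMod v)ˣ)
    (ha : σ (zetaQ v : ℚ̄) = (zetaQ v : ℚ̄) ^ (a : ZMod v).val) (c : (ZMod v)ˣ)
    (h : modularFunctionFieldBar (N₁ * v * v)) :
    coeffMap (σ : ℚ̄ →+* ℚ̄) (tauQ hv hvN c h) = tauQ hv hvN (c * a⁻¹) (galF σ h) := by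
  let g : modularFunctionFieldBar (N₁ * v * v) →+* modularFunctionFieldBar (N₁ * v * v) :=
    (arithmeticRingAut (modularFunctionFieldFull (N₁ * v * v)) σ).toRingHom
  refine bar_induction
    (((coeffMap (σ : ℚ̄ →+* ℚ̄)).comp (tauQ hv hvN c)).eqLocusField
      ((tauQ hv hvN (c * a⁻¹)).comp g)) (fun x => ?_) (fun d hd => ?_) h
  · show coeffMap (σ : ℚ̄ →+* ℚ̄) (tauQ hv hvN c _) = tauQ hv hvN (c * a⁻¹) (g _)
    rw [show g (algebraMap ℚ̄ _ x) = algebraMap ℚ̄ _ (σ x) from arithmeticRingAut_algebraMap _ σ x,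
      tauQ_algebraMap hv hvN, tauQ_algebraMap hv hvN]
    exact coeffMap_single _ _ _
  · show coeffMap (σ : ℚ̄ →+* ℚ̄) (tauQ hv hvN c _) = tauQ hv hvN (c * a⁻¹) (g _)
    have hg : g ⟨qScale ℚ̄ d (jqModC ℚ̄), qScale_jq_mem_bar hd⟩ =
        ⟨qScale ℚ̄ d (jqModC ℚ̄), qScale_jq_mem_bar hd⟩ := Subtype.ext (by
      show coeffMap (σ : ℚ̄ →+* ℚ̄) (qScale ℚ̄ d (jqModC ℚ̄)) = qScale ℚ̄ d (jqModC ℚ̄)
      rw [ModularCosets.coeffMap_qScale, coeffMap_jqModC])
    rw [hg]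
    have key : ∀ (c' : (ZMod v)ˣ) (G : LaurentSeries ℚ̄),
        tauC c' (Torsion.embFC (N₁ * v * v) ι₀
          ⟨qScale ℚ̄ d (jqModC ℚ̄), qScale_jq_mem_bar hd⟩) = coeffMap ι₀ G →
        tauQ hv hvN c' ⟨qScale ℚ̄ d (jqModC ℚ̄), qScale_jq_mem_bar hd⟩ = G := fun c' G hG =>
      ModularCosets.coeffMap_inj ι₀ (by rw [coeffMap_tauQ hv hvN, hG])
    have hd2 : ∀ e, d = e * (v * v) → ¬ d ∣ N₁ * v := by
      rintro e rfl h
      refine hvN (Nat.dvd_of_mul_dvd_mul_right hv.pos ((dvd_mul_left (v * v) e).trans h))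
    rcases tauC_gen hv hvN hd c with ⟨h1, h2⟩ | ⟨e, he, hde, h2⟩
    · rcases tauC_gen hv hvN hd (c * a⁻¹) with ⟨-, h3⟩ | ⟨e', -, hde', -⟩
      · rw [key c _ h2, key _ _ h3, ModularCosets.coeffMap_qScale, coeffMap_jqModC]
      · exact absurd h1 (hd2 e' hde')
    · rcases tauC_gen hv hvN hd (c * a⁻¹) with ⟨h1, -⟩ | ⟨e', -, hde', h3⟩
      · exact absurd h1 (hd2 e hde)
      · have hee : e' = e := Nat.eq_of_mul_eq_mul_right (Nat.mul_pos hv.pos hv.pos)
          (hde'.symm.trans hde)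
        rw [key c _ h2, key _ _ h3, coeffMap_cuspJ hv hvN σ a ha, hee]

end Tau

section Residue

variable {A : ValuationSubring ℚ̄}

local notation "k" => IsLocalRing.ResidueField A
local notation "π" => IsLocalRing.residue A

theorem cl_twist {u : ℚ̄ˣ} {uA : Aˣ} (hu : ((uA : A) : ℚ̄) = (u : ℚ̄)) (hres : π (uA : A) = 1)
    {x : LaurentSeries ℚ̄} (hx : Scalable A π x) : cl A π (twist u x) = cl A π x := by
  obtain ⟨c, hc, hcV, hc0⟩ := Scalable.exists_smul A π hx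
  have h := gval_twist hu hres hcV
  have e : twist u (HahnSeries.C c * x) = HahnSeries.C c * twist u x := by
    ext i
    simp [twist_coeff, HahnSeries.C_apply, HahnSeries.coeff_single_zero_mul]
    ring
  rw [e] at h
  rw [cl_eq IsLocalRing.residue_surjective hc h.1 (by rw [h.2]; exact hc0), h.2,
    cl_eq IsLocalRing.residue_surjective hc hcV hc0]

/-- Inertia is invisible on classes. -/
theorem cl_coeffMap_inertia {σ : Γℚ} (hσ : σ ∈ A.inertiaSubgroupIn ℚ) {x : LaurentSeries ℚ̄}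
    (hx : Scalable A π x) : cl A π (coeffMap (σ : ℚ̄ →+* ℚ̄) x) = cl A π x := by
  obtain ⟨c, hc, hcV, hc0⟩ := Scalable.exists_smul A π hx
  obtain ⟨-, hσ'⟩ := GalCommon.mem_inertiaSubgroupIn_iff.mp hσ
  have hmem : ∀ a ∈ A, σ a ∈ A := fun a ha => by
    have h1 := A.nonunits_le (hσ' a ha)
    have h2 := A.add_mem _ _ h1 ha
    rwa [sub_add_cancel] at h2
  let τA : A →+* A := ((σ : ℚ̄ →+* ℚ̄).comp A.subtype).codRestrict A fun a => hmem a a.2
  have hk : ∀ a, π (τA a) = (RingHom.id k) (π a) := fun a => by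
    rw [RingHom.id_apply, ← sub_eq_zero, ← map_sub, ← GalCommon.coe_mem_nonunits_iff_residue]
    exact hσ' a a.2
  obtain ⟨h1, h2⟩ := gval_coeffMap A π (σ : ℚ̄ →+* ℚ̄) τA (RingHom.id k) (fun a => rfl) hk hcV
  rw [coeffMap_id] at h2
  rw [map_mul, show coeffMap (σ : ℚ̄ →+* ℚ̄) (HahnSeries.C c) = HahnSeries.C ((σ : ℚ̄ →+* ℚ̄) c)
    from coeffMap_single _ _ _] at h1 h2
  rw [cl_eq IsLocalRing.residue_surjective
      (show (σ : ℚ̄ →+* ℚ̄) c ≠ 0 from (map_ne_zero_iff _ σ.injective).mpr hc) h1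
      (by rw [h2]; exact hc0), h2, cl_eq IsLocalRing.residue_surjective hc hcV hc0]

theorem scalable_pow {x : LaurentSeries ℚ̄} (hx : Scalable A π x) (n : ℕ) :
    Scalable A π (x ^ n) ∧ cl A π (x ^ n) = n • cl A π x := by
  induction n with
  | zero =>
    refine ⟨?_, by rw [pow_zero, cl_one IsLocalRing.residue_surjective, zero_smul]⟩
    rw [pow_zero, ← map_one (HahnSeries.C : ℚ̄ →+* LaurentSeries ℚ̄)]
    exact scalable_C one_ne_zero
  | succ n ih =>
    exact ⟨pow_succ x n ▸ scalable_mul ih.1 hx, by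
      rw [pow_succ, cl_mul IsLocalRing.residue_surjective ih.1 hx, ih.2, succ_nsmul]⟩

theorem scalable_prod {ι : Type*} (s : Finset ι) {x : ι → LaurentSeries ℚ̄}
    (hx : ∀ i ∈ s, Scalable A π (x i)) :
    Scalable A π (∏ i ∈ s, x i) ∧ cl A π (∏ i ∈ s, x i) = ∑ i ∈ s, cl A π (x i) := by
  classical
  induction s using Finset.induction with
  | empty =>
    refine ⟨?_, by rw [Finset.prod_empty, Finset.sum_empty, cl_one IsLocalRing.residue_surjective]⟩
    rw [Finset.prod_empty, ← map_one (HahnSeries.C : ℚ̄ →+* LaurentSeries ℚ̄)]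
    exact scalable_C one_ne_zero
  | insert a s ha ih =>
    obtain ⟨h1, h2⟩ := ih fun i hi => hx i (Finset.mem_insert_of_mem hi)
    have ha' := hx a (Finset.mem_insert_self a s)
    rw [Finset.prod_insert ha, Finset.sum_insert ha]
    exact ⟨scalable_mul ha' h1, by rw [cl_mul IsLocalRing.residue_surjective ha' h1, h2]⟩

end Residue

end FLTAgent.Lower.Levels.Gauss
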