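import Mathlib
import Fermat.Agent.Lower.Levels.Inertia.Red

/-!
# The reduction homomorphisms at the cusps

For `hC : Cond N₁ v A` (a prime `v ∤ N₁` and a place `A` over it), `redC hC c` sends a torsion
class of level `N₁ v²` to the class of the reduced expansion at the cusp `c` of its Kummer
function, in `RedQ` (classes of the top residue field modulo `n`-th powers); it is a well
defined homomorphism. Inertia moves the cusp (`redC_galT`), and a linear relation between
translates at the cusps and translations on `GammaP` gives a relation between the reductions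
(`redC_relation`).
-/

set_option autoImplicit false
set_option linter.unusedSectionVars false
set_option linter.style.haveILetI false

noncomputable section

open UpperHalfPlane CongruenceSubgroup Filter Topology ModularCurve IntermediateField
open scoped MatrixGroups

namespace FLTAgent.Lower.Levels.Gauss

open FLTAgent.Modular FLTAgent.BadQ
open FLTAgent.HeckeH (glM matOf M2 det_glM_pos)
open FLTAgent.ModularCosets (twist twist_coeff qScale qScale_eq)

local notation "ℚ̄" => AlgebraicClosure ℚ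
local notation "Γℚ" => (AlgebraicClosure ℚ ≃ₐ[ℚ] AlgebraicClosure ℚ)
local notation "ι₀" => Reps.qbarEmb

/-- `v` is a prime not dividing `N₁` and `A` is a place of `ℚ̄` above it. -/
structure Cond (N₁ v : ℕ) (A : ValuationSubring ℚ̄) : Prop where
  prime : v.Prime
  ndvd : ¬ v ∣ N₁
  liesOver : A.LiesOverPrime v

variable {N₁ v : ℕ} [NeZero N₁] [NeZero v] {A : ValuationSubring ℚ̄}

local notation "k" => IsLocalRing.ResidueField A
local notation "π" => IsLocalRing.residue A
local notation "M₀" => N₁ * v * v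

variable {n : ℕ} [NeZero n]

/-- Classes of the top residue field modulo `n`-th powers. -/
abbrev RedQ (N₁ : ℕ) [NeZero N₁] (A : ValuationSubring ℚ̄) (n : ℕ) : Type :=
  Cls (IsLocalRing.ResidueField A) ⧸ powOf (IsLocalRing.ResidueField A) (Lam A N₁) n

theorem Cond.resIn (hC : Cond N₁ v A) : ResIn A π (lvlField N₁ v (zetaQ v)) (Lam A N₁) :=
  (resIn_lvlField hC.prime hC.liesOver hC.ndvd (zetaQ_isPrimitiveRoot v)).1

theorem Cond.le_Sc (hC : Cond N₁ v A) : lvlField N₁ v (zetaQ v) ≤ Sc ℚ̄ :=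
  (resIn_lvlField hC.prime hC.liesOver hC.ndvd (zetaQ_isPrimitiveRoot v)).2.1

theorem Cond.scalable (hC : Cond N₁ v A) {x : LaurentSeries ℚ̄}
    (hx : x ∈ lvlField N₁ v (zetaQ v)) (h0 : x ≠ 0) : Scalable A π x :=
  scalable_of_mem_Sc hC.prime hC.liesOver (hC.le_Sc hx) h0

theorem Cond.scalable_tau (hC : Cond N₁ v A) (c : (ZMod v)ˣ) {h : modularFunctionFieldBar M₀}
    (h0 : h ≠ 0) : Scalable A π (tauQ hC.prime hC.ndvd c h) :=
  hC.scalable (tauQ_mem hC.prime hC.ndvd c h) ((_root_.map_ne_zero _).mpr h0)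

theorem Cond.scalable_bar (hC : Cond N₁ v A) {h : modularFunctionFieldBar M₀} (h0 : h ≠ 0) :
    Scalable A π (h : LaurentSeries ℚ̄) :=
  hC.scalable ((le_sup_left : modularFunctionFieldBar M₀ ≤ _) h.2)
    fun e => h0 (Subtype.ext e)

/-- The reduction at a cusp of a function, modulo powers. -/
def redFun (hC : Cond N₁ v A) (n : ℕ) (c : (ZMod v)ˣ) (h : modularFunctionFieldBar M₀) :
    RedQ N₁ A n :=
  QuotientAddGroup.mk (cl A π (tauQ hC.prime hC.ndvd c h))

/-- The reduction at `∞` of a function, modulo powers. -/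
def redInf (N₁ : ℕ) [NeZero N₁] (A : ValuationSubring ℚ̄) (n : ℕ) (x : LaurentSeries ℚ̄) :
    RedQ N₁ A n :=
  QuotientAddGroup.mk (cl A (IsLocalRing.residue A) x)

theorem twist_coe (b : ZMod v) (x : LaurentSeries ℚ̄) :
    coeffMap ι₀ (twist (zetaQ v ^ b.val) x) = twistSeries (zetaC v ^ b.val) (coeffMap ι₀ x) := by
  rw [ModularCosets.coeffMap_twist, twistSeries_eq, map_pow]
  congr 2
  congr 1
  exact Units.ext (qbarEmb_zetaQ v)

theorem cl_twist_zeta (hC : Cond N₁ v A) (i : ℕ) {x : LaurentSeries ℚ̄} (hx : Scalable A π x) :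
    cl A π (twist (zetaQ v ^ i) x) = cl A π x := by
  haveI := Fact.mk hC.prime
  obtain ⟨ζ, Φ, hζ, -, -, -, -⟩ := exists_modPoly hC.prime A
  obtain ⟨e, -, he⟩ := hζ.eq_pow_of_pow_eq_one (show ((zetaQ v ^ i : ℚ̄ˣ) : ℚ̄) ^ v = 1 by
    rw [← Units.val_pow_eq_pow_val, ← pow_mul, mul_comm, pow_mul,
      (zetaQ_isPrimitiveRoot v).pow_eq_one, one_pow, Units.val_one])
  refine cl_twist (uA := ζ ^ e) ?_ ?_ hx
  · rw [Units.val_pow_eq_pow_val, SubmonoidClass.coe_pow, he]
  · rw [Units.val_pow_eq_pow_val, map_pow, residue_zeta hC.prime hC.liesOver hζ, one_pow]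

/-- Translation by `b / v` maps `d² ≡ 1` into `Γ₀(N₁ v²)`. -/
def coT {hvM : v ∣ M₀} (b : ZMod v) (δ : GammaP hvM) : Gamma0 M₀ :=
  ⟨(twistElt (dvd_mul_left v N₁) dvd_rfl (δ : Gamma0 M₀) b : SL(2, ℤ)), by
    have h := HeckeH.matOf_dvd (δ : Gamma0 M₀)
    rw [Gamma0_mem, ZMod.intCast_zmod_eq_zero_iff_dvd]
    show ((M₀ : ℕ) : ℤ) ∣ matOf (twistElt (dvd_mul_left v N₁) dvd_rfl (δ : Gamma0 M₀) b) 1 0
    rw [twistElt, FLTAgent.HeckeH.matOf_mkGamma0]
    simpa using h⟩

theorem twistIdx_GammaP {hvM : v ∣ M₀} (b : ZMod v) (δ : GammaP hvM) :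
    twistIdx v (δ : Gamma0 M₀) b = b := by
  have h1 : dSq hvM (δ : Gamma0 M₀) = 1 := δ.2
  rw [dSq, MonoidHom.pow_apply, Units.ext_iff, Units.val_pow_eq_pow_val, coe_dUnit,
    Units.val_one] at h1
  rw [twistIdx, h1, mul_one]

theorem matOf_coT {hvM : v ∣ M₀} (b : ZMod v) (δ : GammaP hvM) :
    transMat v b * matOf (δ : Gamma0 M₀) = matOf (coT b δ) * transMat v b := by
  have h := transMat_mul (dvd_mul_left v N₁) (dvd_refl M₀) (δ : Gamma0 M₀) b
  rw [twistIdx_GammaP] at h
  exact h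

/-- **Relations.** -/
theorem red_relation (hC : Cond N₁ v A) {hvM : v ∣ M₀} {I J : Type} [Fintype I] [Fintype J]
    (c : I → (ZMod v)ˣ) (φ : I → Additive (Gamma0 M₀) →+ ZMod n)
    (h : I → modularFunctionFieldBar M₀) (hk : ∀ i, HasKummer (φ i) (h i))
    (b : J → ZMod v) (φ' : J → Additive (Gamma0 M₀) →+ ZMod n)
    (h' : J → modularFunctionFieldBar M₀) (hk' : ∀ j, HasKummer (φ' j) (h' j))
    (hsum : ∀ δ : GammaP hvM, ∑ i, φ i (Additive.ofMul (coC (c i) δ)) +
      ∑ j, φ' j (Additive.ofMul (coT (b j) δ)) = 0) :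
    ∑ i, redFun hC n (c i) (h i) + ∑ j, redInf N₁ A n (h' j) = 0 := by
  classical
  let Am : I ⊕ J → M2 :=
    Sum.elim (fun i => ((gamC N₁ v (c i) : SL(2, ℤ)) : M2)) fun j => transMat v (b j)
  let co : I ⊕ J → GammaP hvM → Gamma0 M₀ := Sum.elim (fun i => coC (c i)) fun j => coT (b j)
  let T : I ⊕ J → LaurentSeries ℚ̄ :=
    Sum.elim (fun i => tauQ hC.prime hC.ndvd (c i) (h i))
      fun j => twist (zetaQ v ^ (b j).val) (h' j : LaurentSeries ℚ̄)
  have hdet : ∀ x, 0 < (Am x).det := by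
    rintro (i | j)
    · exact det_gamC_pos _
    · show 0 < (transMat v (b j)).det
      rw [det_transMat]
      exact_mod_cast Nat.pos_of_ne_zero (Nat.mul_ne_zero (NeZero.ne v) (NeZero.ne v))
  have hTs : ∀ x, Scalable A π (T x) ∧ cl A π (T x) = Sum.elim
      (fun i => cl A π (tauQ hC.prime hC.ndvd (c i) (h i)))
      (fun j => cl A π (h' j : LaurentSeries ℚ̄)) x := by
    rintro (i | j)
    · exact ⟨hC.scalable_tau _ (hk i).1, rfl⟩
    · have hs := hC.scalable_bar (hk' j).1
      refine ⟨?_, cl_twist_zeta hC _ hs⟩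
      refine scalable_of_mem_Sc hC.prime hC.liesOver (twist_mem_Sc (NeZero.ne v) ?_
        (bar_le_Sc _ (h' j).2)) ((_root_.map_ne_zero _).mpr fun e => (hk' j).1 (Subtype.ext e))
      rw [← pow_mul, mul_comm, pow_mul, (zetaQ_isPrimitiveRoot v).pow_eq_one, one_pow]
  obtain ⟨G, hG, hGn⟩ := exists_root_of_relation (n := n) (N₁ := N₁) rfl Am hdet hvM co
    (fun x δ => by
      cases x with
      | inl i => exact matOf_coC (c i) δ
      | inr j => exact matOf_coT (b j) δ)
    (φ := Sum.elim φ φ') (h := Sum.elim h h')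
    (fun x => by cases x with
      | inl i => exact hk i
      | inr j => exact hk' j)
    T (fun x => scalable_ne_zero (hTs x).1)
    (fun x => by
      cases x with
      | inl i =>
        show HasQExp 1 _ (coeffMap ι₀ (tauQ hC.prime hC.ndvd (c i) (h i)))
        rw [coeffMap_tauQ hC.prime hC.ndvd]
        refine (hasQExp_tauC (c i) _).congr (Eventually.of_forall fun z => ?_)
        show _ = evQ (h i) (glM ((gamC N₁ v (c i) : SL(2, ℤ)) : M2) _ • z)
        exact congrArg (evQ (h i)) (HeckeH.glM_SL _ _ z).symm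
      | inr j =>
        show HasQExp 1 _ (coeffMap ι₀ (twist (zetaQ v ^ (b j).val) (h' j : LaurentSeries ℚ̄)))
        rw [twist_coe]
        refine (hasQExp_tr (hasQExp_ev (Torsion.embFC M₀ ι₀ (h' j))) (b j)).congr
          (Eventually.of_forall fun z => ?_)
        show _ = evQ (h' j) (glM (transMat v (b j)) _ • z)
        rw [glM_transMat_smul]
        rfl)
    (fun δ => by
      rw [Fintype.sum_sum_type]
      exact hsum δ)
  have hG0 : G ≠ 0 := by
    intro e
    rw [e, zero_pow (NeZero.ne n)] at hGn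
    exact Finset.prod_ne_zero_iff.mpr (fun x _ => scalable_ne_zero (hTs x).1) hGn.symm
  obtain ⟨-, hclG⟩ := scalable_pow (hC.scalable hG hG0) n
  rw [hGn, (scalable_prod Finset.univ fun x _ => (hTs x).1).2,
    Finset.sum_congr rfl fun x _ => (hTs x).2, Fintype.sum_sum_type] at hclG
  simp only [redFun, redInf, ← QuotientAddGroup.mk_sum, ← QuotientAddGroup.mk_add,
    QuotientAddGroup.eq_zero_iff]
  simp only [Sum.elim_inl, Sum.elim_inr] at hclG
  rw [hclG]
  exact mem_powOf.mpr
    ⟨_, cl_mem_clsOf IsLocalRing.residue_surjective hC.resIn hG (hC.scalable hG hG0), rfl⟩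

/-- Well-definedness at a cusp. -/
theorem redFun_eq (hC : Cond N₁ v A) (c : (ZMod v)ˣ) {φ : Additive (Gamma0 M₀) →+ ZMod n}
    {h h' : modularFunctionFieldBar M₀} (hk : HasKummer φ h) (hk' : HasKummer φ h') :
    redFun hC n c h = redFun hC n c h' := by
  have hinv : redFun hC n c h'⁻¹ = -redFun hC n c h' := by
    have h1 : cl A π (tauQ hC.prime hC.ndvd c h'⁻¹) + cl A π (tauQ hC.prime hC.ndvd c h') = 0 := by
      rw [← cl_mul IsLocalRing.residue_surjective (hC.scalable_tau c (inv_ne_zero hk'.1))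
        (hC.scalable_tau c hk'.1), ← map_mul, inv_mul_cancel₀ hk'.1, map_one,
        cl_one IsLocalRing.residue_surjective]
    rw [redFun, redFun, eq_neg_of_add_eq_zero_left h1, QuotientAddGroup.mk_neg]
  have key := red_relation hC (hvM := dvd_mul_left v _) (I := Fin 2) (J := Fin 0)
    (fun _ => c) ![φ, -φ] ![h, h'⁻¹] (by intro i; fin_cases i; exacts [hk, hk'.neg])
    Fin.elim0 Fin.elim0 Fin.elim0 (fun j => j.elim0) fun δ => by
      rw [Fin.sum_univ_two, Fin.sum_univ_zero]
      simp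
  rw [Fin.sum_univ_two, Fin.sum_univ_zero, add_zero] at key
  simp only [Matrix.cons_val_zero, Matrix.cons_val_one] at key
  rw [hinv, add_neg_eq_zero] at key
  exact key

/-- Well-definedness at `∞`. -/
theorem redInf_eq (hC : Cond N₁ v A) {φ : Additive (Gamma0 M₀) →+ ZMod n}
    {h h' : modularFunctionFieldBar M₀} (hk : HasKummer φ h) (hk' : HasKummer φ h') :
    redInf N₁ A n (h : LaurentSeries ℚ̄) = redInf N₁ A n (h' : LaurentSeries ℚ̄) := by
  have hinv : redInf N₁ A n ((h'⁻¹ : modularFunctionFieldBar M₀) : LaurentSeries ℚ̄) =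
      -redInf N₁ A n (h' : LaurentSeries ℚ̄) := by
    have h1 : cl A π ((h'⁻¹ : modularFunctionFieldBar M₀) : LaurentSeries ℚ̄) +
        cl A π (h' : LaurentSeries ℚ̄) = 0 := by
      rw [← cl_mul IsLocalRing.residue_surjective (hC.scalable_bar (inv_ne_zero hk'.1))
        (hC.scalable_bar hk'.1), ← MulMemClass.coe_mul, inv_mul_cancel₀ hk'.1, OneMemClass.coe_one,
        cl_one IsLocalRing.residue_surjective]
    rw [redInf, redInf, eq_neg_of_add_eq_zero_left h1, QuotientAddGroup.mk_neg]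
  have key := red_relation hC (hvM := dvd_mul_left v _) (I := Fin 0) (J := Fin 2)
    Fin.elim0 Fin.elim0 Fin.elim0 (fun j => j.elim0)
    (fun _ => 0) ![φ, -φ] ![h, h'⁻¹] (by intro i; fin_cases i; exacts [hk, hk'.neg]) fun δ => by
      rw [Fin.sum_univ_two, Fin.sum_univ_zero]
      simp
  rw [Fin.sum_univ_two, Fin.sum_univ_zero, zero_add] at key
  simp only [Matrix.cons_val_zero, Matrix.cons_val_one] at key
  rw [hinv, add_neg_eq_zero] at key
  exact key

/-- A chosen Kummer function. -/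
def kum {M : ℕ} [NeZero M] (φ : Period.H M (ZMod n) (ZMod n)) : modularFunctionFieldBar M :=
  (exists_kummer φ).choose

theorem hasKummer_kum {M : ℕ} [NeZero M] (φ : Period.H M (ZMod n) (ZMod n)) :
    HasKummer (φ : Additive (Gamma0 M) →+ ZMod n) (kum φ) :=
  (exists_kummer φ).choose_spec.1

theorem hasKummer_galT_kum {M : ℕ} [NeZero M] (σ : Γℚ) (φ : Period.H M (ZMod n) (ZMod n)) :
    HasKummer (galT σ φ : Additive (Gamma0 M) →+ ZMod n) (galF σ (kum φ)) :=
  (exists_kummer φ).choose_spec.2 σ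

/-- Reduction at the cusp of a torsion class. -/
def redC (hC : Cond N₁ v A) (c : (ZMod v)ˣ) : Period.H M₀ (ZMod n) (ZMod n) →+ RedQ N₁ A n :=
  AddMonoidHom.mk' (fun φ => redFun hC n c (kum φ)) fun φ ψ => by
    have hinv : redFun hC n c (kum (φ + ψ))⁻¹ = -redFun hC n c (kum (φ + ψ)) := by
      have h0 := (hasKummer_kum (φ + ψ)).1
      have h1 : cl A π (tauQ hC.prime hC.ndvd c (kum (φ + ψ))⁻¹) +
          cl A π (tauQ hC.prime hC.ndvd c (kum (φ + ψ))) = 0 := by
        rw [← cl_mul IsLocalRing.residue_surjective (hC.scalable_tau c (inv_ne_zero h0))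
          (hC.scalable_tau c h0), ← map_mul, inv_mul_cancel₀ h0, map_one,
          cl_one IsLocalRing.residue_surjective]
      rw [redFun, redFun, eq_neg_of_add_eq_zero_left h1, QuotientAddGroup.mk_neg]
    have key := red_relation hC (hvM := dvd_mul_left v _) (I := Fin 3) (J := Fin 0)
      (fun _ => c) ![(φ : Additive (Gamma0 M₀) →+ ZMod n), ψ,
        -((φ + ψ : Period.H M₀ (ZMod n) (ZMod n)) : Additive (Gamma0 M₀) →+ ZMod n)]
      ![kum φ, kum ψ, (kum (φ + ψ))⁻¹]
      (by intro i; fin_cases i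
          exacts [hasKummer_kum φ, hasKummer_kum ψ, (hasKummer_kum (φ + ψ)).neg])
      Fin.elim0 Fin.elim0 Fin.elim0 (fun j => j.elim0) fun δ => by
        rw [Fin.sum_univ_three, Fin.sum_univ_zero]
        simp
    rw [Fin.sum_univ_three, Fin.sum_univ_zero, add_zero] at key
    simp only [Matrix.cons_val_zero, Matrix.cons_val_one, Matrix.cons_val_two] at key
    erw [hinv, add_neg_eq_zero] at key
    exact key.symm

theorem redC_apply (hC : Cond N₁ v A) (c : (ZMod v)ˣ) (φ : Period.H M₀ (ZMod n) (ZMod n)) :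
    redC hC c φ = redFun hC n c (kum φ) := rfl

theorem redC_of_kummer (hC : Cond N₁ v A) (c : (ZMod v)ˣ) (φ : Period.H M₀ (ZMod n) (ZMod n))
    {h : modularFunctionFieldBar M₀} (hk : HasKummer (φ : Additive (Gamma0 M₀) →+ ZMod n) h) :
    redC hC c φ = redFun hC n c h :=
  redFun_eq hC c (hasKummer_kum φ) hk

/-- **Inertia moves the cusp.** -/
theorem redC_galT (hC : Cond N₁ v A) {σ : Γℚ} (hσ : σ ∈ A.inertiaSubgroupIn ℚ) (a : (ZMod v)ˣ)
    (ha : σ (zetaQ v : ℚ̄) = (zetaQ v : ℚ̄) ^ (a : ZMod v).val) (c : (ZMod v)ˣ)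
    (φ : Period.H M₀ (ZMod n) (ZMod n)) : redC hC c (galT σ φ) = redC hC (c * a) φ := by
  rw [redC_of_kummer hC c _ (hasKummer_galT_kum σ φ), redC_apply, redFun, redFun,
    show tauQ hC.prime hC.ndvd c (galF σ (kum φ)) =
      coeffMap (σ : ℚ̄ →+* ℚ̄) (tauQ hC.prime hC.ndvd (c * a) (kum φ)) by
      rw [coeffMap_tauQ_gal hC.prime hC.ndvd σ a ha, mul_inv_cancel_right],
    cl_coeffMap_inertia hσ (hC.scalable_tau _ (hasKummer_kum φ).1)]

/-- **Relations between translates at the cusps and translations.** -/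
theorem redC_relation (hC : Cond N₁ v A) {hvM : v ∣ M₀} {I J : Type} [Fintype I] [Fintype J]
    (c : I → (ZMod v)ˣ) (φ : I → Period.H M₀ (ZMod n) (ZMod n))
    (b : J → ZMod v) (φ' : J → Period.H M₀ (ZMod n) (ZMod n))
    (hsum : ∀ δ : GammaP hvM,
      ∑ i, (φ i : Additive (Gamma0 M₀) →+ ZMod n) (Additive.ofMul (coC (c i) δ)) +
      ∑ j, (φ' j : Additive (Gamma0 M₀) →+ ZMod n) (Additive.ofMul (coT (b j) δ)) = 0)
    (h0 : ∑ j, φ' j = 0) :
    ∑ i, redC hC (c i) (φ i) = 0 := by
  classical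
  have key := red_relation hC c (fun i => (φ i : Additive (Gamma0 M₀) →+ ZMod n))
    (fun i => kum (φ i)) (fun i => hasKummer_kum _) b
    (fun j => (φ' j : Additive (Gamma0 M₀) →+ ZMod n)) (fun j => kum (φ' j))
    (fun j => hasKummer_kum _) hsum
  -- translations are invisible
  have key' := red_relation hC (hvM := hvM) (I := Fin 0) (J := J) Fin.elim0 Fin.elim0 Fin.elim0
    (fun i => i.elim0) (fun _ => 0) (fun j => (φ' j : Additive (Gamma0 M₀) →+ ZMod n))
    (fun j => kum (φ' j)) (fun j => hasKummer_kum _) fun δ => by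
      rw [Fin.sum_univ_zero, zero_add]
      have := congrArg (fun f : Period.H M₀ (ZMod n) (ZMod n) =>
        (f : Additive (Gamma0 M₀) →+ ZMod n) (Additive.ofMul (coT 0 δ))) h0
      simpa [AddSubmonoidClass.coe_finsetSum] using this
  rw [Fin.sum_univ_zero, zero_add] at key'
  rw [key', add_zero] at key
  exact key

end FLTAgent.Lower.Levels.Gauss
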