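import Mathlib
import Fermat.Agent.Lower.Levels.Inertia.RedHom

/-!
# The algebra of the twist at the cusps

For a crossed homomorphism `c` and its twist `twY η c`, the values at the conjugates by the
cusp matrices are combinations of the translates `Phi` by `u / v` (`twY_coT`, `twY_coC`).
`exists_translate_relation`: for `η` of odd order,
`v (y|γ_{b a²} + y|γ_b - (η a + (η a)⁻¹) y|γ_{b a})` is a combination of translates of `y` with
coefficients adding up to zero (an identity of Gauss sum type, `etaKernel`).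
-/

set_option autoImplicit false
set_option linter.unusedSectionVars false
set_option linter.style.haveILetI false

noncomputable section

open CongruenceSubgroup
open scoped MatrixGroups

namespace FLTAgent.Lower.Levels.Gauss

open FLTAgent.HeckeH (matOf M2)

variable {N₁ v : ℕ} [NeZero N₁] [NeZero v] {R : Type*} [CommRing R]

local notation "M₀" => N₁ * v * v

open Classical in
/-- A character, extended by zero. -/
def etaZ (η : (ZMod v)ˣ →* Rˣ) (z : ZMod v) : R := if h : IsUnit z then (η h.unit : R) else 0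

variable (η : (ZMod v)ˣ →* Rˣ)

theorem etaZ_coe (u : (ZMod v)ˣ) : etaZ η (u : ZMod v) = η u := by
  rw [etaZ, dif_pos u.isUnit, show u.isUnit.unit = u from Units.ext rfl]

theorem etaZ_inv_coe (u : (ZMod v)ˣ) : etaZ η⁻¹ (u : ZMod v) = ((η u)⁻¹ : Rˣ) := by
  rw [etaZ_coe]; rfl

theorem etaZ_zero [Fact v.Prime] : etaZ η 0 = 0 := dif_neg (not_isUnit_zero)

theorem etaZ_mul [Fact v.Prime] (x z : ZMod v) : etaZ η (x * z) = etaZ η x * etaZ η z := by
  rcases eq_or_ne x 0 with rfl | hx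
  · rw [zero_mul, etaZ_zero, zero_mul]
  rcases eq_or_ne z 0 with rfl | hz
  · rw [mul_zero, etaZ_zero, mul_zero]
  obtain ⟨u, rfl⟩ := hx.isUnit
  obtain ⟨w, rfl⟩ := hz.isUnit
  rw [← Units.val_mul, etaZ_coe, etaZ_coe, etaZ_coe, map_mul, Units.val_mul]

theorem sum_units [Fact v.Prime] (F : ZMod v → R) :
    ∑ u : (ZMod v)ˣ, (η u : R) * F u = ∑ z, etaZ η z * F z := by
  classical
  rw [← Finset.add_sum_erase _ _ (Finset.mem_univ (0 : ZMod v)), etaZ_zero, zero_mul, zero_add]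
  refine Finset.sum_bij (fun u _ => (u : ZMod v)) (fun u _ => Finset.mem_erase.mpr
    ⟨u.ne_zero, Finset.mem_univ _⟩) (fun u _ w _ h => Units.ext h)
    (fun z hz => ⟨Units.mk0 z (Finset.ne_of_mem_erase hz), Finset.mem_univ _, rfl⟩)
    fun u _ => by rw [etaZ_coe]

variable (c : Gamma0 (N₁ * v) → R)

/-- `c` at the conjugate by the translation `u / v`. -/
def Phi {hvM : v ∣ M₀} (u : ZMod v) (δ : GammaP hvM) : R :=
  c (twistElt (dvd_mul_left v N₁) dvd_rfl (δ : Gamma0 M₀) u)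

/-- The twist. -/
def twY (γ : Gamma0 M₀) : R := twistFun (dvd_mul_left v N₁) dvd_rfl η c γ

theorem twY_eq [Fact v.Prime] (γ : Gamma0 M₀) :
    twY η c γ = ∑ z, etaZ η⁻¹ z * c (twistElt (dvd_mul_left v N₁) dvd_rfl γ z) := by
  rw [twY, twistFun_apply, ← sum_units]
  rfl

variable {c} (hc : c ∈ Z1 R R ((η.comp (dUnit (dvd_mul_left v N₁))) ^ 2)⁻¹)

include hc

/-- Crossed homomorphisms under conjugation. -/
theorem c_twist_of_conj {δ₁ : Gamma0 M₀} (hd : dSq (dvd_mul_left v _) δ₁ = 1) {u : ZMod v}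
    (hidx : twistIdx v δ₁ u = u) {g h : Gamma0 (N₁ * v)} {A B C : M2} (hB : B.det ≠ 0)
    (hA : A * C = matOf δ₁ * A) (hg : transMat v u * A = matOf g * B)
    (hh : B * C = matOf h * B) :
    c (twistElt (dvd_mul_left v N₁) dvd_rfl δ₁ u) =
      etaZ η⁻¹ ((matOf g 1 1 : ℤ) : ZMod v) ^ 2 * c h := by
  set t := twistElt (dvd_mul_left v N₁) (dvd_refl M₀) δ₁ u
  have ht : transMat v u * matOf δ₁ = matOf t * transMat v u := by
    have := transMat_mul (dvd_mul_left v N₁) (dvd_refl M₀) δ₁ u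
    rwa [hidx] at this
  have htg : t * g = g * h := by
    refine HeckeH.matOf_injective (HeckeH.mul_right_cancel_of_det_ne hB ?_)
    rw [HeckeH.matOf_mul, HeckeH.matOf_mul, mul_assoc, ← hg, ← mul_assoc, ← ht, mul_assoc, ← hA,
      ← mul_assoc, hg, mul_assoc, hh, mul_assoc]
  have hχt : ((η.comp (dUnit (dvd_mul_left v N₁))) ^ 2)⁻¹ t = 1 := by
    rw [MonoidHom.inv_apply, MonoidHom.pow_apply, MonoidHom.comp_apply, coe_dUnit_twistElt,
      ← map_pow, inv_eq_one]
    rw [dSq, MonoidHom.pow_apply] at hd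
    rw [show dUnit _ δ₁ ^ 2 = 1 from hd, map_one]
  have h1 := hc t g
  rw [htg, hc g h, hχt, Units.val_one, one_smul] at h1
  have hval : ((((η.comp (dUnit (dvd_mul_left v N₁))) ^ 2)⁻¹ g : Rˣ) : R) =
      etaZ η⁻¹ ((matOf g 1 1 : ℤ) : ZMod v) ^ 2 := by
    rw [← coe_dUnit (dvd_mul_left v N₁) g, etaZ_inv_coe, MonoidHom.inv_apply, MonoidHom.pow_apply,
      MonoidHom.comp_apply, ← inv_pow, Units.val_pow_eq_pow_val]
  rw [smul_eq_mul, hval] at h1
  linear_combination -h1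

omit hc in
theorem dSq_coT {hvM : v ∣ M₀} (b : ZMod v) (δ : GammaP hvM) :
    dSq (dvd_mul_left v _) (coT b δ) = 1 := by
  refine Units.ext ?_
  have e : matOf (coT b δ) 1 1 =
      matOf (twistElt (dvd_mul_left v N₁) dvd_rfl (δ : Gamma0 M₀) b) 1 1 := rfl
  have h := coe_dUnit_twistElt (dvd_mul_left v N₁) (dvd_refl M₀) (dvd_mul_left v N₁)
    (δ : Gamma0 M₀) b
  rw [Units.ext_iff, coe_dUnit, coe_dUnit] at h
  have h1 : dSq hvM (δ : Gamma0 M₀) = 1 := δ.2
  rw [dSq, MonoidHom.pow_apply, Units.ext_iff, Units.val_pow_eq_pow_val, coe_dUnit,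
    Units.val_one] at h1
  rw [dSq, MonoidHom.pow_apply, Units.val_pow_eq_pow_val, coe_dUnit, e, h, h1, Units.val_one]

omit hc in
theorem dSq_coC {hvM : v ∣ M₀} (a : (ZMod v)ˣ) (δ : GammaP hvM) :
    dSq (dvd_mul_left v _) (coC a δ) = 1 := by
  refine Units.ext ?_
  have e : matOf (coC a δ) 1 1 = cuspC N₁ v a * matOf (δ : Gamma0 M₀) 0 1 +
      matOf (δ : Gamma0 M₀) 1 1 := (conj_entries a _).2
  have h1 : dSq hvM (δ : Gamma0 M₀) = 1 := δ.2
  rw [dSq, MonoidHom.pow_apply, Units.ext_iff, Units.val_pow_eq_pow_val, coe_dUnit,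
    Units.val_one] at h1
  rw [dSq, MonoidHom.pow_apply, Units.val_pow_eq_pow_val, coe_dUnit, e, Units.val_one, ← h1]
  congr 1
  simp [cuspC]

omit hc in
theorem twistIdx_of_dSq {γ : Gamma0 M₀} (h : dSq (dvd_mul_left v _) γ = 1) (u : ZMod v) :
    twistIdx v γ u = u := by
  rw [dSq, MonoidHom.pow_apply, Units.ext_iff, Units.val_pow_eq_pow_val, coe_dUnit,
    Units.val_one] at h
  rw [twistIdx, h, mul_one]

/-- Translates compose. -/
theorem c_twist_coT [Fact v.Prime] {hvM : v ∣ M₀} (b u : ZMod v) (δ : GammaP hvM) :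
    c (twistElt (dvd_mul_left v N₁) dvd_rfl (coT b δ) u) = Phi c (u + b) δ := by
  obtain ⟨e, he⟩ : (v : ℤ) ∣ (u.val : ℤ) + (b.val : ℤ) - ((u + b).val : ℤ) := by
    rw [← ZMod.intCast_zmod_eq_zero_iff_dvd]
    push_cast
    rw [ZMod.natCast_zmod_val, ZMod.natCast_zmod_val, ZMod.natCast_zmod_val, sub_self]
  set g : Gamma0 (N₁ * v) := HeckeH.mkGamma0 1 e 0 1 (by ring) (dvd_zero _)
  have hv0 : (v : ℤ) ≠ 0 := by exact_mod_cast NeZero.ne v
  have hdet : ((v : ℤ) • transMat v (u + b)).det ≠ 0 := by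
    rw [Matrix.det_smul, det_transMat]
    exact mul_ne_zero (pow_ne_zero _ hv0)
      (by exact_mod_cast Nat.mul_ne_zero (NeZero.ne v) (NeZero.ne v))
  have hg : transMat v u * transMat v b = matOf g * ((v : ℤ) • transMat v (u + b)) := by
    rw [HeckeH.matOf_mkGamma0, transMat, transMat, transMat, Matrix.mul_smul, Matrix.mul_fin_two,
      Matrix.mul_fin_two]
    ext i j
    fin_cases i <;> fin_cases j <;> simp [-ZMod.natCast_val] <;>
      first | ring1 | linear_combination (v : ℤ) * he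
  have hh : ((v : ℤ) • transMat v (u + b)) * matOf (δ : Gamma0 M₀) =
      matOf (twistElt (dvd_mul_left v N₁) dvd_rfl (δ : Gamma0 M₀) (u + b)) *
        ((v : ℤ) • transMat v (u + b)) := by
    have h := transMat_mul (dvd_mul_left v N₁) (dvd_refl M₀) (δ : Gamma0 M₀) (u + b)
    rw [twistIdx_GammaP] at h
    rw [Matrix.smul_mul, Matrix.mul_smul, h]
  rw [c_twist_of_conj η hc (dSq_coT b δ) (twistIdx_of_dSq (dSq_coT b δ) u) hdet (matOf_coT b δ)
    hg hh]
  have h1 : etaZ η⁻¹ ((matOf g 1 1 : ℤ) : ZMod v) = 1 := by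
    rw [HeckeH.matOf_mkGamma0]
    show etaZ η⁻¹ (((1 : ℤ)) : ZMod v) = 1
    rw [Int.cast_one, ← Units.val_one, etaZ_coe, map_one, Units.val_one]
  rw [h1, one_pow, one_mul]
  rfl

/-- The twist at a translation is a combination of translates. -/
theorem twY_coT [Fact v.Prime] {hvM : v ∣ M₀} (t : ZMod v) (δ : GammaP hvM) :
    twY η c (coT t δ) = ∑ z, etaZ η⁻¹ (z - t) * Phi c z δ := by
  rw [twY_eq]
  simp only [c_twist_coT η hc]
  exact Fintype.sum_equiv (Equiv.addRight t) _ _ fun z => by simp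

omit hc in
theorem natCast_cuspC (a : (ZMod v)ˣ) :
    ((cuspC N₁ v a / (v : ℤ) : ℤ) : ZMod v) = (N₁ : ZMod v) * (a : ZMod v) ∧
      cuspC N₁ v a = (v : ℤ) * ((N₁ : ℤ) * ((a : ZMod v).val : ℤ)) := by
  have e : cuspC N₁ v a = (v : ℤ) * ((N₁ : ℤ) * ((a : ZMod v).val : ℤ)) := by
    rw [cuspC]; push_cast; ring
  refine ⟨?_, e⟩
  rw [e, Int.mul_ediv_cancel_left _ (by exact_mod_cast NeZero.ne v)]
  push_cast
  rw [ZMod.natCast_zmod_val]

/-- Away from the bad index, a translate at a cusp is a translate. -/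
theorem c_twist_coC [Fact v.Prime] {hvM : v ∣ M₀} (a : (ZMod v)ˣ) (u w : ZMod v)
    (hw : u = (1 + u * ((N₁ : ZMod v) * a)) * w) (δ : GammaP hvM) :
    c (twistElt (dvd_mul_left v N₁) dvd_rfl (coC a δ) u) =
      etaZ η⁻¹ (1 - w * ((N₁ : ZMod v) * a)) ^ 2 * Phi c w δ := by
  set m : ℤ := (N₁ : ℤ) * ((a : ZMod v).val : ℤ) with hm
  have hCm : cuspC N₁ v a = (v : ℤ) * m := (natCast_cuspC a).2
  have hmz : (m : ZMod v) = (N₁ : ZMod v) * a := by
    rw [hm]; push_cast; rw [ZMod.natCast_zmod_val]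
  obtain ⟨G, hG⟩ : (v : ℤ) ∣ (u.val : ℤ) - (1 + (u.val : ℤ) * m) * (w.val : ℤ) := by
    rw [← ZMod.intCast_zmod_eq_zero_iff_dvd]
    push_cast
    rw [ZMod.natCast_zmod_val, ZMod.natCast_zmod_val, hmz, sub_eq_zero]
    exact hw
  set g : Gamma0 (N₁ * v) := HeckeH.mkGamma0 (1 + (u.val : ℤ) * m) G (cuspC N₁ v a)
    (1 - m * (w.val : ℤ)) (by rw [hCm]; linear_combination m * hG)
    (by rw [hCm, hm]; push_cast; exact ⟨((a : ZMod v).val : ℤ), by ring⟩) with hgdef
  have hg : transMat v u * ((gamC N₁ v a : SL(2, ℤ)) : M2) = matOf g * transMat v w := by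
    rw [hgdef, HeckeH.matOf_mkGamma0, transMat, transMat]
    show _ * !![(1 : ℤ), 0; cuspC N₁ v a, 1] = _
    rw [Matrix.mul_fin_two, Matrix.mul_fin_two, hCm]
    ext i j
    fin_cases i <;> fin_cases j <;> simp [-ZMod.natCast_val] <;>
      first | ring1 | linear_combination hG
  have hh : transMat v w * matOf (δ : Gamma0 M₀) =
      matOf (twistElt (dvd_mul_left v N₁) dvd_rfl (δ : Gamma0 M₀) w) * transMat v w := by
    have h := transMat_mul (dvd_mul_left v N₁) (dvd_refl M₀) (δ : Gamma0 M₀) w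
    rwa [twistIdx_GammaP] at h
  rw [c_twist_of_conj η hc (dSq_coC a δ) (twistIdx_of_dSq (dSq_coC a δ) u)
    (det_transMat_ne v w) (matOf_coC a δ) hg hh, hgdef, HeckeH.matOf_mkGamma0]
  congr 2
  show etaZ η⁻¹ (((1 - m * (w.val : ℤ)) : ℤ) : ZMod v) = _
  push_cast
  rw [ZMod.natCast_zmod_val, hmz, mul_comm]

/-- The bad index scales. -/
theorem c_twist_coC_bad [Fact v.Prime] {hvM : v ∣ M₀} (a : (ZMod v)ˣ) (u u' : ZMod v)
    (hu : u * ((N₁ : ZMod v) * a) = -1) (hu' : u' * (N₁ : ZMod v) = -1) (δ : GammaP hvM) :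
    c (twistElt (dvd_mul_left v N₁) dvd_rfl (coC a δ) u) =
      etaZ η⁻¹ (a : ZMod v) ^ 2 *
        c (twistElt (dvd_mul_left v N₁) dvd_rfl (coC (1 : (ZMod v)ˣ) δ) u') := by
  set m : ℤ := (N₁ : ℤ) * ((a : ZMod v).val : ℤ) with hm
  set m' : ℤ := (N₁ : ℤ) * (((1 : (ZMod v)ˣ) : ZMod v).val : ℤ) with hm'
  have hCm : cuspC N₁ v a = (v : ℤ) * m := (natCast_cuspC a).2
  have hCm' : cuspC N₁ v (1 : (ZMod v)ˣ) = (v : ℤ) * m' := (natCast_cuspC _).2
  have hmz : (m : ZMod v) = (N₁ : ZMod v) * a := by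
    rw [hm]; push_cast; rw [ZMod.natCast_zmod_val]
  have hmz' : (m' : ZMod v) = (N₁ : ZMod v) := by
    rw [hm']; push_cast; rw [ZMod.natCast_zmod_val, mul_one]
  obtain ⟨P, hP⟩ : (v : ℤ) ∣ 1 + (u.val : ℤ) * m := by
    rw [← ZMod.intCast_zmod_eq_zero_iff_dvd]
    push_cast
    rw [ZMod.natCast_zmod_val, hmz, hu, add_neg_cancel]
  obtain ⟨P', hP'⟩ : (v : ℤ) ∣ 1 + (u'.val : ℤ) * m' := by
    rw [← ZMod.intCast_zmod_eq_zero_iff_dvd]
    push_cast
    rw [ZMod.natCast_zmod_val, hmz', hu', add_neg_cancel]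
  have hv0 : (v : ℤ) ≠ 0 := by exact_mod_cast NeZero.ne v
  set g : Gamma0 (N₁ * v) := HeckeH.mkGamma0 ((1 + (u.val : ℤ) * m) - (u.val : ℤ) * m')
    (-P * (u'.val : ℤ) + P' * (u.val : ℤ)) ((v : ℤ) * m - (v : ℤ) * m')
    ((1 + (u'.val : ℤ) * m') - m * (u'.val : ℤ))
    (by linear_combination ((u'.val : ℤ) * (m' - m)) * hP + ((u.val : ℤ) * (m - m')) * hP')
    (by rw [hm, hm']; push_cast; exact ⟨((a : ZMod v).val : ℤ) -
      (((1 : (ZMod v)ˣ) : ZMod v).val : ℤ), by simp only [Units.val_one]; ring⟩) with hgdef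
  set B : M2 := transMat v u' * ((gamC N₁ v (1 : (ZMod v)ˣ) : SL(2, ℤ)) : M2) with hB
  have hBdet : B.det ≠ 0 := by
    rw [hB, Matrix.det_mul]
    exact mul_ne_zero (det_transMat_ne v u') (det_gamC_pos _).ne'
  have hg : transMat v u * ((gamC N₁ v a : SL(2, ℤ)) : M2) = matOf g * B := by
    rw [hB, hgdef, HeckeH.matOf_mkGamma0, transMat, transMat]
    show _ * !![(1 : ℤ), 0; cuspC N₁ v a, 1] = _ * (_ * !![(1 : ℤ), 0; cuspC N₁ v 1, 1])
    rw [Matrix.mul_fin_two, Matrix.mul_fin_two, Matrix.mul_fin_two, hCm, hCm']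
    ext i j
    fin_cases i <;> fin_cases j <;> simp [-ZMod.natCast_val]
    · linear_combination (-((v : ℤ) * m' * (u'.val : ℤ))) * hP +
        ((v : ℤ) * m' * (u.val : ℤ)) * hP'
    · linear_combination (-(u'.val : ℤ)) * hP + (u.val : ℤ) * hP'
    · ring
    · ring
  have hh : B * matOf (δ : Gamma0 M₀) = matOf (twistElt (dvd_mul_left v N₁) dvd_rfl
      (coC (1 : (ZMod v)ˣ) δ) u') * B := by
    have h := transMat_mul (dvd_mul_left v N₁) (dvd_refl M₀) (coC (1 : (ZMod v)ˣ) δ) u'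
    rw [twistIdx_of_dSq (dSq_coC _ δ)] at h
    rw [hB, Matrix.mul_assoc, matOf_coC, ← Matrix.mul_assoc, h, Matrix.mul_assoc]
  rw [c_twist_of_conj η hc (dSq_coC a δ) (twistIdx_of_dSq (dSq_coC a δ) u) hBdet (matOf_coC a δ)
    hg hh, hgdef, HeckeH.matOf_mkGamma0]
  congr 2
  show etaZ η⁻¹ ((((1 + (u'.val : ℤ) * m') - m * (u'.val : ℤ)) : ℤ) : ZMod v) = _
  push_cast
  rw [ZMod.natCast_zmod_val, hmz, hmz']
  congr 1
  linear_combination (1 - (a : ZMod v)) * hu'

/-- The coefficients at the cusp. -/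
def cuspCoef (N₁ : ℕ) (a : (ZMod v)ˣ) (w : ZMod v) : R :=
  etaZ η⁻¹ (w * (1 - w * ((N₁ : ZMod v) * a)))

/-- `y` at a cusp. -/
theorem twY_coC [Fact v.Prime] {hvM : v ∣ M₀} (hN : (N₁ : ZMod v) ≠ 0) (a : (ZMod v)ˣ)
    (δ : GammaP hvM) :
    twY η c (coC a δ) = ∑ w, cuspCoef η N₁ a w * Phi c w δ +
      etaZ η⁻¹ (a : ZMod v) * (etaZ η⁻¹ (-(N₁ : ZMod v)⁻¹) *
        c (twistElt (dvd_mul_left v N₁) dvd_rfl (coC (1 : (ZMod v)ˣ) δ) (-(N₁ : ZMod v)⁻¹))) := by
  classical
  set m : ZMod v := (N₁ : ZMod v) * a with hm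
  have hm0 : m ≠ 0 := mul_ne_zero hN a.ne_zero
  have hu₀ : -m⁻¹ * m = -1 := by rw [neg_mul, inv_mul_cancel₀ hm0]
  rw [twY_eq, ← Finset.add_sum_erase _ _ (Finset.mem_univ (-m⁻¹)), add_comm]
  congr 1
  · symm
    rw [← Finset.add_sum_erase _ _ (Finset.mem_univ m⁻¹),
      show cuspCoef η N₁ a m⁻¹ = 0 by
        rw [cuspCoef, ← hm, inv_mul_cancel₀ hm0, sub_self, mul_zero, etaZ_zero],
      zero_mul, zero_add]
    have hne : ∀ w ∈ Finset.univ.erase m⁻¹, 1 - w * m ≠ 0 := fun w hw h =>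
      Finset.ne_of_mem_erase hw (eq_inv_of_mul_eq_one_left (sub_eq_zero.mp h).symm)
    have hne' : ∀ u ∈ Finset.univ.erase (-m⁻¹), 1 + u * m ≠ 0 := fun u hu h =>
      Finset.ne_of_mem_erase hu (by field_simp; linear_combination h)
    refine Finset.sum_nbij' (fun w => w / (1 - w * m)) (fun u => u / (1 + u * m))
      (fun w hw => ?_) (fun u hu => ?_) (fun w hw => ?_) (fun u hu => ?_) fun w hw => ?_
    · refine Finset.mem_erase.mpr ⟨fun h => ?_, Finset.mem_univ _⟩
      have := hne w hw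
      field_simp at h
      exact one_ne_zero (α := ZMod v) (by linear_combination h)
    · refine Finset.mem_erase.mpr ⟨fun h => ?_, Finset.mem_univ _⟩
      have := hne' u hu
      field_simp at h
      exact one_ne_zero (α := ZMod v) (by linear_combination -h)
    · have := hne w hw
      field_simp
      ring
    · have := hne' u hu
      field_simp
      ring
    · have h1 := hne w hw
      rw [c_twist_coC η hc a (w / (1 - w * m)) w (by rw [← hm]; field_simp; ring), ← hm, ← mul_assoc,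
        pow_two, ← etaZ_mul, ← etaZ_mul, cuspCoef, ← hm]
      congr 2
      field_simp
  · rw [c_twist_coC_bad η hc a (-m⁻¹) (-(N₁ : ZMod v)⁻¹) hu₀
      (by rw [neg_mul, inv_mul_cancel₀ hN]), ← mul_assoc, ← mul_assoc, pow_two, ← etaZ_mul,
      ← etaZ_mul, ← etaZ_mul]
    congr 2
    rw [hm]
    have := a.ne_zero
    field_simp

omit hc in
theorem sum_cuspCoef [Fact v.Prime] (a : (ZMod v)ˣ) :
    ∑ w, cuspCoef η N₁ a w = (η a : R) * ∑ w, cuspCoef η N₁ (1 : (ZMod v)ˣ) w := by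
  rw [Finset.mul_sum]
  refine Fintype.sum_equiv (Equiv.mulRight₀ (a : ZMod v) a.ne_zero) _ _ fun w => ?_
  show _ = (η a : R) * cuspCoef η N₁ 1 (w * (a : ZMod v))
  rw [cuspCoef, cuspCoef, Units.val_one, mul_one,
    show w * (a : ZMod v) * (1 - w * (a : ZMod v) * (N₁ : ZMod v)) =
      (a : ZMod v) * (w * (1 - w * ((N₁ : ZMod v) * a))) by ring,
    etaZ_mul η⁻¹ (a : ZMod v), etaZ_inv_coe, Units.mul_inv_cancel_left]

omit hc in
theorem eta_neg_one [Fact v.Prime] {e : ℕ} (he : Odd e) (hη : ∀ u, η u ^ e = 1) :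
    η (-1) = 1 := by
  obtain ⟨k, rfl⟩ := he
  have h2 : η (-1) ^ 2 = 1 := by rw [← map_pow]; simp
  have := hη (-1)
  rwa [pow_succ, pow_mul, h2, one_pow, one_mul] at this

omit hc in
/-- The convolution of `η` with its inverse. -/
theorem etaKernel [Fact v.Prime] (hε : η (-1) = 1) (z : ZMod v) :
    ∑ x, etaZ η x * etaZ η⁻¹ (z - x) =
      ((∑ t, etaZ η t) - 1) + if z = 0 then (v : R) - ∑ t, etaZ η t else 0 := by
  by_cases hz : z = 0
  · subst hz
    rw [if_pos rfl, sub_add_sub_cancel', ← sum_units]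
    have : ∀ x : (ZMod v)ˣ, (η x : R) * etaZ η⁻¹ (0 - (x : ZMod v)) = 1 := fun x => by
      rw [zero_sub, ← Units.val_neg, etaZ_inv_coe, ← neg_one_mul x, map_mul, hε, one_mul,
        Units.mul_inv]
    rw [Finset.sum_congr rfl fun x _ => this x, Finset.sum_const, Finset.card_univ,
      ZMod.card_units, nsmul_eq_mul, mul_one, Nat.cast_sub (Fact.out : v.Prime).one_le,
      Nat.cast_one]
  · rw [if_neg hz, add_zero,
      ← Finset.add_sum_erase _ _ (Finset.mem_univ z), sub_self, etaZ_zero, mul_zero, zero_add]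
    have h1 : (∑ t, etaZ η t) - 1 = ∑ t ∈ Finset.univ.erase (-1 : ZMod v), etaZ η t := by
      rw [← Finset.add_sum_erase _ _ (Finset.mem_univ (-1 : ZMod v)),
        show etaZ η (-1 : ZMod v) = 1 by
          rw [← Units.val_one, ← Units.val_neg, etaZ_coe, hε, Units.val_one], add_sub_cancel_left]
    rw [h1]
    have hne : ∀ x ∈ Finset.univ.erase z, z - x ≠ 0 := fun x hx h =>
      Finset.ne_of_mem_erase hx (sub_eq_zero.mp h).symm
    have hne' : ∀ t ∈ Finset.univ.erase (-1 : ZMod v), 1 + t ≠ 0 := fun t ht h =>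
      Finset.ne_of_mem_erase ht (eq_neg_of_add_eq_zero_right h)
    refine Finset.sum_nbij' (fun x => x / (z - x)) (fun t => t * z / (1 + t))
      (fun x hx => ?_) (fun t ht => ?_) (fun x hx => ?_) (fun t ht => ?_) fun x hx => ?_
    · refine Finset.mem_erase.mpr ⟨fun h => ?_, Finset.mem_univ _⟩
      have := hne x hx
      field_simp at h
      exact hz (by linear_combination h)
    · refine Finset.mem_erase.mpr ⟨fun h => ?_, Finset.mem_univ _⟩
      have := hne' t ht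
      field_simp at h
      exact one_ne_zero (α := ZMod v) (by linear_combination -h)
    · have := hne x hx
      field_simp
      ring_nf
      exact mul_inv_cancel_right₀ hz x
    · have := hne' t ht
      field_simp
      ring_nf
    · obtain ⟨w, hw⟩ := (hne x hx).isUnit
      rw [← hw, div_eq_mul_inv, etaZ_mul, etaZ_inv_coe, ← Units.val_inv_eq_inv_val, etaZ_coe,
        map_inv]

set_option maxHeartbeats 400000 in
/-- **The relation.** -/
theorem exists_translate_relation [Fact v.Prime] (hN : (N₁ : ZMod v) ≠ 0) {e : ℕ} (he : Odd e)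
    (hη : ∀ u, η u ^ e = 1) (a b : (ZMod v)ˣ) :
    ∃ r : ZMod v → R, ∑ t, r t = 0 ∧ ∀ {hvM : v ∣ M₀} (δ : GammaP hvM),
      (v : R) * (twY η c (coC (b * a * a) δ) + twY η c (coC b δ) -
        ((η a : R) + ((η a)⁻¹ : Rˣ)) * twY η c (coC (b * a) δ)) =
          ∑ t, r t * twY η c (coT t δ) := by
  classical
  obtain ⟨K, hK⟩ : ∃ K : ZMod v → R, K = fun w => cuspCoef η N₁ (b * a * a) w + cuspCoef η N₁ b w -
    ((η a : R) + ((η a)⁻¹ : Rˣ)) * cuspCoef η N₁ (b * a) w := ⟨_, rfl⟩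
  obtain ⟨S, hS⟩ : ∃ S : R, S = ∑ z, etaZ η z := ⟨_, rfl⟩
  have hinv : ((η a : Rˣ) : R) * ((η a)⁻¹ : Rˣ) = 1 := Units.mul_inv _
  have hK0 : ∑ w, K w = 0 := by
    rw [hK, Finset.sum_sub_distrib, Finset.sum_add_distrib, ← Finset.mul_sum,
      sum_cuspCoef η (b * a * a), sum_cuspCoef η b, sum_cuspCoef η (b * a), map_mul, map_mul,
      Units.val_mul, Units.val_mul]
    linear_combination -((η b : R) * ∑ w, cuspCoef η N₁ (1 : (ZMod v)ˣ) w) * hinv
  have hSS : S * S = ((v : R) - 1) * S := by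
    have h1 : ∀ x : (ZMod v)ˣ, (η x : R) * S = S := fun x => by
      rw [hS, Finset.mul_sum]
      exact Fintype.sum_equiv (Equiv.mulLeft₀ (x : ZMod v) x.ne_zero) _ _ fun z => by
        rw [← etaZ_coe η x, ← etaZ_mul]; rfl
    have h2 : S = ∑ x : (ZMod v)ˣ, (η x : R) := by
      rw [hS]
      simpa using (sum_units η fun _ => (1 : R)).symm
    nth_rw 1 [h2]
    rw [Finset.sum_mul, Finset.sum_congr rfl fun x _ => h1 x, Finset.sum_const, Finset.card_univ,
      ZMod.card_units, nsmul_eq_mul, Nat.cast_sub (Fact.out : v.Prime).one_le, Nat.cast_one]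
  have hε : η (-1) = 1 := eta_neg_one η he hη
  have hg : ∀ z, ∑ x, etaZ η x * etaZ η⁻¹ (z - x) =
      (S - 1) + if z = 0 then (v : R) - S else 0 := fun z => hS ▸ etaKernel η hε z
  refine ⟨fun t => (1 + S) * ∑ w, K w * etaZ η (t - w), ?_, fun δ => ?_⟩
  · rw [← Finset.mul_sum, Finset.sum_comm]
    have : ∀ w, ∑ t, K w * etaZ η (t - w) = K w * S := fun w => by
      rw [← Finset.mul_sum, hS]
      congr 1
      exact Fintype.sum_equiv (Equiv.subRight w) _ _ fun t => rfl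
    rw [Finset.sum_congr rfl fun w _ => this w, ← Finset.sum_mul, hK0, zero_mul, mul_zero]
  · have hD : twY η c (coC (b * a * a) δ) + twY η c (coC b δ) -
        ((η a : R) + ((η a)⁻¹ : Rˣ)) * twY η c (coC (b * a) δ) = ∑ w, K w * Phi c w δ := by
      rw [twY_coC η hc hN, twY_coC η hc hN, twY_coC η hc hN, hK]
      simp only [sub_mul, add_mul, mul_assoc, Finset.sum_sub_distrib, Finset.sum_add_distrib,
        ← Finset.mul_sum]
      simp only [Units.val_mul, etaZ_mul, etaZ_inv_coe]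
      have hinv' : ((η a : Rˣ) : R) * ((η a)⁻¹ : Rˣ) = 1 := hinv
      linear_combination (-(((η b)⁻¹ : Rˣ) : R) * (etaZ η⁻¹ (-(N₁ : ZMod v)⁻¹) *
        c (twistElt (dvd_mul_left v N₁) dvd_rfl (coC (1 : (ZMod v)ˣ) δ) (-(N₁ : ZMod v)⁻¹)))) *
          hinv'
    have hG : ∑ w, K w * ∑ t, etaZ η (t - w) * twY η c (coT t δ) =
        ((v : R) - S) * ∑ w, K w * Phi c w δ := by
      have h1 : ∀ w, ∑ t, etaZ η (t - w) * twY η c (coT t δ) =
          (S - 1) * ∑ z, Phi c z δ + ((v : R) - S) * Phi c w δ := by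
        intro w
        simp only [twY_coT η hc, Finset.mul_sum]
        rw [Finset.sum_comm]
        have h2 : ∀ z, ∑ t, etaZ η (t - w) * (etaZ η⁻¹ (z - t) * Phi c z δ) =
            ((S - 1) + if z - w = 0 then (v : R) - S else 0) * Phi c z δ := fun z => by
          rw [← hg, Finset.sum_mul]
          refine Fintype.sum_equiv (Equiv.subRight w) _ _ fun t => ?_
          show _ = etaZ η (t - w) * etaZ η⁻¹ (z - w - (t - w)) * Phi c z δ
          rw [sub_sub_sub_cancel_right, mul_assoc]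
        rw [Finset.sum_congr rfl fun z _ => h2 z]
        simp only [add_mul, Finset.sum_add_distrib, sub_eq_zero, ite_mul, zero_mul,
          Finset.sum_ite_eq', Finset.mem_univ, if_true]
      simp only [h1, mul_add, Finset.sum_add_distrib]
      rw [← Finset.sum_mul, hK0, zero_mul, zero_add, Finset.mul_sum]
      exact Finset.sum_congr rfl fun w _ => by ring
    rw [hD]
    have e2 : ∑ t, (1 + S) * (∑ w, K w * etaZ η (t - w)) * twY η c (coT t δ) =
        (1 + S) * ∑ w, K w * ∑ t, etaZ η (t - w) * twY η c (coT t δ) := by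
      simp only [Finset.mul_sum, Finset.sum_mul]
      rw [Finset.sum_comm]
      exact Finset.sum_congr rfl fun w _ => Finset.sum_congr rfl fun t _ => by ring
    rw [e2, hG]
    linear_combination (∑ w, K w * Phi c w δ) * hSS

end FLTAgent.Lower.Levels.Gauss
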