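import Mathlib
import Fermat.Agent.Lower.Levels.Inertia.Algebra

/-!
# Change of coefficients

`pushH` composes characters with an additive map of coefficients and `redPow k Ψ` reduces a
functional to `ℤ/p^k`; the Galois action commutes with them (`pushH_galH`, through the Tate
matrices). `redC_descend`: if the reduction of `m` times a class modulo `m n` vanishes, so does
the reduction of the class modulo `n` (the classes of series have no torsion).
-/

set_option autoImplicit false
set_option linter.unusedSectionVars false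
set_option linter.style.haveILetI false

noncomputable section

open CongruenceSubgroup ModularCurve
open scoped MatrixGroups

namespace FLTAgent.Lower.Levels.Gauss

local notation "ℚ̄" => AlgebraicClosure ℚ
local notation "Γℚ" => (AlgebraicClosure ℚ ≃ₐ[ℚ] AlgebraicClosure ℚ)
local notation "ι₀" => Reps.qbarEmb

section Push

variable {M : ℕ} {R B : Type*} [CommRing R] [CommRing B]

/-- Composition with an additive map of the coefficients. -/
def pushH (ψ : R →+ B) : Period.H M R R →+ Period.H M B B where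
  toFun y := ⟨ψ.comp (y : Additive (Gamma0 M) →+ R),
    ⟨fun γ hγ => by simp [Period.H_parabolic y hγ], fun γ hγ => by simp [Period.H_finOrder y hγ]⟩⟩
  map_zero' := Subtype.ext (AddMonoidHom.ext fun γ => by simp)
  map_add' y y' := Subtype.ext (AddMonoidHom.ext fun γ => by simp)

theorem pushH_apply (ψ : R →+ B) (y : Period.H M R R) (γ : Additive (Gamma0 M)) :
    (pushH ψ y : Additive (Gamma0 M) →+ B) γ = ψ ((y : Additive (Gamma0 M) →+ R) γ) := rfl

theorem evalEquiv_pushH [NeZero M] (ψ : R →+ B) (y : Period.H M R R)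
    (i : Fin (Period.rankH M)) :
    Period.evalEquiv M B B (pushH ψ y) i = ψ (Period.evalEquiv M R R y i) := rfl

theorem wH_pushH [NeZero M] (ψ : R →+ B) (y : Period.H M R R) :
    HeckeH.wH M B B (pushH ψ y) = pushH ψ (HeckeH.wH M R R y) := rfl

theorem pushH_smul (ψ : R →+ B) (r : R) (y : Period.H M R R) :
    pushH ψ (r • y) = pushH (ψ.comp (AddMonoidHom.mulLeft r)) y := rfl

variable {p : ℕ} [Fact p.Prime]

/-- Composition of a functional with reduction modulo `p ^ k`. -/
def redPow (k : ℕ) (Ψ : R →+ ℤ_[p]) : R →+ ZMod (p ^ k) :=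
  (PadicInt.toZModPow k).toAddMonoidHom.comp Ψ

theorem redPow_apply (k : ℕ) (Ψ : R →+ ℤ_[p]) (r : R) :
    redPow k Ψ r = PadicInt.toZModPow k (Ψ r) := rfl

theorem galT_eq_mulVec [NeZero M] {n : ℕ} [NeZero n] (σ : Γℚ)
    (φ : Period.H M (ZMod n) (ZMod n)) :
    galT σ φ = HeckeH.wH M (ZMod n) (ZMod n) ((Period.evalEquiv M (ZMod n) (ZMod n)).symm
      (Matrix.mulVec (Reps.galMat M n σ)
        (Period.evalEquiv M (ZMod n) (ZMod n) (HeckeH.wH M (ZMod n) (ZMod n) φ)))) := by
  have h := Reps.galMat_mulVec (N := M) (n := n) σ ((Torsion.jTorsionEquiv M ι₀ n).symm φ)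
  rw [Reps.coordTors_apply, Reps.coordTors_apply, AddEquiv.apply_symm_apply] at h
  rw [h, LinearEquiv.symm_apply_apply, HeckeH.wH_wH]
  rfl

/-- **The Galois action is natural in the coefficients.** -/
theorem pushH_galH [NeZero M] (f : ℤ_[p] →+* R) (Ψ : R →+ ℤ_[p])
    (hΨ : ∀ z r, Ψ (f z * r) = z * Ψ r) (k : ℕ) (σ : Γℚ) (y : Period.H M R R) :
    pushH (redPow k Ψ) (galH M f σ y) = galT σ (pushH (redPow k Ψ) y) := by
  rw [galT_eq_mulVec, galH]
  simp only [LinearMap.comp_apply, LinearEquiv.coe_coe, Matrix.mulVecLin_apply]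
  rw [← wH_pushH]
  congr 1
  rw [LinearEquiv.eq_symm_apply]
  funext i
  rw [evalEquiv_pushH, LinearEquiv.apply_symm_apply, wH_pushH, ← Reps.toZModPow_tateMat]
  show redPow k Ψ (∑ j, f (Reps.tateMat M p σ i j) *
      Period.evalEquiv M R R (HeckeH.wH M R R y) j) =
    ∑ j, PadicInt.toZModPow k (Reps.tateMat M p σ i j) *
      redPow k Ψ (Period.evalEquiv M R R (HeckeH.wH M R R y) j)
  rw [map_sum]
  exact Finset.sum_congr rfl fun j _ => by rw [redPow_apply, redPow_apply, hΨ, map_mul]

end Push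

variable {N₁ v : ℕ} [NeZero N₁] [NeZero v] {A : ValuationSubring ℚ̄}

local notation "k'" => IsLocalRing.ResidueField A
local notation "π" => IsLocalRing.residue A
local notation "M₀" => N₁ * v * v

/-- Reductions of multiples descend. -/
theorem redC_descend [IsAlgClosed (IsLocalRing.ResidueField A)] (hC : Cond N₁ v A) {n n' m : ℕ}
    [NeZero n] [NeZero n'] [NeZero m] (hn : n' = m * n) (c : (ZMod v)ˣ)
    (φ' : Period.H M₀ (ZMod n') (ZMod n')) (φ : Period.H M₀ (ZMod n) (ZMod n))
    (hφ : ∀ γ, (φ : Additive (Gamma0 M₀) →+ ZMod n) γ =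
      ZMod.castHom (hn ▸ dvd_mul_left n m) (ZMod n) ((φ' : Additive (Gamma0 M₀) →+ ZMod n') γ))
    (h : redC hC c (m • φ') = 0) : redC hC c φ = 0 := by
  subst hn
  have hk := (hasKummer_kum φ').cast (n := n) (m := m) rfl
  have hφ' : (φ : Additive (Gamma0 M₀) →+ ZMod n) =
      (ZMod.castHom (dvd_mul_left n m) (ZMod n)).toAddMonoidHom.comp
        (φ' : Additive (Gamma0 M₀) →+ ZMod (m * n)) := AddMonoidHom.ext hφ
  rw [redC_of_kummer hC c φ (hφ' ▸ hk), redFun, QuotientAddGroup.eq_zero_iff]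
  rw [map_nsmul, redC_apply, redFun, ← QuotientAddGroup.mk_nsmul, QuotientAddGroup.eq_zero_iff,
    mem_powOf] at h
  obtain ⟨g, hg, hgn⟩ := h
  refine mem_powOf.mpr ⟨g, hg, ?_⟩
  rw [← sub_eq_zero]
  refine eq_zero_of_nsmul_eq_zero (NeZero.ne m) ?_
  rw [nsmul_sub, ← mul_nsmul', hgn, sub_self]

end FLTAgent.Lower.Levels.Gauss
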