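import Mathlib
import Fermat.Agent.Lower.Levels.Inertia.RedHom
import Fermat.Agent.Kronecker.Specialization
import Fermat.Agent.Reduction.InputsMain

/-!
# Kummer classes over the residue field at level `N₁`

`kumCls` is the injective Kummer map from the `p`-torsion of the residual Jacobian to the
classes of `K₁` modulo `p`-th powers (`kumCls_injective`). A class which dies in the top
residue field is fixed by Frobenius (`frob_fixed_of_map_eq_zero`, from `Inertia.Kernel`), and
`exists_kummer_level` identifies the reduced Kummer function of a torsion class of level `N₁`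
with the Kummer class of its reduction.
-/

set_option autoImplicit false
set_option linter.unusedSectionVars false
set_option linter.style.haveILetI false

noncomputable section

open ModularCurve AlgebraicCurve
open scoped MatrixGroups

namespace FLTAgent.Lower.Levels.Gauss

open FLTAgent.BadQ

local notation "ℚ̄" => AlgebraicClosure ℚ
local notation "ι₀" => Reps.qbarEmb

-- the search for `Algebra k K₁` is slow without these priorities
attribute [local instance 5000] SubalgebraClass.toAlgebra HahnSeries.powerSeriesAlgebra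
  MvPowerSeries.instAlgebra Algebra.id

variable {N₁ v : ℕ} [NeZero N₁] [NeZero v] {A : ValuationSubring ℚ̄}

local notation "k" => IsLocalRing.ResidueField A
local notation "π" => IsLocalRing.residue A
local notation "K₁" => modularFunctionFieldFullC (IsLocalRing.ResidueField A) N₁

theorem Cond.isFF (hC : Cond N₁ v A) : FF.IsFF k K₁ := by
  haveI := Fact.mk hC.prime
  exact Reduction.isFF_fullC_residue N₁ A hC.liesOver hC.ndvd

theorem Cond.isAlgClosed (hC : Cond N₁ v A) : IsAlgClosed k :=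
  GalCommon.isAlgClosed_residueField A hC.prime hC.liesOver

/-- Classes of `K₁` modulo `p`-th powers. -/
abbrev RedQ₁ (N₁ : ℕ) [NeZero N₁] (A : ValuationSubring ℚ̄) (p : ℕ) : Type :=
  Cls (IsLocalRing.ResidueField A) ⧸ powOf (IsLocalRing.ResidueField A) (KN A N₁) p

/-- Pushing classes to the top field. -/
def redUp (N₁ : ℕ) [NeZero N₁] (A : ValuationSubring ℚ̄) (p : ℕ) :
    RedQ₁ N₁ A p →+ RedQ N₁ A p :=
  QuotientAddGroup.map _ _ (AddMonoidHom.id _) fun _ hx => powOf_mono (KN_le_Lam A N₁) p hx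

theorem redUp_mk (N₁ : ℕ) [NeZero N₁] (A : ValuationSubring ℚ̄) (p : ℕ)
    (x : Cls (IsLocalRing.ResidueField A)) :
    redUp N₁ A p (QuotientAddGroup.mk x) = QuotientAddGroup.mk x := rfl

variable {p : ℕ}

/-- `g` is the class of `u` with `p • E = div u`, `P` the class of `E`. -/
def IsKum (p : ℕ) (P : Pic0 (IsLocalRing.ResidueField A)
    (modularFunctionFieldFullC (IsLocalRing.ResidueField A) N₁)) (g : RedQ₁ N₁ A p) : Prop :=
  ∃ (E : Divisor.degZero (K := IsLocalRing.ResidueField A)
      (F := modularFunctionFieldFullC (IsLocalRing.ResidueField A) N₁))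
    (u : modularFunctionFieldFullC (IsLocalRing.ResidueField A) N₁), u ≠ 0 ∧ Pic0.mk E = P ∧
    (∀ w, (p • (E : Divisor (IsLocalRing.ResidueField A)
      (modularFunctionFieldFullC (IsLocalRing.ResidueField A) N₁))) w = w.ord u) ∧
    g = QuotientAddGroup.mk (qcls (u : LaurentSeries (IsLocalRing.ResidueField A)))

theorem exists_isKum {P : Pic0 k K₁} (hP : P ∈ Pic0.torsion k K₁ p) :
    ∃ g, IsKum p P g := by
  obtain ⟨E, rfl⟩ := Pic0.mk_surjective P
  have h1 : p • (E : Divisor k K₁) ∈ Divisor.principal (K := k) (F := K₁) := by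
    have h0 : Pic0.mk (p • E) = 0 := by
      have := Pic0.mem_torsion.mp hP
      rw [natCast_zsmul] at this
      exact this
    have := (QuotientAddGroup.eq_zero_iff _).mp h0
    simpa [AddSubgroup.mem_addSubgroupOf] using this
  obtain ⟨u, hu, hdiv⟩ := h1
  exact ⟨_, E, u, hu, rfl, hdiv, rfl⟩

/-- Functions with the same divisor differ by a constant. -/
theorem qcls_eq_of_ord (hC : Cond N₁ v A) {u u' : K₁} (hu : u ≠ 0) (hu' : u' ≠ 0)
    (h : ∀ w : Place k K₁, w.ord u = w.ord u') :
    qcls (u : LaurentSeries k) = qcls (u' : LaurentSeries k) := by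
  haveI := hC.isFF
  haveI := hC.isAlgClosed
  obtain ⟨a, ha⟩ := FF.mem_range_of_forall_ord_nonneg (K := k) (f := u / u') fun w => by
    rw [FF.ord_div w hu hu', h, sub_self]
  have ha0 : a ≠ 0 := fun e => div_ne_zero hu hu' (by rw [← ha, e, map_zero])
  have e : (u : LaurentSeries k) = HahnSeries.C a * (u' : LaurentSeries k) := by
    rw [← algebraMap_eq_C']
    have := congrArg (fun x : K₁ => (x : LaurentSeries k)) (show algebraMap k K₁ a * u' = u by
      rw [ha, div_mul_cancel₀ _ hu'])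
    exact this.symm
  rw [e, qcls_C_mul ha0 fun e' => hu' (Subtype.ext e')]

theorem isKum_unique (hC : Cond N₁ v A) {P : Pic0 k K₁} {g g' : RedQ₁ N₁ A p}
    (h : IsKum p P g) (h' : IsKum p P g') : g = g' := by
  obtain ⟨E, u, hu, hE, hdiv, rfl⟩ := h
  obtain ⟨E', u', hu', hE', hdiv', rfl⟩ := h'
  have h1 := QuotientAddGroup.eq.mp (hE'.trans hE.symm)
  rw [AddSubgroup.mem_addSubgroupOf] at h1
  obtain ⟨s, hs, hsdiv⟩ := h1
  have hne : u' * s ^ p ≠ 0 := mul_ne_zero hu' (pow_ne_zero _ hs)
  have key : qcls (u : LaurentSeries k) = qcls ((u' * s ^ p : K₁) : LaurentSeries k) := by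
    refine qcls_eq_of_ord hC hu hne fun w => ?_
    rw [w.ord_mul hu' (pow_ne_zero _ hs), ← zpow_natCast, Place.ord_zpow, ← hdiv, ← hdiv',
      ← hsdiv w]
    simp only [AddSubgroup.coe_add, AddSubgroup.coe_neg, Finsupp.add_apply, Finsupp.neg_apply,
      Finsupp.smul_apply, nsmul_eq_mul]
    ring
  have hu'0 : (u' : LaurentSeries k) ≠ 0 := fun e => hu' (Subtype.ext e)
  have hs0 : (s : LaurentSeries k) ≠ 0 := fun e => hs (Subtype.ext e)
  rw [key, MulMemClass.coe_mul, SubmonoidClass.coe_pow, qcls_mul hu'0 (pow_ne_zero _ hs0),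
    qcls_pow hs0, QuotientAddGroup.mk_add]
  refine add_eq_left.mpr ?_
  rw [QuotientAddGroup.eq_zero_iff]
  exact mem_powOf.mpr ⟨_, qcls_mem_clsOf s.2 hs0, rfl⟩

theorem isKum_add {P P' : Pic0 k K₁} {g g' : RedQ₁ N₁ A p} (h : IsKum p P g) (h' : IsKum p P' g') :
    IsKum p (P + P') (g + g') := by
  obtain ⟨E, u, hu, rfl, hdiv, rfl⟩ := h
  obtain ⟨E', u', hu', rfl, hdiv', rfl⟩ := h'
  refine ⟨E + E', u * u', mul_ne_zero hu hu', rfl, fun w => ?_, ?_⟩
  · rw [w.ord_mul hu hu', ← hdiv, ← hdiv', AddSubgroup.coe_add, smul_add, Finsupp.add_apply]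
  · rw [MulMemClass.coe_mul, qcls_mul (fun e => hu (Subtype.ext e)) (fun e => hu' (Subtype.ext e)),
      QuotientAddGroup.mk_add]

theorem eq_zero_of_isKum (hC : Cond N₁ v A) (hp : p ≠ 0) {P : Pic0 k K₁}
    (h : IsKum p P (0 : RedQ₁ N₁ A p)) : P = 0 := by
  obtain ⟨E, u, hu, rfl, hdiv, hg⟩ := h
  obtain ⟨_, ⟨s, hs, hs0, rfl⟩, hsg⟩ := mem_powOf.mp ((QuotientAddGroup.eq_zero_iff _).mp hg.symm)
  set t : K₁ := ⟨s, hs⟩
  have ht : t ≠ 0 := fun e => hs0 (congrArg Subtype.val e)
  rw [← qcls_pow hs0] at hsg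
  obtain ⟨c, hc, hcu⟩ := exists_C_of_qcls_eq (fun e => hu (Subtype.ext e)) (pow_ne_zero p hs0)
    hsg.symm
  have hu' : u = algebraMap k K₁ c * t ^ p := Subtype.ext (by
    rw [MulMemClass.coe_mul, SubmonoidClass.coe_pow]
    show _ = algebraMap k (LaurentSeries k) c * s ^ p
    rw [algebraMap_eq_C']
    exact hcu)
  refine (QuotientAddGroup.eq_zero_iff _).mpr ?_
  rw [AddSubgroup.mem_addSubgroupOf]
  refine ⟨t, ht, fun w => ?_⟩
  have h1 := hdiv w
  rw [hu', w.ord_mul ((_root_.map_ne_zero _).mpr hc) (pow_ne_zero _ ht), FF.ord_algebraMap,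
    zero_add, ← zpow_natCast, Place.ord_zpow, Finsupp.smul_apply, nsmul_eq_mul] at h1
  exact mul_left_cancel₀ (by exact_mod_cast hp) h1

/-- The Kummer class. -/
def kumCls (hC : Cond N₁ v A) (p : ℕ) : Pic0.torsion k K₁ p →+ RedQ₁ N₁ A p :=
  AddMonoidHom.mk' (fun P => (exists_isKum P.2).choose) fun P Q =>
    isKum_unique hC (exists_isKum (P + Q).2).choose_spec
      (isKum_add (exists_isKum P.2).choose_spec (exists_isKum Q.2).choose_spec)

theorem isKum_kumCls (hC : Cond N₁ v A) (P : Pic0.torsion k K₁ p) :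
    IsKum p (P : Pic0 k K₁) (kumCls hC p P) :=
  (exists_isKum P.2).choose_spec

/-- The Kummer map on the torsion of the residual Jacobian is injective. -/
theorem kumCls_injective (hC : Cond N₁ v A) (hp : p ≠ 0) :
    Function.Injective (kumCls hC p) := by
  rw [injective_iff_map_eq_zero]
  intro P hP
  exact Subtype.ext (eq_zero_of_isKum hC hp (hP ▸ isKum_kumCls hC P))

section Frob

variable [CharP (IsLocalRing.ResidueField A) v] [PerfectRing (IsLocalRing.ResidueField A) v]
  [Fact v.Prime]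

/-- Frobenius on the residual function field. -/
abbrev frobG (N₁ v : ℕ) (A : ValuationSubring ℚ̄) [CharP (IsLocalRing.ResidueField A) v]
    [PerfectRing (IsLocalRing.ResidueField A) v] [Fact v.Prime] :
    SemilinearAut (IsLocalRing.ResidueField A)
      (modularFunctionFieldFullC (IsLocalRing.ResidueField A) N₁) :=
  Kronecker.coeffGalois N₁ (frobeniusEquiv (IsLocalRing.ResidueField A) v)

theorem frobenius_smul_mem {P : Pic0 k K₁} (hP : P ∈ Pic0.torsion k K₁ p)
    (g : SemilinearAut k K₁) : g • P ∈ Pic0.torsion k K₁ p := by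
  rw [Pic0.mem_torsion, natCast_zsmul] at hP ⊢
  exact (Kronecker.smul_nsmul_comm g p P).symm.trans (by rw [hP]; exact smul_zero g)

theorem isKum_frob {P : Pic0 k K₁} {x : Cls k}
    (h : IsKum p P (QuotientAddGroup.mk x : RedQ₁ N₁ A p)) :
    IsKum p (frobG N₁ v A • P) (QuotientAddGroup.mk (frobCls A v x) : RedQ₁ N₁ A p) := by
  obtain ⟨E, u, hu, rfl, hdiv, hg⟩ := h
  set g := frobG N₁ v A
  have hgu : g • u ≠ 0 := (_root_.map_ne_zero (SemilinearAut.toRingAut g).toRingHom).mpr hu
  refine ⟨SemilinearAut.degZeroSMulHom g E, g • u, hgu, (SemilinearAut.pic0_smul_mk g E).symm,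
    fun w => ?_, ?_⟩
  · have key : ∀ z : Place k K₁, (p • (SemilinearAut.degZeroSMulHom g E : Divisor k K₁)) (g • z) =
        (g • z).ord (g • u) := fun z =>
      ((congrArg (p • ·) (SemilinearAut.divisor_smul_apply_smul g (E : Divisor k K₁) z)).trans
        (hdiv z)).trans (SemilinearAut.ord_smul g z u).symm
    exact smul_inv_smul g w ▸ key (g⁻¹ • w)
  · have hu0 : (u : LaurentSeries k) ≠ 0 := fun e => hu (Subtype.ext e)
    obtain ⟨z, hz, hzg⟩ : ∃ z ∈ powOf k (KN A N₁) p, x = qcls (u : LaurentSeries k) + z :=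
      ⟨x - qcls (u : LaurentSeries k), (QuotientAddGroup.eq_iff_sub_mem).mp hg, by abel⟩
    have hz' : frobCls A v z ∈ powOf k (KN A N₁) p := by
      obtain ⟨y, hy, rfl⟩ := mem_powOf.mp hz
      exact mem_powOf.mpr ⟨_, frobCls_clsOf hy, (map_nsmul _ _ _).symm⟩
    have e : frobCls A v x - qcls (coeffMap (frobenius k v) (u : LaurentSeries k)) =
        frobCls A v z := by
      rw [hzg, map_add, frobCls_qcls hu0, add_sub_cancel_left]
    exact QuotientAddGroup.eq_iff_sub_mem.mpr (e.symm ▸ hz' :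
      frobCls A v x - qcls (coeffMap (frobenius k v) (u : LaurentSeries k)) ∈ _)

/-- A class whose image is a power in the top field is fixed by Frobenius. -/
theorem frob_fixed_of_map_eq_zero (hC : Cond N₁ v A) (hp : p ≠ 0) (P : Pic0.torsion k K₁ p)
    (h : redUp N₁ A p (kumCls hC p P) = 0) :
    frobG N₁ v A • (P : Pic0 k K₁) = P := by
  haveI := hC.isAlgClosed
  have hk := isKum_kumCls hC P
  obtain ⟨E, u, hu, hE, hdiv, hg⟩ := hk
  rw [hg, redUp_mk, QuotientAddGroup.eq_zero_iff] at h
  have hk' : IsKum p (P : Pic0 k K₁) (QuotientAddGroup.mk (qcls (u : LaurentSeries k))) :=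
    ⟨E, u, hu, hE, hdiv, rfl⟩
  have hfix := frobCls_sub_mem (N₁ := N₁) (v := v)
    (resIn_lvlField hC.prime hC.liesOver hC.ndvd (zetaQ_isPrimitiveRoot v)).2.2 hp
    (qcls_mem_clsOf u.2 fun e => hu (Subtype.ext e)) h
  have h2 := isKum_frob (v := v) hk'
  have h2' : IsKum p (frobG N₁ v A • (P : Pic0 k K₁)) (kumCls hC p P) :=
    (congrArg (IsKum p (frobG N₁ v A • (P : Pic0 k K₁)))
      ((QuotientAddGroup.eq_iff_sub_mem.mpr hfix).trans hg.symm)).mp h2
  have h3 := isKum_unique hC (isKum_kumCls hC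
    ⟨frobG N₁ v A • (P : Pic0 k K₁), frobenius_smul_mem P.2 _⟩) h2'
  exact congrArg Subtype.val (kumCls_injective hC hp h3)

end Frob

/-- A Kummer function at level `N₁` whose class is the Kummer class of the reduction. -/
theorem exists_kummer_level [NeZero p] (hC : Cond N₁ v A)
    (φ : Period.H N₁ (ZMod p) (ZMod p)) :
    ∃ h : modularFunctionFieldBar N₁,
      HasKummer (φ : Additive (CongruenceSubgroup.Gamma0 N₁) →+ ZMod p) h ∧
      ∃ (E : Divisor.degZero (K := k) (F := K₁)) (u : K₁), u ≠ 0 ∧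
        Pic0.mk E = reductionModL A N₁ (((Torsion.jTorsionEquiv N₁ ι₀ p).symm φ :
          Pic0.torsion ℚ̄ (modularFunctionFieldBar N₁) p) : JZero N₁) ∧
        (∀ w, (p • (E : Divisor k K₁)) w = w.ord u) ∧
        cl A π (h : LaurentSeries ℚ̄) = qcls (u : LaurentSeries k) := by
  haveI := Fact.mk hC.prime
  set x := (Torsion.jTorsionEquiv N₁ ι₀ p).symm φ with hxdef
  obtain ⟨D, hD⟩ := Pic0.mk_surjective (x : JZero N₁)
  have hx : Pic0.mk D ∈ Pic0.torsion ℚ̄ (modularFunctionFieldBar N₁) p := hD ▸ x.2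
  have hnD : p • (D : Divisor ℚ̄ (modularFunctionFieldBar N₁)) ∈
      Divisor.principal (K := ℚ̄) (F := modularFunctionFieldBar N₁) := by
    have h0 : Pic0.mk (p • D) = 0 := by
      have := Pic0.mem_torsion.mp hx
      rw [natCast_zsmul] at this
      exact this
    have := (QuotientAddGroup.eq_zero_iff _).mp h0
    simpa [AddSubgroup.mem_addSubgroupOf] using this
  obtain ⟨h, h0, hh⟩ := hnD
  have hxD : x = ⟨Pic0.mk D, hx⟩ := Subtype.ext hD.symm
  refine ⟨h, ?_, ?_⟩
  · have := hasKummer_of_divisor D hx h0 hh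
    rwa [← hxD, hxdef, AddEquiv.apply_symm_apply] at this
  have hin := Reduction.reductionInputsModL N₁ hC.ndvd A hC.liesOver
  have hr := Reduction.isRed_of_isPlaceReductionModL N₁ A hC.liesOver hC.ndvd
    (isPlaceReductionModL_placeReductionModL hin)
  have hex := Reduction.modularGauss_scale A N₁ hC.liesOver hC.ndvd h h0
  obtain ⟨c, hc, hcV, hcr⟩ := hex
  have hord := hr.ord_eq _ hcV hcr
  have hdiv : (Reduction.divOf (c • h) : Divisor ℚ̄ (modularFunctionFieldBar N₁)) =
      p • (D : Divisor ℚ̄ (modularFunctionFieldBar N₁)) := Finsupp.ext fun P => by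
    rw [hr.curve.divOf_apply, hh, Algebra.smul_def,
      P.ord_mul ((_root_.map_ne_zero _).mpr hc) h0, FF.ord_algebraMap, zero_add]
  rw [← hD, reductionModL_mk hin]
  refine ⟨_, (Reduction.modularGauss A N₁).red (c • h), hcr, rfl, fun w => ?_, ?_⟩
  · refine Eq.trans ?_ (hord w).symm
    refine ((DFunLike.congr_fun ((congrArg (Finsupp.mapDomain.addMonoidHom _) hdiv).trans
      (map_nsmul (Finsupp.mapDomain.addMonoidHom _) p _)) w)).symm.trans ?_
    rfl
  · have hex := Reduction.modularGauss_mem.mp hcV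
    obtain ⟨a, b, hb, hab⟩ := hex
    rw [Reduction.modularGauss_red hb hab] at hcr ⊢
    have hab' : HahnSeries.C c * (h : LaurentSeries ℚ̄) * incl A (b : LaurentSeries A) =
        incl A (a : LaurentSeries A) := by
      have := congrArg Subtype.val hab
      rw [MulMemClass.coe_mul, Algebra.smul_def, MulMemClass.coe_mul] at this
      rw [← algebraMap_eq_C' c]
      exact this
    have hb' : redSer A π (b : LaurentSeries A) ≠ 0 := fun e => hb (Subtype.ext e)
    have hy := gval_eq A π hb' hab'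
    have e : gval A π (HahnSeries.C c * (h : LaurentSeries ℚ̄)) =
        ((Reduction.expToRes A N₁ a / Reduction.expToRes A N₁ b : K₁) : LaurentSeries k) := by
      rw [hy]; rfl
    rw [cl_eq IsLocalRing.residue_surjective hc ⟨_, _, hb', hab'⟩
      (by rw [e]; exact fun e' => hcr (Subtype.ext e')), e]

end FLTAgent.Lower.Levels.Gauss
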