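import Mathlib

/-!
# The coefficient ring over `ℤ_p`

For a complete discrete valuation ring `O` of characteristic zero with finite residue field of
characteristic `p`: `O` is a finite `ℤ_p`-module (`finite_of_padic`, complete Nakayama), every
functional `ResidueField O → ℤ/p` lifts to a `ℤ_p`-linear functional (`exists_padic_lift`), an
element outside `𝔪 R` of a finite free `O`-module `R` has a functional with value `1`
(`exists_unit_dual`), and residual functionals separate points (`eq_zero_of_forall_dual`).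
-/

set_option autoImplicit false
set_option linter.unusedSectionVars false
set_option linter.style.haveILetI false

noncomputable section

namespace FLTAgent.Lower.Levels.Gauss

open IsLocalRing (maximalIdeal ResidueField residue)

variable {p : ℕ} [Fact p.Prime] {O : Type} [CommRing O] [IsDomain O] [IsDiscreteValuationRing O]
  [IsAdicComplete (maximalIdeal O) O] [Finite (ResidueField O)] [CharZero O]

theorem exists_dvd_natCast_pow (hp : (p : O) ∈ maximalIdeal O) {b : O} (hb : b ≠ 0) :
    ∃ m : ℕ, b ∣ (p : O) ^ m := by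
  obtain ⟨ϖ, hϖ⟩ := IsDiscreteValuationRing.exists_irreducible O
  obtain ⟨m, hm⟩ := IsDiscreteValuationRing.associated_pow_irreducible hb hϖ
  refine ⟨m, hm.dvd_iff_dvd_left.mpr (pow_dvd_pow_of_dvd ?_ m)⟩
  rwa [← Ideal.mem_span_singleton, ← hϖ.maximalIdeal_eq]

theorem exists_maximalIdeal_pow_le (hp : (p : O) ∈ maximalIdeal O) :
    ∃ m : ℕ, maximalIdeal O ^ m ≤ Ideal.span {(p : O)} := by
  obtain ⟨ϖ, hϖ⟩ := IsDiscreteValuationRing.exists_irreducible O
  obtain ⟨m, hm⟩ := IsDiscreteValuationRing.associated_pow_irreducible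
    (Nat.cast_ne_zero.mpr (Fact.out : p.Prime).ne_zero : (p : O) ≠ 0) hϖ
  refine ⟨m, ?_⟩
  rw [hϖ.maximalIdeal_eq, Ideal.span_singleton_pow, Ideal.span_singleton_le_span_singleton]
  exact hm.dvd

theorem padic_injective (f : ℤ_[p] →+* O) : Function.Injective f := by
  rw [RingHom.injective_iff_ker_eq_bot]
  by_contra h
  obtain ⟨n, hn⟩ := PadicInt.ideal_eq_span_pow_p h
  have h1 : f ((p : ℤ_[p]) ^ n) = 0 := by
    rw [← RingHom.mem_ker, hn]
    exact Ideal.mem_span_singleton_self _
  rw [map_pow, map_natCast] at h1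
  exact pow_ne_zero n (Nat.cast_ne_zero.mpr (Fact.out : p.Prime).ne_zero) h1

theorem residue_padic (f : ℤ_[p] →+* O) (hp : (p : O) ∈ maximalIdeal O) (z : ℤ_[p]) :
    residue O (f z) = ((PadicInt.toZMod z).val : ResidueField O) := by
  have h : z - ((PadicInt.toZMod z).val : ℤ_[p]) ∈ maximalIdeal ℤ_[p] := by
    rw [← PadicInt.ker_toZMod, RingHom.mem_ker, map_sub, map_natCast, ZMod.natCast_zmod_val,
      sub_self]
  rw [PadicInt.maximalIdeal_eq_span_p, Ideal.mem_span_singleton] at h
  obtain ⟨w, hw⟩ := h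
  have h2 : residue O (f z - ((PadicInt.toZMod z).val : O)) = 0 := by
    rw [IsLocalRing.residue_eq_zero_iff]
    have := congrArg f hw
    rw [map_sub, map_natCast, map_mul, map_natCast] at this
    rw [this]
    exact Ideal.mul_mem_right _ _ hp
  rwa [map_sub, map_natCast, sub_eq_zero] at h2

/-- The coefficient ring is a finite `ℤ_p`-module. -/
theorem finite_of_padic (f : ℤ_[p] →+* O) (hp : (p : O) ∈ maximalIdeal O) :
    letI := f.toAlgebra
    Module.Finite ℤ_[p] O := by
  letI := f.toAlgebra
  set I : Ideal ℤ_[p] := maximalIdeal ℤ_[p] with hI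
  have hpI : (p : ℤ_[p]) ∈ I := by
    rw [hI, PadicInt.maximalIdeal_eq_span_p]; exact Ideal.mem_span_singleton_self _
  have hfI : ∀ a ∈ I, f a ∈ maximalIdeal O := fun a ha => by
    rw [hI, PadicInt.maximalIdeal_eq_span_p, Ideal.mem_span_singleton] at ha
    obtain ⟨w, rfl⟩ := ha
    rw [map_mul, map_natCast]
    exact Ideal.mul_mem_right _ _ hp
  haveI hH : IsHausdorff I O := by
    refine isHausdorff_iff.mpr fun x hx => ?_
    refine IsHausdorff.haus (inferInstance : IsHausdorff (maximalIdeal O) O) x fun n => ?_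
    have h1 := SModEq.zero.mp (hx n)
    rw [SModEq.zero, smul_eq_mul, Ideal.mul_top]
    refine Submodule.smul_induction_on h1 (fun a ha y _ => ?_) fun a b ha hb => add_mem ha hb
    rw [Algebra.smul_def]
    refine Ideal.mul_mem_right _ _ ?_
    have h2 : Ideal.map f I ≤ maximalIdeal O := Ideal.map_le_iff_le_comap.mpr hfI
    exact Ideal.pow_right_mono h2 n (Ideal.map_pow f I n ▸ Ideal.mem_map_of_mem f ha)
  haveI hfin : Finite (O ⧸ (I • ⊤ : Submodule ℤ_[p] O)) := by
    obtain ⟨m, hm⟩ := exists_maximalIdeal_pow_le (O := O) hp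
    haveI : Finite (O ⧸ maximalIdeal O) := (inferInstance : Finite (ResidueField O))
    haveI := Ideal.finite_quotient_pow (IsNoetherian.noetherian (maximalIdeal O)) m
    refine Finite.of_surjective (α := O ⧸ maximalIdeal O ^ m)
      (fun q => Quotient.liftOn' q (fun x => Submodule.Quotient.mk x) fun a b hab => ?_) ?_
    · rw [Submodule.quotientRel_def] at hab
      rw [Submodule.Quotient.eq]
      obtain ⟨w, hw⟩ := Ideal.mem_span_singleton.mp (hm hab)
      rw [hw, ← map_natCast f, show f (p : ℤ_[p]) * w = (p : ℤ_[p]) • w from rfl]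
      exact Submodule.smul_mem_smul hpI Submodule.mem_top
    · intro q
      obtain ⟨x, rfl⟩ := Submodule.Quotient.mk_surjective _ q
      exact ⟨Ideal.Quotient.mk _ x, rfl⟩
  haveI := Fintype.ofFinite (O ⧸ (I • ⊤ : Submodule ℤ_[p] O))
  let Q := O ⧸ (I • ⊤ : Submodule ℤ_[p] O)
  let L : (Q → ℤ_[p]) →ₗ[ℤ_[p]] O :=
    ∑ q : Q, (LinearMap.proj q).smulRight (Function.surjInv (Submodule.Quotient.mk_surjective _) q)
  haveI : IsPrecomplete I (Q → ℤ_[p]) := by
    refine ⟨fun u hu => ?_⟩
    have hc : ∀ q : Q, ∃ L : ℤ_[p], ∀ n, u n q ≡ L [SMOD (I ^ n • ⊤ : Submodule ℤ_[p] ℤ_[p])] := by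
      intro q
      refine IsPrecomplete.prec (inferInstance : IsPrecomplete I ℤ_[p]) fun {m n} hmn => ?_
      have h1 := Submodule.mem_map_of_mem (f := LinearMap.proj (φ := fun _ : Q => ℤ_[p]) q)
        (SModEq.sub_mem.mp (hu hmn))
      rw [Submodule.map_smul''] at h1
      rw [SModEq.sub_mem]
      exact Submodule.smul_mono le_rfl le_top h1
    choose L hL using hc
    refine ⟨L, fun n => ?_⟩
    rw [SModEq.sub_mem]
    classical
    rw [pi_eq_sum_univ (u n - L)]
    refine Submodule.sum_mem _ fun q _ => Submodule.smul_mem_smul ?_ Submodule.mem_top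
    have h1 := SModEq.sub_mem.mp (hL q n)
    rw [smul_eq_mul, Ideal.mul_top] at h1
    exact h1
  have hs : Function.Surjective ((I • ⊤ : Submodule ℤ_[p] O).mkQ ∘ₗ L) := by
    intro q
    classical
    refine ⟨Pi.single q 1, ?_⟩
    have : L (Pi.single q 1) = Function.surjInv (Submodule.Quotient.mk_surjective _) q := by
      simp only [L, LinearMap.sum_apply, LinearMap.smulRight_apply, LinearMap.proj_apply]
      rw [Finset.sum_eq_single q (fun b _ hb => by rw [Pi.single_eq_of_ne hb, zero_smul])
        (fun h => absurd (Finset.mem_univ q) h), Pi.single_eq_same, one_smul]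
    rw [LinearMap.comp_apply, this]
    exact Function.surjInv_eq (Submodule.Quotient.mk_surjective _) q
  exact Module.Finite.of_surjective L (surjective_of_mkQ_comp_surjective hs)

/-- A functional on the residue field lifts to a `ℤ_p`-linear functional. -/
theorem exists_padic_lift (f : ℤ_[p] →+* O) (hp : (p : O) ∈ maximalIdeal O)
    (ℓ : ResidueField O →+ ZMod p) :
    ∃ Ψ : O →+ ℤ_[p], (∀ z o, Ψ (f z * o) = z * Ψ o) ∧
      ∀ o, PadicInt.toZMod (Ψ o) = ℓ (residue O o) := by
  letI := f.toAlgebra
  haveI := finite_of_padic f hp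
  haveI : Module.IsTorsionFree ℤ_[p] O :=
    Module.isTorsionFree_iff_algebraMap_injective.mpr (padic_injective f)
  haveI : Module.Free ℤ_[p] O := Module.free_of_finite_type_torsion_free'
  classical
  set B := Module.Free.chooseBasis ℤ_[p] O
  have hsur := ZMod.ringHom_surjective (PadicInt.toZMod : ℤ_[p] →+* ZMod p)
  choose t ht using fun i => hsur (ℓ (residue O (B i)))
  set Φ := B.constr ℕ t with hΦ
  refine ⟨Φ.toAddMonoidHom, fun z o => ?_, fun o => ?_⟩
  · show Φ (f z * o) = _
    rw [show f z * o = z • o from rfl, map_smul, smul_eq_mul]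
    rfl
  have key : ∀ (z : ℤ_[p]) (x : O),
      ℓ (residue O (z • x)) = PadicInt.toZMod z * ℓ (residue O x) := fun z x => by
    rw [show z • x = f z * x from rfl, map_mul, residue_padic f hp, ← nsmul_eq_mul, map_nsmul,
      nsmul_eq_mul, ZMod.natCast_zmod_val]
  show PadicInt.toZMod (Φ o) = _
  conv_rhs => rw [← B.sum_repr o]
  rw [map_sum, map_sum, hΦ, Module.Basis.constr_apply_fintype, map_sum]
  refine Finset.sum_congr rfl fun i _ => ?_
  rw [key, smul_eq_mul, map_mul, Module.Basis.equivFun_apply, ht]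

omit [IsAdicComplete (maximalIdeal O) O] [Finite (ResidueField O)] [CharZero O] in
/-- An element outside `𝔪 R` is part of a basis. -/
theorem exists_unit_dual {R : Type} [CommRing R] [Algebra O R] [Module.Finite O R]
    [Module.Free O R] {e : R} (he : e ∉ maximalIdeal O • (⊤ : Submodule O R)) :
    ∃ ξ : R →ₗ[O] O, ξ e = 1 := by
  classical
  set B := Module.Free.chooseBasis O R
  obtain ⟨i, hi⟩ : ∃ i, B.repr e i ∉ maximalIdeal O := by
    by_contra h
    refine he ?_
    rw [← B.sum_repr e]
    refine Submodule.sum_mem _ fun i _ => Submodule.smul_mem_smul ?_ Submodule.mem_top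
    exact not_not.mp fun hi => h ⟨i, hi⟩
  obtain ⟨u, hu⟩ := IsLocalRing.notMem_maximalIdeal.mp hi
  exact ⟨((u⁻¹ : Oˣ) : O) • B.coord i, by simp [← hu]⟩

/-- Functionals separate points of the residue field. -/
theorem eq_zero_of_forall_dual (hp : (p : O) ∈ maximalIdeal O) {x : ResidueField O}
    (h : ∀ ℓ : ResidueField O →+ ZMod p, ℓ x = 0) : x = 0 := by
  haveI : CharP (ResidueField O) p := (CharP.charP_iff_prime_eq_zero Fact.out).mpr (by
    rw [← map_natCast (residue O), IsLocalRing.residue_eq_zero_iff]; exact hp)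
  letI := ZMod.algebra (ResidueField O) p
  exact (Module.forall_dual_apply_eq_zero_iff (ZMod p) x).mp fun g => h g.toAddMonoidHom

end FLTAgent.Lower.Levels.Gauss
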