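import Mathlib
import Fermat.Agent.Lower.Levels.Inertia.Coeff
import Fermat.Agent.Lower.Levels.Inertia.Level
import Fermat.Agent.Lower.Levels.Inertia.Padic

/-!
# The kernel of the reductions on twisted classes

`kerK` is the module of classes whose twists die at every cusp under every functional.
`sub_smul_mem_kerK`: the quadratic relation of inertia on the twists puts `c' - (η a + η a⁻¹) c`
into it (by `exists_translate_relation` and `redC_relation`). `mem_kerK_of_smul`: it is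
saturated. `redC_eq_zero_of_mem_kerK`: for its elements the residual classes die at every cusp.
-/

set_option autoImplicit false
set_option linter.unusedSectionVars false
set_option linter.style.haveILetI false

noncomputable section

open CongruenceSubgroup
open scoped MatrixGroups

namespace FLTAgent.Lower.Levels.Gauss

open IsLocalRing (maximalIdeal ResidueField residue)

local notation "ℚ̄" => AlgebraicClosure ℚ
local notation "Γℚ" => (AlgebraicClosure ℚ ≃ₐ[ℚ] AlgebraicClosure ℚ)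

variable {N₁ v : ℕ} [NeZero N₁] [NeZero v] {A : ValuationSubring ℚ̄}
  {p : ℕ} [Fact p.Prime] {R : Type} [CommRing R]

local notation "M₀" => N₁ * v * v

/-- The classes whose twists die at every cusp under every functional. -/
def kerK (hC : Cond N₁ v A) (η : (ZMod v)ˣ →* Rˣ) (g : ℤ_[p] →+* R) :
    Submodule R (Gamma0 (N₁ * v) → R) where
  carrier := {c | ∃ y : Period.H M₀ R R,
    (∀ γ : Gamma0 M₀, (y : Additive (Gamma0 M₀) →+ R) (Additive.ofMul γ) = twY η c γ) ∧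
    ∀ Ψ : R →+ ℤ_[p], (∀ z r, Ψ (g z * r) = z * Ψ r) → ∀ (k : ℕ) (b : (ZMod v)ˣ),
      redC hC b (pushH (redPow k Ψ) y) = 0}
  zero_mem' := ⟨0, fun γ => by simp [twY], fun Ψ _ k b => by rw [map_zero, map_zero]⟩
  add_mem' := by
    rintro c c' ⟨y, hy, h⟩ ⟨y', hy', h'⟩
    refine ⟨y + y', fun γ => ?_, fun Ψ hΨ k b => by
      rw [map_add, map_add, h Ψ hΨ k b, h' Ψ hΨ k b, add_zero]⟩
    rw [Submodule.coe_add, AddMonoidHom.add_apply, hy, hy', twY, twY, twY, map_add, Pi.add_apply]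
  smul_mem' := by
    rintro r c ⟨y, hy, h⟩
    refine ⟨r • y, fun γ => ?_, fun Ψ hΨ k b => ?_⟩
    · show r • (y : Additive (Gamma0 M₀) →+ R) (Additive.ofMul γ) = _
      rw [hy, twY, twY, map_smul, Pi.smul_apply]
    · rw [pushH_smul]
      refine h (Ψ.comp (AddMonoidHom.mulLeft r)) (fun z s => ?_) k b
      show Ψ (r * (g z * s)) = z * Ψ (r * s)
      rw [← hΨ, mul_left_comm]

theorem padic_apply_zmod (g : ℤ_[p] →+* ZMod p) (z : ℤ_[p]) : g z = PadicInt.toZMod z := by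
  have h : z - ((PadicInt.toZMod z).val : ℤ_[p]) ∈ maximalIdeal ℤ_[p] := by
    rw [← PadicInt.ker_toZMod, RingHom.mem_ker, map_sub, map_natCast, ZMod.natCast_zmod_val,
      sub_self]
  rw [PadicInt.maximalIdeal_eq_span_p, Ideal.mem_span_singleton] at h
  obtain ⟨w, hw⟩ := h
  have h2 := congrArg g hw
  rw [map_sub, map_natCast, ZMod.natCast_zmod_val, map_mul, map_natCast, ZMod.natCast_self,
    zero_mul] at h2
  exact sub_eq_zero.mp h2

theorem isUnit_natCast_padic (hv : v.Prime) (hvp : v ≠ p) : IsUnit (v : ℤ_[p]) := by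
  by_contra h
  have h1 : (v : ℤ_[p]) ∈ maximalIdeal ℤ_[p] := h
  rw [← PadicInt.ker_toZMod, RingHom.mem_ker, map_natCast, ZMod.natCast_eq_zero_iff] at h1
  exact hvp ((Nat.prime_dvd_prime_iff_eq Fact.out hv).mp h1).symm

/-- **Inertia sends the quadratic relation into the kernel.** -/
theorem sub_smul_mem_kerK (hC : Cond N₁ v A) (hvp : v ≠ p) {e : ℕ} (he : Odd e)
    (η : (ZMod v)ˣ →* Rˣ) (hη : ∀ u, η u ^ e = 1) (g : ℤ_[p] →+* R) {σ : Γℚ}
    (hσ : σ ∈ A.inertiaSubgroupIn ℚ) (a : (ZMod v)ˣ)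
    (ha : σ (zetaQ v : ℚ̄) = (zetaQ v : ℚ̄) ^ (a : ZMod v).val)
    {c : Gamma0 (N₁ * v) → R} (hc : c ∈ Z1 R R ((η.comp (dUnit (dvd_mul_left v N₁))) ^ 2)⁻¹)
    (c' : Gamma0 (N₁ * v) → R) (y y' : Period.H M₀ R R)
    (hy : ∀ γ : Gamma0 M₀, (y : Additive (Gamma0 M₀) →+ R) (Additive.ofMul γ) = twY η c γ)
    (hy' : ∀ γ : Gamma0 M₀, (y' : Additive (Gamma0 M₀) →+ R) (Additive.ofMul γ) = twY η c' γ)
    (hrel : galH M₀ g σ (galH M₀ g σ y) - galH M₀ g σ y' + y = 0) :
    c' - ((η a : R) + ((η a)⁻¹ : Rˣ)) • c ∈ kerK hC η g := by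
  haveI := Fact.mk hC.prime
  set ε : R := (η a : R) + ((η a)⁻¹ : Rˣ) with hε
  refine ⟨y' - ε • y, fun γ => ?_, fun Ψ hΨ k b₀ => ?_⟩
  · show (y' : Additive (Gamma0 M₀) →+ R) (Additive.ofMul γ) -
      ε • (y : Additive (Gamma0 M₀) →+ R) (Additive.ofMul γ) = _
    rw [hy, hy', twY, twY, twY, map_sub, map_smul, Pi.sub_apply, Pi.smul_apply]
  obtain ⟨b, rfl⟩ : ∃ b, b₀ = b * a := ⟨b₀ * a⁻¹, (inv_mul_cancel_right b₀ a).symm⟩
  have hN : (N₁ : ZMod v) ≠ 0 := fun h => hC.ndvd ((ZMod.natCast_eq_zero_iff _ _).mp h)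
  obtain ⟨r, hr0, hr⟩ := exists_translate_relation η hc hN he hη a b
  set P : R →+ ZMod (p ^ k) := redPow k Ψ
  have hgal := congrArg (fun x => redC hC b (pushH P x)) hrel
  simp only [map_add, map_sub, map_zero, P, pushH_galH g Ψ hΨ, redC_galT hC hσ a ha] at hgal
  obtain ⟨w, hw⟩ := (isUnit_natCast_padic (p := p) hC.prime hvp).exists_left_inv
  have hwv : g w * (v : R) = 1 := by rw [← map_natCast g, ← map_mul, hw, map_one]
  have key := redC_relation hC (hvM := dvd_mul_left v (N₁ * v)) (I := Fin 3) (J := ZMod v)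
    ![b * a * a, b, b * a] ![pushH P y, pushH P y, -pushH P (ε • y)]
    id (fun t => -pushH P ((g w * r t) • y)) (fun δ => ?_) ?_
  · rw [Fin.sum_univ_three] at key
    simp only [Matrix.cons_val_zero, Matrix.cons_val_one, Matrix.cons_val_two, Matrix.tail_cons,
      Matrix.head_cons, map_neg] at key
    rw [map_sub, map_sub]
    linear_combination (norm := abel) key - hgal
  · have hX := congrArg (fun x => P (g w * x)) (hr (hvM := dvd_mul_left v (N₁ * v)) δ)
    simp only [← mul_assoc, hwv, one_mul] at hX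
    simp only [Finset.mul_sum, ← mul_assoc, map_sum, map_sub, map_add] at hX
    rw [Fin.sum_univ_three]
    simp only [Matrix.cons_val_zero, Matrix.cons_val_one, Matrix.cons_val_two, Matrix.tail_cons,
      Matrix.head_cons, NegMemClass.coe_neg, AddMonoidHom.neg_apply, id_eq, Finset.sum_neg_distrib]
    have he1 : ∀ γ, ((pushH P y : Period.H M₀ (ZMod (p ^ k)) (ZMod (p ^ k))) :
        Additive (Gamma0 M₀) →+ ZMod (p ^ k)) (Additive.ofMul γ) = P (twY η c γ) := fun γ => by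
      rw [pushH_apply, hy]
    have he2 : ∀ (s : R) γ, ((pushH P (s • y) : Period.H M₀ (ZMod (p ^ k)) (ZMod (p ^ k))) :
        Additive (Gamma0 M₀) →+ ZMod (p ^ k)) (Additive.ofMul γ) = P (s * twY η c γ) := fun s γ => by
      rw [pushH_apply]
      show P (s • (y : Additive (Gamma0 M₀) →+ R) (Additive.ofMul γ)) = _
      rw [hy, smul_eq_mul]
    simp only [he1, he2]
    linear_combination hX
  · rw [Finset.sum_neg_distrib, ← map_sum, ← Finset.sum_smul, ← Finset.mul_sum, hr0, mul_zero,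
      zero_smul, map_zero, neg_zero]

variable {O : Type} [CommRing O] [IsDomain O] [IsDiscreteValuationRing O]
  [IsAdicComplete (maximalIdeal O) O] [Finite (ResidueField O)] [CharZero O]
  [Algebra O R] [Module.Finite O R] [Module.Free O R]

/-- **The kernel is saturated.** -/
theorem mem_kerK_of_smul (hC : Cond N₁ v A) (hp : (p : O) ∈ maximalIdeal O)
    (η : (ZMod v)ˣ →* Rˣ) (g : ℤ_[p] →+* R) {b : O} (hb : b ≠ 0) {c : Gamma0 (N₁ * v) → R}
    (h : algebraMap O R b • c ∈ kerK hC η g) : c ∈ kerK hC η g := by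
  haveI := hC.isAlgClosed
  have hb' : ∀ r : R, algebraMap O R b * r = 0 → r = 0 := fun r hr => by
    rw [← Algebra.smul_def] at hr
    exact (smul_eq_zero.mp hr).resolve_left hb
  obtain ⟨y₀, hy₀, h₀⟩ := h
  have hv₀ : ∀ γ : Gamma0 M₀, algebraMap O R b * twY η c γ =
      (y₀ : Additive (Gamma0 M₀) →+ R) (Additive.ofMul γ) := fun γ => by
    rw [hy₀, twY, twY, map_smul, Pi.smul_apply, smul_eq_mul]
  let yf : Additive (Gamma0 M₀) →+ R := AddMonoidHom.mk' (fun γ => twY η c γ.toMul) fun γ δ => by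
    rw [← sub_eq_zero]
    refine hb' _ ?_
    rw [mul_sub, mul_add, hv₀, hv₀, hv₀, ← map_add, sub_eq_zero]
    rfl
  have hyf : yf ∈ Period.H M₀ R R :=
    ⟨fun γ hγ => hb' _ ((hv₀ γ).trans (Period.H_parabolic y₀ hγ)),
      fun γ hγ => hb' _ ((hv₀ γ).trans (Period.H_finOrder y₀ hγ))⟩
  obtain ⟨j, t, ht⟩ := exists_dvd_natCast_pow hp hb
  have hmem : algebraMap O R t • (algebraMap O R b • c) ∈ kerK hC η g :=
    Submodule.smul_mem _ _ ⟨y₀, hy₀, h₀⟩
  obtain ⟨y₁, hy₁, h₁⟩ := hmem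
  refine ⟨⟨yf, hyf⟩, fun γ => rfl, fun Ψ hΨ k c₀ => ?_⟩
  have hy1 : y₁ = (p ^ j) • (⟨yf, hyf⟩ : Period.H M₀ R R) := by
    refine Subtype.ext (AddMonoidHom.ext fun γ => ?_)
    show _ = (p ^ j) • twY η c γ.toMul
    rw [← ofMul_toMul γ, hy₁, twY, map_smul, map_smul, Pi.smul_apply, Pi.smul_apply, smul_smul,
      ← map_mul, mul_comm t b, ← ht, smul_eq_mul, map_pow, map_natCast, nsmul_eq_mul, Nat.cast_pow]
    rfl
  refine redC_descend hC (n' := p ^ (j + k)) (m := p ^ j) (pow_add p j k) c₀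
    (pushH (redPow (j + k) Ψ) ⟨yf, hyf⟩) _ (fun γ => ?_) ?_
  · rw [pushH_apply, pushH_apply, redPow_apply, redPow_apply]
    exact (DFunLike.congr_fun (PadicInt.zmod_cast_comp_toZModPow k (j + k) (Nat.le_add_left k j))
      _).symm
  · rw [← map_nsmul, ← hy1]
    exact h₁ Ψ hΨ (j + k) c₀

/-- **The kernel at the first level.** -/
theorem redC_eq_zero_of_mem_kerK (hC : Cond N₁ v A) (hp : (p : O) ∈ maximalIdeal O)
    (η : (ZMod v)ˣ →* Rˣ) (f : ℤ_[p] →+* O) {c : Gamma0 (N₁ * v) → R}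
    (hc : c ∈ kerK hC η ((algebraMap O R).comp f)) (y : Period.H M₀ R R)
    (hy : ∀ γ : Gamma0 M₀, (y : Additive (Gamma0 M₀) →+ R) (Additive.ofMul γ) = twY η c γ)
    {e : R} (he : e ∉ maximalIdeal O • (⊤ : Submodule O R)) (w : Gamma0 M₀ → ResidueField O)
    (hw : ∀ γ : Gamma0 M₀, ∃ z : O, residue O z = w γ ∧
      (y : Additive (Gamma0 M₀) →+ R) (Additive.ofMul γ) - z • e ∈
        maximalIdeal O • (⊤ : Submodule O R))
    (lam : ResidueField O →+ ZMod p) (psi : Period.H M₀ (ZMod p) (ZMod p))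
    (hpsi : ∀ γ : Gamma0 M₀,
      (psi : Additive (Gamma0 M₀) →+ ZMod p) (Additive.ofMul γ) = lam (w γ))
    (b : (ZMod v)ˣ) : redC hC b psi = 0 := by
  haveI := hC.isAlgClosed
  obtain ⟨y', hy', h⟩ := hc
  obtain rfl : y' = y := Subtype.ext (AddMonoidHom.ext fun γ => by
    rw [← ofMul_toMul γ, hy, hy'])
  obtain ⟨ξ, hξ⟩ := exists_unit_dual he
  obtain ⟨Ψ₀, hΨ₀, hred⟩ := exists_padic_lift f hp lam
  refine redC_descend hC (n' := p ^ 1) (m := 1) (by rw [pow_one, one_mul]) b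
    (pushH (redPow 1 (Ψ₀.comp ξ.toAddMonoidHom)) y') psi (fun γ => ?_) ?_
  · rw [pushH_apply, redPow_apply, AddMonoidHom.comp_apply, LinearMap.toAddMonoidHom_coe]
    refine Eq.trans ?_ (padic_apply_zmod ((ZMod.castHom (dvd_pow_self p one_ne_zero) (ZMod p)).comp (PadicInt.toZModPow 1))
      _).symm
    rw [hred, ← ofMul_toMul γ, hpsi]
    obtain ⟨z, hz, hzy⟩ := hw γ.toMul
    congr 1
    rw [← hz]
    have h1 := Submodule.mem_map_of_mem (f := ξ) hzy
    rw [Submodule.map_smul'', map_sub, map_smul, hξ] at h1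
    simp only [smul_eq_mul, mul_one] at h1
    have h2 := Ideal.mul_le_left h1
    rw [← IsLocalRing.residue_eq_zero_iff, map_sub, sub_eq_zero] at h2
    exact h2.symm
  · rw [one_smul]
    refine h _ (fun z r => ?_) 1 b
    show Ψ₀ (ξ (algebraMap O R (f z) * r)) = z * Ψ₀ (ξ r)
    rw [← Algebra.smul_def, map_smul, smul_eq_mul, hΨ₀]

end FLTAgent.Lower.Levels.Gauss
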