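import Mathlib
import Fermat.Agent.Lower.Levels.Inertia.Algebra
import Fermat.Agent.Lower.Levels.Inertia.Level
import Fermat.Agent.Period.Basic

/-!
# The reduction of a depletion

For a class `φ` of level `N₁` the depletion `Φd` is the sum of the translates by the `u / v`,
`u ∈ (ℤ/v)ˣ`. `redC_depletion`: if `p ∣ v - 1` its reduction at every cusp is the image of
`kumCls (F⁻² r) - kumCls r`, `r` the reduction of `φ` and `F` Frobenius: at the cusp exactly one
translate is `f (v² z)`, whose reduction is a Frobenius twisted `v²`-th power, and the other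
`v - 2` reduce like `f` (`translate_bad`, `translate_good`, `count_translates`).
-/

set_option autoImplicit false
set_option linter.unusedSectionVars false
set_option linter.style.haveILetI false

noncomputable section

open UpperHalfPlane CongruenceSubgroup Filter Topology ModularCurve AlgebraicCurve
open scoped MatrixGroups

namespace FLTAgent.Lower.Levels.Gauss

open FLTAgent.Modular FLTAgent.BadQ
open FLTAgent.HeckeH (glM matOf M2 det_glM_pos)

local notation "ℚ̄" => AlgebraicClosure ℚ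
local notation "ι₀" => Reps.qbarEmb

-- the search for `Algebra k K₁` is slow without these priorities
attribute [local instance 5000] SubalgebraClass.toAlgebra HahnSeries.powerSeriesAlgebra
  MvPowerSeries.instAlgebra Algebra.id

section Restrict

theorem bar_mono {N M : ℕ} [NeZero N] [NeZero M] (h : N ∣ M) :
    modularFunctionFieldBar N ≤ modularFunctionFieldBar M := by
  rw [bar_eq_adjoin N, IntermediateField.adjoin_le_iff]
  rintro _ ⟨d, rfl⟩
  exact qScale_jq_mem_bar ((Nat.dvd_of_mem_divisors d.2).trans h)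

theorem mem_bar_up {N M : ℕ} [NeZero N] [NeZero M] (h : N ∣ M) (x : LaurentSeries ℚ̄)
    (hx : x ∈ modularFunctionFieldBar N) : x ∈ modularFunctionFieldBar M :=
  SetLike.le_def.mp (bar_mono h) hx

/-- A function of level `N`, at level `M`. -/
def barUp {N M : ℕ} [NeZero N] [NeZero M] (h : N ∣ M) (x : modularFunctionFieldBar N) :
    modularFunctionFieldBar M :=
  ⟨(x : LaurentSeries ℚ̄), mem_bar_up h (x : LaurentSeries ℚ̄) (SetLike.coe_mem x)⟩

theorem coe_barUp {N M : ℕ} [NeZero N] [NeZero M] (h : N ∣ M) (x : modularFunctionFieldBar N) :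
    (barUp h x : LaurentSeries ℚ̄) = (x : LaurentSeries ℚ̄) := by
  unfold barUp
  exact Subtype.coe_mk _ _

theorem evQ_eq {N : ℕ} [NeZero N] (x : modularFunctionFieldBar N) :
    evQ x = ev (coeffMap ι₀ (x : LaurentSeries ℚ̄)) := by
  unfold evQ
  exact congrArg ev (Torsion.coe_embFC ι₀ x)

theorem evQ_barUp {N M : ℕ} [NeZero N] [NeZero M] (h : N ∣ M) (x : modularFunctionFieldBar N) :
    evQ (barUp h x) = evQ x := by
  rw [evQ_eq, evQ_eq, coe_barUp]

theorem HasKummer.restrict {N M n : ℕ} [NeZero N] [NeZero M] [NeZero n] (hNM : N ∣ M)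
    {φ : Period.H N (ZMod n) (ZMod n)} {h : modularFunctionFieldBar N}
    (hk : HasKummer (φ : Additive (Gamma0 N) →+ ZMod n) h) :
    HasKummer (Period.restrictH hNM φ : Additive (Gamma0 M) →+ ZMod n) (barUp hNM h) := by
  obtain ⟨h0, f, D, hf, hD, he⟩ := hk
  have hm : IsMult M f
      (Torsion.expChar (Period.restrictH hNM φ : Additive (Gamma0 M) →+ ZMod n)) := by
    refine ⟨hf.mero, fun γ => ?_, hf.nonzero, fun γ z => ?_⟩
    · obtain ⟨κ, hκ⟩ := HeckeH.growsAtCusps_of_hasDivisor hD γ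
      exact hκ.exists_bounded (by exact_mod_cast Nat.pos_of_ne_zero (NeZero.ne M))
    · rw [Torsion.coe_expChar, Period.restrictH_apply, ← Torsion.coe_expChar]
      exact hf.smul ⟨(γ : SL(2, ℤ)), _⟩ z
  obtain ⟨D', hD', -⟩ := Torsion.exists_divisor_of_mult (Period.restrictH hNM φ).2 hm
  refine ⟨fun e => h0 (Subtype.ext ?_), f, D', hm, hD', he.trans (evQ_barUp hNM h).symm⟩
  have e' := congrArg (fun z : modularFunctionFieldBar M => (z : LaurentSeries ℚ̄)) e
  simpa only [coe_barUp, ZeroMemClass.coe_zero] using e'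

end Restrict

variable {N₁ v : ℕ} [NeZero N₁] [NeZero v] {A : ValuationSubring ℚ̄}

local notation "k" => IsLocalRing.ResidueField A
local notation "π" => IsLocalRing.residue A
local notation "M₀" => N₁ * v * v
local notation "K₁" => modularFunctionFieldFullC (IsLocalRing.ResidueField A) N₁

theorem isKum_smul {p : ℕ} (g : SemilinearAut k K₁) {E : Divisor.degZero (K := k) (F := K₁)}
    {u : K₁} (hu : u ≠ 0) (hdiv : ∀ w, (p • (E : Divisor k K₁)) w = w.ord u) :
    IsKum p (g • Pic0.mk E)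
      (QuotientAddGroup.mk (qcls ((g • u : K₁) : LaurentSeries k)) : RedQ₁ N₁ A p) := by
  have hgu : g • u ≠ 0 := (_root_.map_ne_zero (SemilinearAut.toRingAut g).toRingHom).mpr hu
  refine ⟨SemilinearAut.degZeroSMulHom g E, g • u, hgu, (SemilinearAut.pic0_smul_mk g E).symm,
    fun w => ?_, rfl⟩
  obtain ⟨z, rfl⟩ : ∃ z, g • z = w := ⟨g⁻¹ • w, smul_inv_smul g w⟩
  exact ((congrArg (p • ·) (SemilinearAut.divisor_smul_apply_smul g (E : Divisor k K₁) z)).trans
    (hdiv z)).trans (SemilinearAut.ord_smul g z u).symm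

variable [CharP (IsLocalRing.ResidueField A) v] [PerfectRing (IsLocalRing.ResidueField A) v]
  [Fact v.Prime]

/-- The reduction of a class of level `N₁`. -/
def redT (N₁ : ℕ) [NeZero N₁] (A : ValuationSubring ℚ̄) (p : ℕ) [NeZero p]
    (φ : Period.H N₁ (ZMod p) (ZMod p)) :
    Pic0.torsion (IsLocalRing.ResidueField A)
      (modularFunctionFieldFullC (IsLocalRing.ResidueField A) N₁) p :=
  ⟨reductionModL A N₁ (((Torsion.jTorsionEquiv N₁ ι₀ p).symm φ :
      Pic0.torsion ℚ̄ (modularFunctionFieldBar N₁) p) : JZero N₁), by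
    rw [Pic0.mem_torsion, ← map_zsmul,
      Pic0.mem_torsion.mp ((Torsion.jTorsionEquiv N₁ ι₀ p).symm φ).2, map_zero]⟩

/-- Frobenius on torsion of the residual Jacobian. -/
def frobT (N₁ v : ℕ) [NeZero N₁] (A : ValuationSubring ℚ̄)
    [CharP (IsLocalRing.ResidueField A) v] [PerfectRing (IsLocalRing.ResidueField A) v]
    [Fact v.Prime] (p : ℕ)
    (P : Pic0.torsion (IsLocalRing.ResidueField A)
      (modularFunctionFieldFullC (IsLocalRing.ResidueField A) N₁) p) :
    Pic0.torsion (IsLocalRing.ResidueField A)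
      (modularFunctionFieldFullC (IsLocalRing.ResidueField A) N₁) p :=
  ⟨(frobG N₁ v A)⁻¹ • (P : Pic0 (IsLocalRing.ResidueField A)
      (modularFunctionFieldFullC (IsLocalRing.ResidueField A) N₁)),
    frobenius_smul_mem P.2 ((frobG N₁ v A)⁻¹)⟩

theorem pow_sq_eq_qExpand (y : LaurentSeries k) :
    qExpand k (v * v) y =
      coeffMap ((frobeniusEquiv k v).symm : k →+* k)
        (coeffMap ((frobeniusEquiv k v).symm : k →+* k) y) ^ (v * v) := by
  set y1 := coeffMap ((frobeniusEquiv k v).symm : k →+* k) y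
  set y2 := coeffMap ((frobeniusEquiv k v).symm : k →+* k) y1
  have h : ∀ z : LaurentSeries k,
      coeffMap (frobenius k v) (coeffMap ((frobeniusEquiv k v).symm : k →+* k) z) = z := fun z => by
    ext i
    rw [coeffMap_coeff, coeffMap_coeff]
    exact (frobeniusEquiv k v).apply_symm_apply _
  rw [pow_mul, Kronecker.pow_char_eq_qExpand v, map_pow,
    show coeffMap (frobenius k v) y2 = y1 from h y1, Kronecker.pow_char_eq_qExpand v,
    show coeffMap (frobenius k v) y1 = y from h y, qExpand_qExpand]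

/-- A translate at a cusp, away from the bad index. -/
theorem exists_cusp_translate (c u : (ZMod v)ˣ)
    (hu : (1 : ZMod v) + (u : ZMod v) * ((N₁ : ZMod v) * c) ≠ 0) :
    ∃ (g : Gamma0 (N₁ * v)) (w : ZMod v),
      transMat v (u : ZMod v) * ((gamC N₁ v c : SL(2, ℤ)) : M2) = matOf g * transMat v w := by
  set w : ZMod v := (u : ZMod v) / (1 + (u : ZMod v) * ((N₁ : ZMod v) * c)) with hw
  set m : ℤ := (N₁ : ℤ) * ((c : ZMod v).val : ℤ) with hm
  have hCm : cuspC N₁ v c = (v : ℤ) * m := (natCast_cuspC c).2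
  have hmz : (m : ZMod v) = (N₁ : ZMod v) * c := by
    rw [hm]; push_cast; rw [ZMod.natCast_zmod_val]
  obtain ⟨G, hG⟩ : (v : ℤ) ∣
      ((u : ZMod v).val : ℤ) - (1 + ((u : ZMod v).val : ℤ) * m) * (w.val : ℤ) := by
    rw [← ZMod.intCast_zmod_eq_zero_iff_dvd]
    push_cast
    rw [ZMod.natCast_zmod_val, ZMod.natCast_zmod_val, hmz, hw, mul_div_cancel₀ _ hu, sub_self]
  refine ⟨HeckeH.mkGamma0 (1 + ((u : ZMod v).val : ℤ) * m) G (cuspC N₁ v c)
    (1 - m * (w.val : ℤ)) (by rw [hCm]; linear_combination m * hG)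
    (by rw [hCm, hm]; push_cast; exact ⟨((c : ZMod v).val : ℤ), by ring⟩), w, ?_⟩
  rw [HeckeH.matOf_mkGamma0, transMat, transMat]
  show _ * !![(1 : ℤ), 0; cuspC N₁ v c, 1] = _
  rw [Matrix.mul_fin_two, Matrix.mul_fin_two, hCm]
  ext i j
  fin_cases i <;> fin_cases j <;> simp [-ZMod.natCast_val] <;>
    first | ring1 | linear_combination hG

/-- The translate at the bad index. -/
theorem exists_cusp_bad (c u : (ZMod v)ˣ)
    (hu : (1 : ZMod v) + (u : ZMod v) * ((N₁ : ZMod v) * c) = 0) :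
    ∃ g : Gamma0 N₁,
      transMat v (u : ZMod v) * ((gamC N₁ v c : SL(2, ℤ)) : M2) =
        matOf g * !![((v * v : ℕ) : ℤ), 0; 0, 1] := by
  set m : ℤ := (N₁ : ℤ) * ((c : ZMod v).val : ℤ) with hm
  have hCm : cuspC N₁ v c = (v : ℤ) * m := (natCast_cuspC c).2
  have hmz : (m : ZMod v) = (N₁ : ZMod v) * c := by
    rw [hm]; push_cast; rw [ZMod.natCast_zmod_val]
  obtain ⟨P, hP⟩ : (v : ℤ) ∣ 1 + ((u : ZMod v).val : ℤ) * m := by
    rw [← ZMod.intCast_zmod_eq_zero_iff_dvd]
    push_cast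
    rw [ZMod.natCast_zmod_val, hmz, hu]
  refine ⟨HeckeH.mkGamma0 P ((u : ZMod v).val : ℤ) m (v : ℤ) (by linear_combination -hP)
    (by rw [hm]; exact dvd_mul_right _ _), ?_⟩
  rw [HeckeH.matOf_mkGamma0, transMat]
  show _ * !![(1 : ℤ), 0; cuspC N₁ v c, 1] = _
  rw [Matrix.mul_fin_two, Matrix.mul_fin_two, hCm]
  ext i j
  fin_cases i <;> fin_cases j <;> simp [-ZMod.natCast_val] <;>
    first | ring1 | linear_combination (v : ℤ) * hP

/-- The translate at the bad index, reduced. -/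
theorem translate_bad (hC : Cond N₁ v A) (h : modularFunctionFieldBar N₁) {U : LaurentSeries k}
    (hh0 : (h : LaurentSeries ℚ̄) ≠ 0) (hU0 : U ≠ 0)
    (hcl : cl A π (h : LaurentSeries ℚ̄) = qcls U) (c u : (ZMod v)ˣ)
    (hb : (1 : ZMod v) + (u : ZMod v) * ((N₁ : ZMod v) * c) = 0) :
    ∃ T : LaurentSeries ℚ̄,
      (∀ hdet, HasQExp 1 (fun z => evQ h
        (glM (transMat v (u : ZMod v) * ((gamC N₁ v c : SL(2, ℤ)) : M2)) hdet • z)) (coeffMap ι₀ T)) ∧
      Scalable A π T ∧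
      cl A π T = (v * v) • qcls (coeffMap ((frobeniusEquiv k v).symm : k →+* k)
        (coeffMap ((frobeniusEquiv k v).symm : k →+* k) U)) := by
  haveI : NeZero (v * v) := ⟨Nat.mul_ne_zero (NeZero.ne v) (NeZero.ne v)⟩
  have hSc : Scalable A π (h : LaurentSeries ℚ̄) :=
    scalable_of_mem_Sc hC.prime hC.liesOver (bar_le_Sc _ h.2) hh0
  have hmod := isModFun_ev (Torsion.embFC N₁ ι₀ h)
  obtain ⟨g, hg⟩ := exists_cusp_bad c u hb
  refine ⟨qExpand ℚ̄ (v * v) (h : LaurentSeries ℚ̄), fun hdet => ?_, ?_, ?_⟩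
  · have hDg : (!![((v * v : ℕ) : ℤ), 0; 0, 1] : M2).det ≠ 0 := by
      rw [Matrix.det_fin_two_of]; simpa using NeZero.ne v
    have hg0 : ((matOf g : M2)).det ≠ 0 := by rw [HeckeH.det_matOf]; exact one_ne_zero
    have hφ : ∀ z : ℍ, ((glM _ hDg • z : ℍ) : ℂ) = ((v * v : ℕ) : ℂ) * z := by
      intro z
      rw [coe_smul_of_det_pos]
      · simp [num, denom, HeckeH.val_glM]
      · rw [Matrix.GeneralLinearGroup.val_det_apply]
        refine det_glM_pos _ ?_
        rw [Matrix.det_fin_two_of, mul_one, mul_zero, sub_zero]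
        exact_mod_cast Nat.pos_of_ne_zero (NeZero.ne (v * v))
    rw [coeffMap_qExpand]
    refine ((hasQExp_ev (Torsion.embFC N₁ ι₀ h)).comp_mul (v * v) hφ).congr
      (Eventually.of_forall fun z => ?_)
    show _ = ev ((Torsion.embFC N₁ ι₀ h : FC N₁) : LaurentSeries ℂ) _
    rw [HeckeH.glM_mul_smul hg0 hDg hdet hg z]
    refine (hmod.smul g (glM _ hDg • z)).symm.trans ?_
    exact congrArg _ (HeckeH.glM_SL (g : SL(2, ℤ)) hg0 _).symm
  · exact scalable_of_mem_Sc hC.prime hC.liesOver (qExpand_mem_Sc _ (bar_le_Sc _ h.2))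
      ((_root_.map_ne_zero _).mpr hh0)
  · obtain ⟨d, hd0, hdV, hdr⟩ := Scalable.exists_smul A π hSc
    obtain ⟨h1, h2⟩ := gval_qExpand A π (v * v) hdV
    rw [map_mul, show qExpand ℚ̄ (v * v) (HahnSeries.C d) = HahnSeries.C d by
      rw [HahnSeries.C_apply, qExpand_single, mul_zero]] at h1 h2
    have h3 : gval A π (HahnSeries.C d * qExpand ℚ̄ (v * v) (h : LaurentSeries ℚ̄)) ≠ 0 := by
      rw [h2]; exact (map_ne_zero_iff _ (qExpand_injective _)).mpr hdr
    rw [cl_eq IsLocalRing.residue_surjective hd0 h1 h3, h2, pow_sq_eq_qExpand]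
    rw [cl_eq IsLocalRing.residue_surjective hd0 hdV hdr] at hcl
    obtain ⟨e, he, hee⟩ := exists_C_of_qcls_eq hdr hU0 hcl
    have hC1 : ∀ x : k, coeffMap ((frobeniusEquiv k v).symm : k →+* k) (HahnSeries.C x) =
        HahnSeries.C ((frobeniusEquiv k v).symm x) := fun x => coeffMap_single _ _ _
    rw [hee, map_mul, map_mul, mul_pow, hC1, hC1, ← map_pow]
    have hV : coeffMap ((frobeniusEquiv k v).symm : k →+* k)
        (coeffMap ((frobeniusEquiv k v).symm : k →+* k) U) ≠ 0 :=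
      (_root_.map_ne_zero _).mpr ((_root_.map_ne_zero _).mpr hU0)
    rw [qcls_C_mul (pow_ne_zero _ (by simpa using he)) (pow_ne_zero _ hV), qcls_pow hV]

/-- The translate away from the bad index, reduced. -/
theorem translate_good (hC : Cond N₁ v A) (h : modularFunctionFieldBar N₁)
    (hh0 : (h : LaurentSeries ℚ̄) ≠ 0) (c u : (ZMod v)ˣ)
    (hb : (1 : ZMod v) + (u : ZMod v) * ((N₁ : ZMod v) * c) ≠ 0) :
    ∃ T : LaurentSeries ℚ̄,
      (∀ hdet, HasQExp 1 (fun z => evQ h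
        (glM (transMat v (u : ZMod v) * ((gamC N₁ v c : SL(2, ℤ)) : M2)) hdet • z)) (coeffMap ι₀ T)) ∧
      Scalable A π T ∧ cl A π T = cl A π (h : LaurentSeries ℚ̄) := by
  have hSc : Scalable A π (h : LaurentSeries ℚ̄) :=
    scalable_of_mem_Sc hC.prime hC.liesOver (bar_le_Sc _ h.2) hh0
  have hmod := isModFun_ev (Torsion.embFC N₁ ι₀ h)
  obtain ⟨g, w, hg⟩ := exists_cusp_translate c u hb
  refine ⟨ModularCosets.twist (zetaQ v ^ w.val) (h : LaurentSeries ℚ̄), fun hdet => ?_, ?_, ?_⟩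
  · have hw0 := det_transMat_ne v w
    have hg0 : ((matOf g : M2)).det ≠ 0 := by rw [HeckeH.det_matOf]; exact one_ne_zero
    rw [twist_coe]
    refine (hasQExp_tr (hasQExp_ev (Torsion.embFC N₁ ι₀ h)) w).congr
      (Eventually.of_forall fun z => ?_)
    show _ = ev ((Torsion.embFC N₁ ι₀ h : FC N₁) : LaurentSeries ℂ) _
    rw [HeckeH.glM_mul_smul hg0 hw0 hdet hg z, glM_transMat_smul]
    refine (hmod.smul' (γ := (g : SL(2, ℤ))) ?_ |> fun e => (congrFun e (tr v w z)).symm).trans ?_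
    · have hN := (Int.natCast_dvd_natCast.mpr (dvd_mul_right N₁ v)).trans (HeckeH.matOf_dvd g)
      rw [Gamma0_mem, ZMod.intCast_zmod_eq_zero_iff_dvd]
      exact hN
    · exact congrArg _ (HeckeH.glM_SL (g : SL(2, ℤ)) hg0 _).symm
  · refine scalable_of_mem_Sc hC.prime hC.liesOver (twist_mem_Sc (NeZero.ne v) ?_
      (bar_le_Sc _ h.2)) ((_root_.map_ne_zero _).mpr hh0)
    rw [← pow_mul, mul_comm, pow_mul, (zetaQ_isPrimitiveRoot v).pow_eq_one, one_pow]
  · exact cl_twist_zeta hC _ hSc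

theorem coe_frobG_inv_smul (x : K₁) :
    (((frobG N₁ v A)⁻¹ • x : K₁) : LaurentSeries k) =
      coeffMap ((frobeniusEquiv k v).symm : k →+* k) (x : LaurentSeries k) := by
  unfold frobG
  rw [← map_inv, Kronecker.coe_coeffGalois_smul]
  rfl

theorem coe_frobT_twice (p : ℕ) (P : Pic0.torsion k K₁ p) :
    (frobT N₁ v A p (frobT N₁ v A p P) : Pic0 k K₁) =
      ((frobG N₁ v A)⁻¹ * (frobG N₁ v A)⁻¹) • (P : Pic0 k K₁) := by
  unfold frobT
  exact (mul_smul (frobG N₁ v A)⁻¹ (frobG N₁ v A)⁻¹ (P : Pic0 k K₁)).symm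

/-- The Kummer class of `F⁻² P` is the Frobenius twist of that of `P`. -/
theorem kumCls_frobT_twice (hC : Cond N₁ v A) {p : ℕ} [NeZero p] (P : Pic0.torsion k K₁ p)
    {E : Divisor.degZero (K := k) (F := K₁)} {u : K₁} (hu : u ≠ 0)
    (hE : Pic0.mk E = (P : Pic0 k K₁))
    (hdiv : ∀ w, (p • (E : Divisor k K₁)) w = w.ord u) :
    kumCls hC p (frobT N₁ v A p (frobT N₁ v A p P)) =
      QuotientAddGroup.mk (qcls (coeffMap ((frobeniusEquiv k v).symm : k →+* k)
        (coeffMap ((frobeniusEquiv k v).symm : k →+* k) (u : LaurentSeries k)))) := by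
  refine isKum_unique hC (isKum_kumCls hC _) ?_
  have h1 := isKum_smul (p := p) ((frobG N₁ v A)⁻¹ * (frobG N₁ v A)⁻¹) hu hdiv
  have e1 : ((frobG N₁ v A)⁻¹ * (frobG N₁ v A)⁻¹) • Pic0.mk E =
      (frobT N₁ v A p (frobT N₁ v A p P) : Pic0 k K₁) :=
    (congrArg (((frobG N₁ v A)⁻¹ * (frobG N₁ v A)⁻¹) • ·) hE).trans (coe_frobT_twice p P).symm
  have e2 : ((((frobG N₁ v A)⁻¹ * (frobG N₁ v A)⁻¹) • u : K₁) : LaurentSeries k) =
      coeffMap ((frobeniusEquiv k v).symm : k →+* k)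
        (coeffMap ((frobeniusEquiv k v).symm : k →+* k) (u : LaurentSeries k)) :=
    (congrArg Subtype.val (mul_smul (frobG N₁ v A)⁻¹ (frobG N₁ v A)⁻¹ u)).trans
      ((coe_frobG_inv_smul _).trans (congrArg _ (coe_frobG_inv_smul u)))
  exact (congrArg₂ (IsKum p) e1
    (congrArg (fun x => (QuotientAddGroup.mk (qcls x) : RedQ₁ N₁ A p)) e2)).mp h1

theorem nsmul_torsion_eq_zero {K F : Type*} [Field K] [Field F] [Algebra K F] {n : ℕ}
    (P : Pic0.torsion K F n) : n • P = 0 := by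
  apply Subtype.ext
  rw [AddSubgroup.coe_nsmul, ZeroMemClass.coe_zero, ← natCast_zsmul]
  exact Pic0.mem_torsion.mp P.2

theorem nsmul_kumCls (hC : Cond N₁ v A) {p : ℕ} [NeZero p] (P : Pic0.torsion k K₁ p) :
    p • kumCls hC p P = 0 :=
  (map_nsmul (kumCls hC p) p P).symm.trans
    ((congrArg (kumCls hC p) (nsmul_torsion_eq_zero P)).trans (map_zero _))

open Classical in
/-- Counting the translates. -/
theorem count_translates {G : Type*} [AddCommGroup G] (hv : v.Prime) (hN : ¬ v ∣ N₁) {p : ℕ}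
    (hpv : p ∣ v - 1) (c : (ZMod v)ˣ) (κ κ2 : G) (h1 : p • κ = 0) (h2 : p • κ2 = 0) :
    (∑ u : (ZMod v)ˣ,
      if (1 : ZMod v) + (u : ZMod v) * ((N₁ : ZMod v) * c) = 0 then (v * v) • κ2 else κ) =
      κ2 - κ := by
  have hN' : (N₁ : ZMod v) ≠ 0 := fun e => hN ((ZMod.natCast_eq_zero_iff _ _).mp e)
  set m : ZMod v := (N₁ : ZMod v) * c with hm
  have hm0 : m ≠ 0 := mul_ne_zero hN' c.ne_zero
  set u₀ : (ZMod v)ˣ := Units.mk0 (-m⁻¹) (neg_ne_zero.mpr (inv_ne_zero hm0)) with hu₀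
  have hbad : ∀ u : (ZMod v)ˣ, (1 : ZMod v) + (u : ZMod v) * m = 0 ↔ u = u₀ := fun u => by
    rw [Units.ext_iff, hu₀, Units.val_mk0]
    constructor <;> intro h'
    · field_simp; linear_combination h'
    · rw [h', neg_mul, inv_mul_cancel₀ hm0, add_neg_cancel]
  simp only [hbad]
  rw [← Finset.add_sum_erase _ _ (Finset.mem_univ u₀), if_pos rfl,
    Finset.sum_congr rfl fun u hu => if_neg (Finset.ne_of_mem_erase hu), Finset.sum_const,
    Finset.card_erase_of_mem (Finset.mem_univ u₀), Finset.card_univ, ZMod.card_units]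
  have hv2 := hv.two_le
  obtain ⟨i, hi⟩ := hpv
  have e1 : (v * v) • κ2 = κ2 := by
    have hvv : v * v = (v - 1) * (v + 1) + 1 := by
      obtain ⟨j, rfl⟩ : ∃ j, v = j + 1 := ⟨v - 1, by omega⟩
      simp only [Nat.add_sub_cancel]; ring
    rw [hvv, succ_nsmul, hi, mul_assoc, mul_nsmul, h2, smul_zero, zero_add]
  have e2 : (v - 1 - 1) • κ = -κ := by
    rw [eq_neg_iff_add_eq_zero, ← succ_nsmul, show v - 1 - 1 + 1 = v - 1 by omega, hi, mul_nsmul,
      h1, smul_zero]
  rw [e1, e2, sub_eq_add_neg]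

/-- **The reduction of a depletion.** -/
theorem redC_depletion (hC : Cond N₁ v A) {p : ℕ} [Fact p.Prime] (hpv : p ∣ v - 1)
    (φ : Period.H N₁ (ZMod p) (ZMod p)) (Φd : Period.H M₀ (ZMod p) (ZMod p))
    (hd : ∀ γ : Gamma0 M₀, (Φd : Additive (Gamma0 M₀) →+ ZMod p) (Additive.ofMul γ) =
      ∑ u : (ZMod v)ˣ, (Period.restrictH (dvd_mul_right N₁ v) φ :
        Additive (Gamma0 (N₁ * v)) →+ ZMod p)
          (Additive.ofMul (twistElt (dvd_mul_left v N₁) dvd_rfl γ (u : ZMod v))))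
    (c : (ZMod v)ˣ) :
    redC hC c Φd = redUp N₁ A p (kumCls hC p (frobT N₁ v A p (frobT N₁ v A p (redT N₁ A p φ))) -
      kumCls hC p (redT N₁ A p φ)) := by
  classical
  haveI : NeZero (v * v) := ⟨Nat.mul_ne_zero (NeZero.ne v) (NeZero.ne v)⟩
  have hex := exists_kummer_level hC φ
  obtain ⟨h, hk, E, ū, hu0, hE, hdiv, hcl⟩ := hex
  have hvM : v ∣ M₀ := dvd_mul_left v _
  have hNM : N₁ ∣ M₀ := ⟨v * v, mul_assoc _ _ _⟩
  let κ := kumCls hC p (redT N₁ A p φ)
  let κ2 := kumCls hC p (frobT N₁ v A p (frobT N₁ v A p (redT N₁ A p φ)))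
  have hκ : κ = QuotientAddGroup.mk (qcls (ū : LaurentSeries k)) :=
    isKum_unique hC (isKum_kumCls hC _) ⟨E, ū, hu0, hE, hdiv, rfl⟩
  have hκ2 : κ2 = QuotientAddGroup.mk (qcls (coeffMap ((frobeniusEquiv k v).symm : k →+* k)
      (coeffMap ((frobeniusEquiv k v).symm : k →+* k) (ū : LaurentSeries k)))) :=
    kumCls_frobT_twice hC _ hu0 hE hdiv
  have hh0 : (h : LaurentSeries ℚ̄) ≠ 0 := fun e => hk.1 (Subtype.ext e)
  have hu0' : (ū : LaurentSeries k) ≠ 0 := fun e => hu0 (Subtype.ext e)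
  -- the translates
  let bad : (ZMod v)ˣ → Prop := fun u => (1 : ZMod v) + (u : ZMod v) * ((N₁ : ZMod v) * c) = 0
  have hT : ∀ u : (ZMod v)ˣ, ∃ T : LaurentSeries ℚ̄,
      (∀ hdet, HasQExp 1 (fun z => evQ (barUp hNM h)
        (glM (transMat v (u : ZMod v) * ((gamC N₁ v c : SL(2, ℤ)) : M2)) hdet • z)) (coeffMap ι₀ T)) ∧
      Scalable A π T ∧
      (QuotientAddGroup.mk (cl A π T) : RedQ N₁ A p) =
        redUp N₁ A p (if bad u then (v * v) • κ2 else κ) := by
    intro u
    rw [evQ_barUp]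
    by_cases hb : bad u
    · obtain ⟨T, h1, h2, h3⟩ := translate_bad hC h hh0 hu0' hcl c u hb
      refine ⟨T, h1, h2, ?_⟩
      rw [if_pos hb, h3, map_nsmul, hκ2, redUp_mk, QuotientAddGroup.mk_nsmul]
    · obtain ⟨T, h1, h2, h3⟩ := translate_good hC h hh0 c u hb
      exact ⟨T, h1, h2, by rw [if_neg hb, h3, hκ, redUp_mk, hcl]⟩
  choose T hTq hTs hTc using hT
  let Φ0 := -(Φd : Additive (Gamma0 M₀) →+ ZMod p)
  let Am : Option (ZMod v)ˣ → M2 := fun x =>
    x.elim ((gamC N₁ v c : SL(2, ℤ)) : M2)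
      fun u => transMat v (u : ZMod v) * ((gamC N₁ v c : SL(2, ℤ)) : M2)
  have hdet : ∀ x, 0 < (Am x).det := by
    rintro (_ | u)
    · exact det_gamC_pos c
    · show 0 < (transMat v (u : ZMod v) * _).det
      rw [Matrix.det_mul, det_transMat, (gamC N₁ v c).2, mul_one]
      exact_mod_cast Nat.pos_of_ne_zero (NeZero.ne (v * v))
  let co : Option (ZMod v)ˣ → GammaP hvM → Gamma0 M₀ := fun x δ =>
    x.elim (coC c δ) fun u => coT (u : ZMod v) (⟨coC c δ, dSq_coC c δ⟩ : GammaP hvM)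
  let Φi : Option (ZMod v)ˣ → Additive (Gamma0 M₀) →+ ZMod p := fun x =>
    x.elim Φ0 fun _ => (Period.restrictH hNM φ : Additive (Gamma0 M₀) →+ ZMod p)
  let hi : Option (ZMod v)ˣ → modularFunctionFieldBar M₀ := fun x =>
    x.elim (kum Φd)⁻¹ fun _ => barUp hNM h
  let Ti : Option (ZMod v)ˣ → LaurentSeries ℚ̄ := fun x =>
    x.elim (tauQ hC.prime hC.ndvd c (kum Φd)⁻¹) T
  have hk0 := (hasKummer_kum Φd).1
  have hTis : ∀ x, Scalable A π (Ti x) := by
    rintro (_ | u)
    · exact hC.scalable_tau c (inv_ne_zero hk0)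
    · exact hTs u
  have hroot := exists_root_of_relation (n := p) (N₁ := N₁) rfl Am hdet hvM co
    (fun x δ => by
      cases x with
      | none => exact matOf_coC c δ
      | some u =>
        show transMat v (u : ZMod v) * _ * _ = matOf (coT (u : ZMod v) _) * (_ * _)
        rw [Matrix.mul_assoc, matOf_coC, ← Matrix.mul_assoc]
        rw [show transMat v (u : ZMod v) * matOf (coC c δ) =
          matOf (coT (u : ZMod v) (⟨coC c δ, dSq_coC c δ⟩ : GammaP hvM)) * transMat v (u : ZMod v)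
          from matOf_coT (u : ZMod v) (⟨coC c δ, dSq_coC c δ⟩ : GammaP hvM), Matrix.mul_assoc])
    (φ := Φi) (h := hi)
    (fun x => by
      cases x with
      | none => exact (hasKummer_kum Φd).neg
      | some u => exact hk.restrict hNM)
    Ti (fun x => scalable_ne_zero (hTis x))
    (fun x => by
      cases x with
      | none =>
        show HasQExp 1 _ (coeffMap ι₀ (tauQ hC.prime hC.ndvd c (kum Φd)⁻¹))
        rw [coeffMap_tauQ hC.prime hC.ndvd]
        refine (hasQExp_tauC c _).congr (Eventually.of_forall fun z => ?_)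
        show _ = evQ ((kum Φd)⁻¹) (glM ((gamC N₁ v c : SL(2, ℤ)) : M2) _ • z)
        exact congrArg (evQ ((kum Φd)⁻¹)) (HeckeH.glM_SL _ _ z).symm
      | some u => exact hTq u _)
    (fun δ => by
      rw [Fintype.sum_option]
      show -(Φd : Additive (Gamma0 M₀) →+ ZMod p) (Additive.ofMul (coC c δ)) + _ = 0
      rw [hd, neg_add_eq_zero]
      refine Finset.sum_congr rfl fun u _ => ?_
      rfl)
  obtain ⟨G, hG, hGn⟩ := hroot
  have hG0 : G ≠ 0 := by
    intro e
    rw [e, zero_pow (NeZero.ne p)] at hGn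
    exact Finset.prod_ne_zero_iff.mpr (fun x _ => scalable_ne_zero (hTis x)) hGn.symm
  have hclG := (scalable_pow (hC.scalable hG hG0) p).2
  rw [hGn, (scalable_prod Finset.univ fun x _ => hTis x).2, Fintype.sum_option] at hclG
  have h1 : (QuotientAddGroup.mk (cl A π (Ti none) + ∑ u, cl A π (Ti (some u))) : RedQ N₁ A p) = 0 := by
    rw [QuotientAddGroup.eq_zero_iff, hclG]
    exact mem_powOf.mpr
      ⟨_, cl_mem_clsOf IsLocalRing.residue_surjective hC.resIn hG (hC.scalable hG hG0), rfl⟩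
  rw [QuotientAddGroup.mk_add, QuotientAddGroup.mk_sum] at h1
  have hneg : (QuotientAddGroup.mk (cl A π (Ti none)) : RedQ N₁ A p) = -redC hC c Φd := by
    have h2 : cl A π (tauQ hC.prime hC.ndvd c (kum Φd)⁻¹) +
        cl A π (tauQ hC.prime hC.ndvd c (kum Φd)) = 0 := by
      rw [← cl_mul IsLocalRing.residue_surjective (hC.scalable_tau c (inv_ne_zero hk0))
        (hC.scalable_tau c hk0), ← map_mul, inv_mul_cancel₀ hk0, map_one,
        cl_one IsLocalRing.residue_surjective]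
    show (QuotientAddGroup.mk (cl A π (tauQ hC.prime hC.ndvd c (kum Φd)⁻¹)) : RedQ N₁ A p) = _
    rw [redC_apply, redFun, eq_neg_of_add_eq_zero_left h2, QuotientAddGroup.mk_neg]
  rw [hneg, neg_add_eq_zero] at h1
  refine h1.trans ?_
  have hsum : ∀ u, (QuotientAddGroup.mk (cl A π (Ti (some u))) : RedQ N₁ A p) =
      redUp N₁ A p (if bad u then (v * v) • κ2 else κ) := hTc
  refine (Finset.sum_congr rfl fun u _ => hsum u).trans
    ((map_sum (redUp N₁ A p) _ _).symm.trans (congrArg (redUp N₁ A p) ?_))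
  -- counting
  have hp0 : ∀ P : Pic0.torsion k K₁ p, p • kumCls hC p P = 0 := by
    intro P
    exact nsmul_kumCls hC P
  exact count_translates hC.prime hC.ndvd hpv c κ κ2 (hp0 _) (hp0 _)

end FLTAgent.Lower.Levels.Gauss
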