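import Mathlib
import Fermat.Agent.Lower.Levels.Inertia.Depl
import Fermat.Agent.Lower.Levels.Inertia.Assemble
import Fermat.Agent.Kronecker.Specialization
import Fermat.Agent.HeckeH.Final

/-!
# A depletion dying at a cusp forces `T_v² = 4`

`frob_pair_of_redC_eq_zero`: if the depletion of `φ` dies at a cusp then its reduction `r`
satisfies `F² r + F⁻² r = 2 r`. With the congruence relation `T_v = F + v F⁻¹` and the
injectivity of reduction on `p`-torsion this gives `heckeH_sq_of_redC_eq_zero`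
(`T_v² φ = 4 φ`), and `eq_zero_of_sq_eq_four` excludes other generalised eigenvalues.
-/

set_option autoImplicit false
set_option linter.unusedSectionVars false
set_option linter.style.haveILetI false
set_option synthInstance.maxHeartbeats 400000
set_option maxHeartbeats 1000000

noncomputable section

open CongruenceSubgroup ModularCurve AlgebraicCurve
open scoped MatrixGroups

namespace FLTAgent.Lower.Levels.Gauss

local notation "ℚ̄" => AlgebraicClosure ℚ
local notation "ι₀" => Reps.qbarEmb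

theorem pair_of_fixed {P S : Type*} [AddCommGroup P] [Group S] [DistribMulAction S P] (g : S) (r : P)
    (h : g • (g⁻¹ • g⁻¹ • r - r) = g⁻¹ • g⁻¹ • r - r) :
    g • g • r + g⁻¹ • g⁻¹ • r = r + r := by
  have e : g • (g⁻¹ • g⁻¹ • r - r) = g⁻¹ • r - g • r := by rw [smul_sub, smul_inv_smul]
  have e2 : g • g • (g⁻¹ • g⁻¹ • r - r) = r - g • g • r := by
    rw [e, smul_sub, smul_inv_smul]
  rw [h, h] at e2
  linear_combination (norm := abel) e2

theorem quadratic_of_pair {P S : Type*} [AddCommGroup P] [Group S] [DistribMulAction S P]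
    (g : S) (r : P) (v : ℕ) (hv : ∀ x : S, v • x • r = x • r)
    (h : g • g • r + g⁻¹ • g⁻¹ • r = r + r) :
    g • (g • r + v • g⁻¹ • r) + v • g⁻¹ • (g • r + v • g⁻¹ • r) = 4 • r := by
  have h1 : v • r = r := by simpa using hv 1
  rw [hv g⁻¹, smul_add, smul_add, smul_inv_smul, inv_smul_smul, smul_add, h1]
  have h2 : v • g⁻¹ • g⁻¹ • r = g⁻¹ • g⁻¹ • r := by rw [smul_smul g⁻¹ g⁻¹ r]; exact hv _
  rw [h2]
  linear_combination (norm := abel) h

variable {N₁ v : ℕ} [NeZero N₁] [NeZero v] {A : ValuationSubring ℚ̄}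

local notation "k" => IsLocalRing.ResidueField A
local notation "M₀" => N₁ * v * v
local notation "K₁" => modularFunctionFieldFullC (IsLocalRing.ResidueField A) N₁

variable [CharP (IsLocalRing.ResidueField A) v] [PerfectRing (IsLocalRing.ResidueField A) v]
  [Fact v.Prime]

/-- If the depletion dies at a cusp, the reduction `r` satisfies `F² r + F⁻² r = 2 r`. -/
theorem frob_pair_of_redC_eq_zero (hC : Cond N₁ v A) {p : ℕ} [Fact p.Prime] (hpv : p ∣ v - 1)
    (φ : Period.H N₁ (ZMod p) (ZMod p)) (Φd : Period.H M₀ (ZMod p) (ZMod p))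
    (hd : ∀ γ : Gamma0 M₀, (Φd : Additive (Gamma0 M₀) →+ ZMod p) (Additive.ofMul γ) =
      ∑ u : (ZMod v)ˣ, (Period.restrictH (dvd_mul_right N₁ v) φ :
        Additive (Gamma0 (N₁ * v)) →+ ZMod p)
          (Additive.ofMul (twistElt (dvd_mul_left v N₁) dvd_rfl γ (u : ZMod v))))
    (c : (ZMod v)ˣ) (h0 : redC hC c Φd = 0) :
    frobG N₁ v A • frobG N₁ v A • (redT N₁ A p φ : Pic0 k K₁) +
        (frobG N₁ v A)⁻¹ • (frobG N₁ v A)⁻¹ • (redT N₁ A p φ : Pic0 k K₁) =
      (redT N₁ A p φ : Pic0 k K₁) + (redT N₁ A p φ : Pic0 k K₁) := by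
  refine pair_of_fixed _ _ ?_
  have h1 := redC_depletion hC hpv φ Φd hd c
  rw [h0, ← map_sub] at h1
  have h2 := frob_fixed_of_map_eq_zero hC (Fact.out : p.Prime).ne_zero _ h1.symm
  rwa [AddSubgroup.coe_sub, coe_frobT_twice, mul_smul] at h2

/-- The congruence relation, applied twice. -/
theorem red_hecke_twice (hC : Cond N₁ v A) (z : JZero N₁) :
    reductionModL A N₁ (heckeOperatorBar N₁ ⟨v, Fact.out⟩ (heckeOperatorBar N₁ ⟨v, Fact.out⟩ z)) =
      frobG N₁ v A • (frobG N₁ v A • reductionModL A N₁ z +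
          v • (frobG N₁ v A)⁻¹ • reductionModL A N₁ z) +
        v • (frobG N₁ v A)⁻¹ • (frobG N₁ v A • reductionModL A N₁ z +
          v • (frobG N₁ v A)⁻¹ • reductionModL A N₁ z) := by
  have hin := Reduction.reductionInputsModL N₁ hC.ndvd A hC.liesOver
  have h1 := Kronecker.reductionModL_heckeOperatorBar hC.ndvd hin z
  have h2 := Kronecker.reductionModL_heckeOperatorBar hC.ndvd hin
    (heckeOperatorBar N₁ ⟨v, Fact.out⟩ z)
  rw [h1] at h2
  exact h2

theorem nsmul_frob_fixed (hC : Cond N₁ v A) {p : ℕ} [NeZero p] (hpv : p ∣ v - 1)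
    (P : Pic0.torsion k K₁ p) (g : SemilinearAut k K₁) :
    v • g • (P : Pic0 k K₁) = g • (P : Pic0 k K₁) := by
  have hg := nsmul_torsion_eq_zero (⟨g • (P : Pic0 k K₁), frobenius_smul_mem P.2 g⟩ :
    Pic0.torsion k K₁ p)
  have hg' : p • g • (P : Pic0 k K₁) = 0 :=
    (AddSubgroup.coe_nsmul _ ⟨g • (P : Pic0 k K₁), frobenius_smul_mem P.2 g⟩ p).symm.trans
      ((congrArg Subtype.val hg).trans (ZeroMemClass.coe_zero _))
  obtain ⟨i, hi⟩ := hpv
  have hv2 := hC.prime.two_le
  rw [show v = p * i + 1 by omega, succ_nsmul, mul_nsmul, hg', smul_zero, zero_add]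

/-- `T_v² = 4` on such a class. -/
theorem heckeH_sq_of_redC_eq_zero (hC : Cond N₁ v A) {p : ℕ} [Fact p.Prime] (hpv : p ∣ v - 1)
    (φ : Period.H N₁ (ZMod p) (ZMod p)) (Φd : Period.H M₀ (ZMod p) (ZMod p))
    (hd : ∀ γ : Gamma0 M₀, (Φd : Additive (Gamma0 M₀) →+ ZMod p) (Additive.ofMul γ) =
      ∑ u : (ZMod v)ˣ, (Period.restrictH (dvd_mul_right N₁ v) φ :
        Additive (Gamma0 (N₁ * v)) →+ ZMod p)
          (Additive.ofMul (twistElt (dvd_mul_left v N₁) dvd_rfl γ (u : ZMod v))))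
    (c : (ZMod v)ˣ) (h0 : redC hC c Φd = 0) :
    HeckeH.heckeH N₁ hC.prime (ZMod p) (ZMod p) (HeckeH.heckeH N₁ hC.prime (ZMod p) (ZMod p) φ) =
      4 • φ := by
  have hpair := frob_pair_of_redC_eq_zero hC hpv φ Φd hd c h0
  have hin := Reduction.reductionInputsModL N₁ hC.ndvd A hC.liesOver
  set x : Pic0.torsion ℚ̄ (modularFunctionFieldBar N₁) p :=
    (Torsion.jTorsionEquiv N₁ ι₀ p).symm φ with hx
  let T1 : Pic0.torsion ℚ̄ (modularFunctionFieldBar N₁) p →
      Pic0.torsion ℚ̄ (modularFunctionFieldBar N₁) p := fun z =>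
    ⟨heckeOperatorBar N₁ ⟨v, hC.prime⟩ (z : JZero N₁),
      HeckeH.heckeOperatorBar_mem_torsion N₁ ⟨v, hC.prime⟩ z.2⟩
  have hT : ∀ z, Torsion.jTorsionEquiv N₁ ι₀ p (T1 z) =
      HeckeH.heckeH N₁ hC.prime (ZMod p) (ZMod p) (Torsion.jTorsionEquiv N₁ ι₀ p z) := fun z => by
    rw [← HeckeH.heckeHT_eq_heckeH N₁ hC.prime (ZMod p) (ZMod p) hC.ndvd]
    exact HeckeH.jTorsionEquiv_heckeOperatorBar N₁ ι₀ hC.prime z
  have key : (T1 (T1 x) : JZero N₁) = 4 • (x : JZero N₁) := by
    have hz : p • ((T1 (T1 x) : JZero N₁) - 4 • (x : JZero N₁)) = 0 := by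
      have := congrArg Subtype.val (nsmul_torsion_eq_zero (T1 (T1 x) - 4 • x))
      simpa only [AddSubgroup.coe_nsmul, AddSubgroup.coe_sub, ZeroMemClass.coe_zero] using this
    have hvp : ¬ v ∣ p := fun h => by
      have e := (Nat.prime_dvd_prime_iff_eq hC.prime Fact.out).mp h
      have h2 := hC.prime.two_le
      have := Nat.le_of_dvd (by omega) hpv
      omega
    refine sub_eq_zero.mp (Reduction.eq_zero_of_reductionModL_eq_zero N₁ hC.ndvd A hC.liesOver hin p hvp _
      hz ?_)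
    rw [map_sub, map_nsmul, sub_eq_zero]
    exact (red_hecke_twice hC (x : JZero N₁)).trans
      (quadratic_of_pair _ _ v (nsmul_frob_fixed hC hpv (redT N₁ A p φ)) hpair)
  have e : T1 (T1 x) = 4 • x := Subtype.ext (key.trans (AddSubgroup.coe_nsmul _ _ _).symm)
  have h := congrArg (Torsion.jTorsionEquiv N₁ ι₀ p) e
  rwa [hT, hT, map_nsmul, hx, AddEquiv.apply_symm_apply] at h

omit [CharP (IsLocalRing.ResidueField A) v] [PerfectRing (IsLocalRing.ResidueField A) v] in
theorem pushH_heckeH {R B : Type} [CommRing R] [CommRing B] (ψ : R →+ B)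
    (x : Period.H N₁ R R) :
    pushH ψ (HeckeH.heckeH N₁ (Fact.out : v.Prime) R R x) =
      HeckeH.heckeH N₁ (Fact.out : v.Prime) B B (pushH ψ x) :=
  Subtype.ext ((HeckeH.heckeReps N₁ (Fact.out : v.Prime)).transfer_comp R
    (R' := B) ψ (x : Additive (Gamma0 N₁) →+ R)).symm

omit [CharP (IsLocalRing.ResidueField A) v] [PerfectRing (IsLocalRing.ResidueField A) v]
  [Fact v.Prime] in
/-- An operator with `T² = 4` has no other generalised eigenvalue. -/
theorem eq_zero_of_sq_eq_four {F V : Type*} [Field F] [AddCommGroup V] [Module F V]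
    (T : Module.End F V) {b : F} (hb : b ^ 2 ≠ 4) (j : ℕ) :
    ∀ x : V, T (T x) = 4 • x → ((T - b • (1 : Module.End F V)) ^ j) x = 0 → x = 0 := by
  induction j with
  | zero => intro x _ h; simpa using h
  | succ j ih =>
    intro x hx h
    rw [pow_succ, Module.End.mul_apply] at h
    have h4 : T (T ((T - b • (1 : Module.End F V)) x)) = 4 • (T - b • (1 : Module.End F V)) x := by
      simp only [LinearMap.sub_apply, LinearMap.smul_apply, Module.End.one_apply, map_sub, map_smul,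
        hx, map_nsmul, smul_sub, smul_comm (4 : ℕ) b]
    have h1 := ih _ h4 h
    rw [LinearMap.sub_apply, LinearMap.smul_apply, Module.End.one_apply, sub_eq_zero] at h1
    rw [h1, map_smul, h1, smul_smul, ← Nat.cast_smul_eq_nsmul F, ← sub_eq_zero, ← sub_smul] at hx
    refine (smul_eq_zero.mp hx).resolve_left fun e => hb ?_
    rw [sub_eq_zero] at e
    rw [sq, e]
    norm_num

end FLTAgent.Lower.Levels.Gauss
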